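/-
P10 / G7 WP-E (helper5), supersingular count: the field `E0 = K0(π₀)`, `π₀ ^ (p² - 1) = -p`, is
stable under the decomposition group; the decomposition group normalises `Gal(ℚ̄/E0)`; the inertia
group is generated by `Gal(ℚ̄/E0)` and any `g₁` acting on `π₀` through a primitive root of unity;
Frobenius elements conjugate `g₁` to `g₁ ^ p` modulo `Gal(ℚ̄/E0)`.
-/
import Fermat.Agent.Lib.TW.LF.LevelRoot
import Fermat.Agent.Lib.TW.Flat.Stable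

set_option autoImplicit false
set_option linter.unusedSectionVars false
set_option linter.style.haveILetI false

open scoped IntermediateField
open Polynomial

namespace Fermat.Agent.TW

open Fermat.Agent.S05Lib

local notation "Qb" => AlgebraicClosure ℚ
local notation "GQ" => (AlgebraicClosure ℚ ≃ₐ[ℚ] AlgebraicClosure ℚ)

/-- an automorphism mapping `E` and `y` into `E(y)` maps `E(y)` into itself -/
theorem lf_adjoin_map_mem {E : IntermediateField ℚ Qb} {y : Qb} {g : GQ}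
    (hE : ∀ x ∈ E, g x ∈ lfAdjoin E y) (hy : g y ∈ lfAdjoin E y) :
    ∀ x ∈ lfAdjoin E y, g x ∈ lfAdjoin E y := by
  let M : IntermediateField ℚ Qb := (lfAdjoin E y).map (g.symm : Qb →ₐ[ℚ] Qb)
  have hM : ∀ x, x ∈ M ↔ g x ∈ lfAdjoin E y := by
    intro x
    constructor
    · rintro ⟨z, hz, rfl⟩
      have : g (g.symm z) = z := g.apply_symm_apply z
      simpa [this] using hz
    · intro h
      exact ⟨g x, h, by simp⟩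
  have hle : lfAdjoin E y ≤ M :=
    lf_adjoin_le (fun x hx => (hM x).mpr (hE x hx)) ((hM y).mpr hy)
  exact fun x hx => (hM x).mp (hle hx)

/-- an automorphism stabilising `E` normalises `Gal(ℚ̄/E)` -/
theorem lf_conj_mem_fixingSubgroup {E : IntermediateField ℚ Qb} {g : GQ}
    (hE : ∀ x ∈ E, g x ∈ E) {σ : GQ} (hσ : σ ∈ E.fixingSubgroup) :
    g⁻¹ * σ * g ∈ E.fixingSubgroup := by
  rw [IntermediateField.mem_fixingSubgroup_iff] at hσ ⊢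
  intro x hx
  rw [AlgEquiv.mul_apply, AlgEquiv.mul_apply, hσ _ (hE x hx), ← AlgEquiv.mul_apply,
    inv_mul_cancel, AlgEquiv.one_apply]

namespace FFPlace

variable (𝔓 : FFPlace)

/-- roots of unity of order prime to `p` lie in `K0` -/
lemma ssc_root_mem_K0 {d : ℕ} (hd : d.Coprime 𝔓.p) {η : Qb} (hη : η ^ d = 1) : η ∈ 𝔓.K0 := by
  rw [𝔓.mem_K0_iff]
  intro σ hσ
  exact tame_inertia_fixes_rootOfUnity 𝔓.hp 𝔓.hP hσ hd hη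

lemma ssc_coprime : (𝔓.p ^ 2 - 1).Coprime 𝔓.p := by
  have hp := 𝔓.hp
  have h1 : 1 ≤ 𝔓.p ^ 2 := Nat.one_le_pow _ _ hp.pos
  rw [Nat.coprime_comm, Nat.Prime.coprime_iff_not_dvd hp]
  intro h
  have h2 : 𝔓.p ∣ 𝔓.p ^ 2 := dvd_pow_self _ (by norm_num)
  have h3 : 𝔓.p ∣ 𝔓.p ^ 2 - (𝔓.p ^ 2 - 1) := Nat.dvd_sub h2 h
  have h4 : 𝔓.p ^ 2 - (𝔓.p ^ 2 - 1) = 1 := by omega
  rw [h4] at h3
  exact hp.one_lt.ne' (Nat.dvd_one.mp h3)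

/-- the decomposition group stabilises `K0` -/
lemma ssc_D_map_K0 {g : GQ} (hg : g ∈ 𝔓.D) {x : Qb} (hx : x ∈ 𝔓.K0) : g x ∈ 𝔓.K0 := by
  rw [𝔓.mem_K0_iff] at hx ⊢
  intro τ hτ
  have h1 := hx _ (𝔓.conj_mem_I' hg hτ)
  have h2 : τ (g x) = g ((g⁻¹ * τ * g) x) := by
    have : g * (g⁻¹ * τ * g) = τ * g := by group
    rw [← AlgEquiv.mul_apply g, this, AlgEquiv.mul_apply]
  rw [h2, h1]

section E0

variable {π₀ : Qb} (hπ₀ : π₀ ^ (𝔓.p ^ 2 - 1) = -(𝔓.p : Qb))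
include hπ₀

lemma ssc_pi_ne_zero : π₀ ≠ 0 := (𝔓.lf_E0 hπ₀).1.ne_zero

/-- every automorphism multiplies `π₀` by a root of unity -/
lemma ssc_exists_root (g : GQ) : ∃ η : Qb, η ^ (𝔓.p ^ 2 - 1) = 1 ∧ g π₀ = η * π₀ := by
  have h0 := 𝔓.ssc_pi_ne_zero hπ₀
  refine ⟨g π₀ / π₀, ?_, by rw [div_mul_cancel₀ _ h0]⟩
  rw [div_pow, ← map_pow, hπ₀, map_neg, map_natCast, div_self]
  exact neg_ne_zero.mpr 𝔓.p_ne_zero

/-- the decomposition group stabilises `E0` -/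
lemma ssc_D_map_E0 {g : GQ} (hg : g ∈ 𝔓.D) :
    ∀ x ∈ lfAdjoin 𝔓.K0 π₀, g x ∈ lfAdjoin 𝔓.K0 π₀ := by
  apply lf_adjoin_map_mem
  · intro x hx
    exact lf_le_adjoin _ _ (𝔓.ssc_D_map_K0 hg hx)
  · obtain ⟨η, hη, hgπ⟩ := 𝔓.ssc_exists_root hπ₀ g
    rw [hgπ]
    exact mul_mem (lf_le_adjoin _ _ (𝔓.ssc_root_mem_K0 𝔓.ssc_coprime hη)) (lf_self_mem_adjoin _ _)

/-- the decomposition group normalises `Gal(ℚ̄/E0)` -/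
lemma ssc_conj_mem {g : GQ} (hg : g ∈ 𝔓.D) {σ : GQ}
    (hσ : σ ∈ (lfAdjoin 𝔓.K0 π₀).fixingSubgroup) :
    g⁻¹ * σ * g ∈ (lfAdjoin 𝔓.K0 π₀).fixingSubgroup :=
  lf_conj_mem_fixingSubgroup (𝔓.ssc_D_map_E0 hπ₀ hg) hσ

/-- an element of the inertia group fixing `π₀` lies in `Gal(ℚ̄/E0)` -/
lemma ssc_mem_fixingSubgroup {σ : GQ} (hσ : σ ∈ 𝔓.I) (h : σ π₀ = π₀) :
    σ ∈ (lfAdjoin 𝔓.K0 π₀).fixingSubgroup := by
  rw [FFPlace.lf_mem_fixingSubgroup_adjoin_iff]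
  refine ⟨?_, h⟩
  rw [𝔓.lf_fixingSubgroup_K0]
  exact hσ

lemma ssc_fixingSubgroup_le : (lfAdjoin 𝔓.K0 π₀).fixingSubgroup ≤ 𝔓.I :=
  𝔓.lf_fixingSubgroup_le (lf_le_adjoin _ _)

/-- the action of powers of `g₁` on `π₀` -/
lemma ssc_pow_apply {g₁ : GQ} (hg₁ : g₁ ∈ 𝔓.I) {ξ : Qb} (hξ : ξ ^ (𝔓.p ^ 2 - 1) = 1)
    (hgξ : g₁ π₀ = ξ * π₀) (j : ℕ) : (g₁ ^ j) π₀ = ξ ^ j * π₀ := by
  have hξK : g₁ ξ = ξ :=
    (𝔓.mem_K0_iff ξ).mp (𝔓.ssc_root_mem_K0 𝔓.ssc_coprime hξ) g₁ hg₁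
  induction j with
  | zero => simp
  | succ j ih =>
    rw [pow_succ', AlgEquiv.mul_apply, ih, map_mul, map_pow, hξK, hgξ, pow_succ]
    ring

/-- **the inertia group is generated by `g₁` and `Gal(ℚ̄/E0)`** -/
lemma ssc_exists_pow_mul {g₁ : GQ} (hg₁ : g₁ ∈ 𝔓.I) {ξ : Qb}
    (hξ : IsPrimitiveRoot ξ (𝔓.p ^ 2 - 1)) (hgξ : g₁ π₀ = ξ * π₀) {σ : GQ} (hσ : σ ∈ 𝔓.I) :
    ∃ j : ℕ, j < 𝔓.p ^ 2 - 1 ∧ (g₁ ^ j)⁻¹ * σ ∈ (lfAdjoin 𝔓.K0 π₀).fixingSubgroup := by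
  obtain ⟨η, hη, hση⟩ := 𝔓.ssc_exists_root hπ₀ σ
  have hd0 : 𝔓.p ^ 2 - 1 ≠ 0 := by
    have := 𝔓.hp.two_le
    have : 4 ≤ 𝔓.p ^ 2 := by nlinarith
    omega
  haveI : NeZero (𝔓.p ^ 2 - 1) := ⟨hd0⟩
  obtain ⟨j, hj, rfl⟩ := hξ.eq_pow_of_pow_eq_one hη
  refine ⟨j, hj, 𝔓.ssc_mem_fixingSubgroup hπ₀ (𝔓.I.mul_mem (𝔓.I.inv_mem (𝔓.I.pow_mem hg₁ j)) hσ) ?_⟩
  have h1 := 𝔓.ssc_pow_apply hπ₀ hg₁ hξ.pow_eq_one hgξ j
  have hξK : (g₁ ^ j)⁻¹ (ξ ^ j) = ξ ^ j := by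
    have hmem : ξ ^ j ∈ 𝔓.K0 := pow_mem (𝔓.ssc_root_mem_K0 𝔓.ssc_coprime hξ.pow_eq_one) j
    exact (𝔓.mem_K0_iff _).mp hmem _ (𝔓.I.inv_mem (𝔓.I.pow_mem hg₁ j))
  rw [AlgEquiv.mul_apply, hση, map_mul, hξK]
  have h2 : (g₁ ^ j)⁻¹ π₀ = (ξ ^ j)⁻¹ * π₀ := by
    have h3 : (g₁ ^ j)⁻¹ ((g₁ ^ j) π₀) = π₀ := by
      rw [← AlgEquiv.mul_apply, inv_mul_cancel, AlgEquiv.one_apply]
    rw [h1, map_mul, hξK] at h3
    have hne : ξ ^ j ≠ 0 := pow_ne_zero _ (hξ.ne_zero hd0)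
    rw [eq_comm, inv_mul_eq_iff_eq_mul₀ hne]
    exact h3.symm
  rw [h2]
  have hne : ξ ^ j ≠ 0 := pow_ne_zero _ (hξ.ne_zero hd0)
  field_simp

end E0

end FFPlace

end Fermat.Agent.TW
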