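/-
P10 / G7 WP-E (helper5), supersingular count: a Kummer class over `E0` of level `≥ p² + 1` on
which conjugation by `g₁` acts through a scalar `ε` with `ε ^ (p + 1) = 1` is trivial or has
level exactly `p² + 1`.
-/
import Fermat.Agent.Lib.TW.SSCount.E0

set_option autoImplicit false
set_option linter.unusedSectionVars false
set_option linter.style.haveILetI false

open scoped IntermediateField
open Polynomial

namespace Fermat.Agent.TW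

open Fermat.Agent.S05Lib

local notation "Qb" => AlgebraicClosure ℚ
local notation "GQ" => (AlgebraicClosure ℚ ≃ₐ[ℚ] AlgebraicClosure ℚ)

/-- `y ^ p = z ^ p` with `z ∈ E ∋ ζ_p` implies `y ∈ E` -/
lemma lf_mem_of_pow_eq {p : ℕ} [hp : Fact p.Prime] {E : IntermediateField ℚ Qb} {ζ : Qb}
    (hζ : IsPrimitiveRoot ζ p) (hζE : ζ ∈ E) {y z : Qb} (hz : z ∈ E) (hz0 : z ≠ 0)
    (h : y ^ p = z ^ p) : y ∈ E := by
  haveI : NeZero p := ⟨hp.out.ne_zero⟩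
  have h1 : (y / z) ^ p = 1 := by rw [div_pow, h, div_self (pow_ne_zero _ hz0)]
  obtain ⟨a, ha⟩ := lf_exists_eq_lfZPow hζ h1
  have h2 : y = lfZPow ζ a * z := by rw [← ha, div_mul_cancel₀ _ hz0]
  rw [h2]
  exact mul_mem (pow_mem hζE _) hz

namespace FFPlace

variable (𝔓 : FFPlace)

section Level

variable {k : Type*} [Field k] [Algebra (ZMod 𝔓.p) k]
  {W : Type*} [AddCommGroup W] [Module (ZMod 𝔓.p) W] [Module k W] [IsScalarTower (ZMod 𝔓.p) k W]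

/-- arithmetic: the only `i ∈ [p² + 1, p² + p)` with `p² - 1 ∣ (i - (p + 1)) (p + 1)` is
`p² + 1` -/
lemma ssc_arith {P i : ℕ} (hP : 2 ≤ P) (h1 : P ^ 2 + 1 ≤ i) (h2 : i < P ^ 2 + P)
    (hdvd : P ^ 2 - 1 ∣ (i - (P + 1)) * (P + 1)) : i = P ^ 2 + 1 := by
  have hsq : P ^ 2 - 1 = (P - 1) * (P + 1) := by
    have : 1 ≤ P := by omega
    zify [this, Nat.one_le_pow 2 P (by omega)]
    ring
  rw [hsq] at hdvd
  have h3 : P - 1 ∣ i - (P + 1) := Nat.dvd_of_mul_dvd_mul_right (by omega) hdvd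
  obtain ⟨t, ht⟩ := h3
  have hP1 : 1 ≤ P - 1 := by omega
  -- `P (P - 1) ≤ (P - 1) t < (P + 1) (P - 1)`
  have e1 : P ^ 2 = P * (P - 1) + P := by
    have : 1 ≤ P := by omega
    zify [this]
    ring
  have h4 : P * (P - 1) ≤ (P - 1) * t := by
    rw [← ht]
    omega
  have h5 : (P - 1) * t < (P - 1) * (P + 1) := by
    rw [← ht, ← hsq]
    have : 1 ≤ P ^ 2 := Nat.one_le_pow 2 P (by omega)
    omega
  have h6 : t < P + 1 := Nat.lt_of_mul_lt_mul_left h5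
  have h7 : P ≤ t := by
    rw [Nat.mul_comm P] at h4
    exact Nat.le_of_mul_le_mul_left h4 (by omega)
  have h8 : t = P := by omega
  rw [h8] at ht
  have : i - (P + 1) = P ^ 2 - P := by
    rw [ht, e1]
    have : (P - 1) * P = P * (P - 1) := Nat.mul_comm _ _
    omega
  have hle : P ≤ P ^ 2 := by nlinarith
  omega

theorem ssc_level_exact {π₀ : Qb} (hπ₀ : π₀ ^ (𝔓.p ^ 2 - 1) = -(𝔓.p : Qb)) {ζ : Qb}
    (hζ : IsPrimitiveRoot ζ 𝔓.p) {g₁ : GQ} (hg₁ : g₁ ∈ 𝔓.I) {ξ : Qb}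
    (hξ : IsPrimitiveRoot ξ (𝔓.p ^ 2 - 1)) (hgξ : g₁ π₀ = ξ * π₀) {c : GQ → W} {ε : k}
    (hε1 : ε ^ (𝔓.p + 1) = 1)
    (hε : ∀ σ ∈ (lfAdjoin 𝔓.K0 π₀).fixingSubgroup, c (g₁⁻¹ * σ * g₁) = ε • c σ)
    (ℓ : W →ₗ[ZMod 𝔓.p] ZMod 𝔓.p) {y : Qb} (hy0 : y ≠ 0)
    (hy : ∀ σ ∈ (lfAdjoin 𝔓.K0 π₀).fixingSubgroup, σ y = lfZPow ζ (ℓ (c σ)) * y) {w : Qb}
    (hw : w ∈ lfAdjoin 𝔓.K0 π₀) (hw0 : w ≠ 0)
    (hge : 𝔓.v.Ge (y ^ 𝔓.p / w ^ 𝔓.p - 1)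
      (((𝔓.p ^ 2 + 1 : ℕ) : ℚ) / ((𝔓.p ^ 2 - 1 : ℕ) : ℚ))) :
    y ∈ lfAdjoin 𝔓.K0 π₀ ∨
      𝔓.v.Is (y ^ 𝔓.p / w ^ 𝔓.p - 1) (((𝔓.p ^ 2 + 1 : ℕ) : ℚ) / ((𝔓.p ^ 2 - 1 : ℕ) : ℚ)) := by
  classical
  have hp := 𝔓.hp
  have hp2 : 2 ≤ 𝔓.p := hp.two_le
  have hsq4 : 4 ≤ 𝔓.p ^ 2 := by nlinarith
  obtain ⟨hunif, he, hζmem, -⟩ := 𝔓.lf_E0 hπ₀
  have hζE := hζmem ζ hζ
  set E0 := lfAdjoin 𝔓.K0 π₀ with hE0
  set e : ℕ := 𝔓.p ^ 2 - 1 with hedef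
  have hepos : (0 : ℚ) < e := by
    have : 0 < e := by omega
    exact_mod_cast this
  have hordπ : 𝔓.v.ord π₀ = 1 / e := by field_simp; linarith
  have hK0E : 𝔓.K0 ≤ E0 := lf_le_adjoin _ _
  -- `u = (y / w) ^ p ∈ E0`
  set u := y ^ 𝔓.p / w ^ 𝔓.p with hu
  have hypE : y ^ 𝔓.p ∈ E0 := lf_kummer_pow_mem E0 hζ.pow_eq_one (fun σ => ℓ (c σ)) hy
  have huE : u ∈ E0 := div_mem hypE (pow_mem hw _)
  have hwp0 : w ^ 𝔓.p ≠ 0 := pow_ne_zero _ hw0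
  by_cases hu1 : u - 1 = 0
  · left
    have h1 : y ^ 𝔓.p = w ^ 𝔓.p := by
      have := sub_eq_zero.mp hu1
      rw [hu, div_eq_one_iff_eq hwp0] at this
      exact this
    exact lf_mem_of_pow_eq hζ hζE hw hw0 h1
  -- the valuation of `u - 1` is `j / e`
  obtain ⟨j, hj⟩ := hunif.gen (u - 1) (sub_mem huE (one_mem _)) hu1
  rw [hordπ] at hj
  have hjge : ((𝔓.p ^ 2 + 1 : ℕ) : ℚ) ≤ j := by
    rcases hge with h0 | h0
    · exact absurd h0 hu1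
    · rw [hj] at h0
      have h1 : ((𝔓.p ^ 2 + 1 : ℕ) : ℚ) / e * e ≤ (j : ℚ) * (1 / e) * e :=
        mul_le_mul_of_nonneg_right h0 hepos.le
      have hene : (e : ℚ) ≠ 0 := hepos.ne'
      rw [div_mul_cancel₀ _ hene, mul_assoc, one_div_mul_cancel hene, mul_one] at h1
      exact h1
  have hj0 : 0 ≤ j := by
    have : (0 : ℚ) ≤ j := le_trans (Nat.cast_nonneg _) hjge
    exact_mod_cast this
  obtain ⟨i, rfl⟩ := Int.eq_ofNat_of_zero_le hj0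
  have hige : 𝔓.p ^ 2 + 1 ≤ i := by exact_mod_cast hjge
  have huis : 𝔓.v.Is (u - 1) ((i : ℚ) / e) := ⟨hu1, by rw [hj]; push_cast; ring⟩
  -- the generator `y / w`
  have hy' : ∀ σ ∈ E0.fixingSubgroup, σ (y / w) = lfZPow ζ (ℓ (c σ)) * (y / w) := by
    intro σ hσ
    rw [map_div₀, hy σ hσ, mul_div_assoc]
    rw [IntermediateField.mem_fixingSubgroup_iff] at hσ
    rw [hσ w hw]
  have hyw : (y / w) ^ 𝔓.p = u := by rw [div_pow]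
  have hpe : (𝔓.p : ℚ) / ((𝔓.p : ℚ) - 1) = ((𝔓.p ^ 2 + 𝔓.p : ℕ) : ℚ) / e := by
    have h1 : (e : ℚ) = (𝔓.p : ℚ) ^ 2 - 1 := by
      rw [hedef, Nat.cast_sub (by omega)]
      push_cast
      ring
    have h2 : ((𝔓.p : ℚ) - 1) ≠ 0 := by
      have : (2 : ℚ) ≤ 𝔓.p := by exact_mod_cast hp2
      linarith
    rw [h1]
    push_cast
    have h3 : (𝔓.p : ℚ) ^ 2 - 1 ≠ 0 := by rw [← h1]; exact hepos.ne'
    field_simp
    ring
  by_cases hbig : 𝔓.p ^ 2 + 𝔓.p ≤ i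
  · -- `u` is a `p`-th power
    left
    have h1 : 𝔓.v.Ge (u - 1) ((𝔓.p : ℚ) / ((𝔓.p : ℚ) - 1)) := by
      rw [hpe]
      refine huis.ge' ?_
      have : ((𝔓.p ^ 2 + 𝔓.p : ℕ) : ℚ) ≤ (i : ℚ) := by exact_mod_cast hbig
      exact div_le_div_of_nonneg_right this hepos.le
    obtain ⟨w₀, hw₀, hw₀u⟩ := 𝔓.lf_exists_root_of_ge hK0E hζ hζE huE h1
    have hu0 : u ≠ 0 := by
      rw [hu]
      exact div_ne_zero (pow_ne_zero _ hy0) hwp0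
    have hw₀0 : w₀ ≠ 0 := by
      rintro rfl
      rw [zero_pow hp.ne_zero] at hw₀u
      exact hu0 hw₀u.symm
    have h2 : y ^ 𝔓.p = (w₀ * w) ^ 𝔓.p := by
      rw [mul_pow, hw₀u, hu, div_mul_cancel₀ _ hwp0]
    exact lf_mem_of_pow_eq hζ hζE (mul_mem hw₀ hw) (mul_ne_zero hw₀0 hw0) h2
  · right
    rw [not_le] at hbig
    have hi : ¬ 𝔓.p ∣ i := by
      rintro ⟨t, rfl⟩
      -- `p² < p t < p² + p`
      have h1 : 𝔓.p * 𝔓.p < 𝔓.p * t := by nlinarith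
      have h2 : 𝔓.p * t < 𝔓.p * (𝔓.p + 1) := by nlinarith
      have h3 := Nat.lt_of_mul_lt_mul_left h1
      have h4 := Nat.lt_of_mul_lt_mul_left h2
      omega
    have hi0 : 0 < i := by omega
    have hlt : (i : ℚ) / e < (𝔓.p : ℚ) / ((𝔓.p : ℚ) - 1) := by
      rw [hpe]
      have : (i : ℚ) < ((𝔓.p ^ 2 + 𝔓.p : ℕ) : ℚ) := by exact_mod_cast hbig
      exact div_lt_div_of_pos_right this hepos
    -- `g₁ ζ = ζ ^ a`
    have hgζ1 : (g₁ ζ) ^ 𝔓.p = 1 := by rw [← map_pow, hζ.pow_eq_one, map_one]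
    haveI : NeZero 𝔓.p := ⟨hp.ne_zero⟩
    obtain ⟨a, -, ha⟩ := hζ.eq_pow_of_pow_eq_one hgζ1
    have hg₁E : ∀ σ ∈ E0.fixingSubgroup, g₁⁻¹ * σ * g₁ ∈ E0.fixingSubgroup :=
      fun σ hσ => 𝔓.ssc_conj_mem hπ₀ (𝔓.I_le_D hg₁) hσ
    have hP : aeval ε ((X : (ZMod 𝔓.p)[X]) ^ (𝔓.p + 1) - 1) = 0 := by
      rw [map_sub, map_pow, aeval_X, map_one, hε1, sub_self]
    have hroot := lf_level_root hunif he hζ hi hi0 hlt hg₁ hg₁E hε ℓ hy'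
      (by rw [hyw]; exact huis) ha.symm hP
    rw [Polynomial.map_sub, Polynomial.map_pow, Polynomial.map_X, Polynomial.map_one,
      Polynomial.eval_sub, Polynomial.eval_pow, Polynomial.eval_X, Polynomial.eval_one,
      sub_eq_zero] at hroot
    -- identify the residues
    have hπ0 := hunif.ne_zero
    have hξu : 𝔓.v.Is ξ 0 := 𝔓.is_zero_of_pow_eq_one (by omega) hξ.pow_eq_one
    have hκ : g₁ π₀ / π₀ = ξ := by rw [hgξ, mul_div_cancel_right₀ _ hπ0]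
    have hπ₁ : 𝔓.v.Is (π₀ ^ (𝔓.p + 1)) (1 / ((𝔓.p : ℚ) - 1)) := by
      have h1 : 𝔓.v.Is π₀ (𝔓.v.ord π₀) := ⟨hπ0, rfl⟩
      refine (h1.pow (𝔓.p + 1)).congr ?_
      rw [hordπ]
      have h1 : (e : ℚ) = (𝔓.p : ℚ) ^ 2 - 1 := by
        rw [hedef, Nat.cast_sub (by omega)]
        push_cast
        ring
      have h2 : ((𝔓.p : ℚ) - 1) ≠ 0 := by
        have : (2 : ℚ) ≤ 𝔓.p := by exact_mod_cast hp2
        linarith
      have h3 : (𝔓.p : ℚ) ^ 2 - 1 ≠ 0 := by rw [← h1]; exact hepos.ne'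
      rw [h1]
      push_cast
      field_simp
      ring
    have hares := 𝔓.lf_gt_apply_div_sub hζ hg₁ ha.symm hπ₁
    have e1 : g₁ (π₀ ^ (𝔓.p + 1)) / π₀ ^ (𝔓.p + 1) = ξ ^ (𝔓.p + 1) := by
      rw [map_pow, ← div_pow, hκ]
    rw [e1] at hares
    have hξpu : 𝔓.v.Is (ξ ^ (𝔓.p + 1)) 0 := by
      have := hξu.pow (𝔓.p + 1)
      rwa [mul_zero] at this
    have hares' : 𝔓.lfRes (ξ ^ (𝔓.p + 1)) = (a : 𝔓.LFk) := by
      rw [← lfRes_natCast, lfRes_eq_iff hξpu.ge (𝔓.lf_ge_natCast a)]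
      exact hares
    rw [hκ, ← hares', ← lfRes_pow hξu.ge, mul_pow, inv_pow] at hroot
    have hne : 𝔓.lfRes (ξ ^ (𝔓.p + 1)) ^ (𝔓.p + 1) ≠ 0 :=
      pow_ne_zero _ (lfRes_ne_zero_of_is hξpu)
    have hroot' : 𝔓.lfRes (ξ ^ i) ^ (𝔓.p + 1) = 𝔓.lfRes (ξ ^ (𝔓.p + 1)) ^ (𝔓.p + 1) := by
      have := congrArg (· * 𝔓.lfRes (ξ ^ (𝔓.p + 1)) ^ (𝔓.p + 1)) hroot
      simp only [one_mul] at this
      rwa [mul_assoc, inv_mul_cancel₀ hne, mul_one] at this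
    have hξiu : 𝔓.v.Is (ξ ^ i) 0 := by
      have := hξu.pow i
      rwa [mul_zero] at this
    rw [← lfRes_pow hξiu.ge, ← lfRes_pow hξpu.ge, ← pow_mul, ← pow_mul,
      lfRes_eq_iff (𝔓.ge_zero_pow hξu.ge _) (𝔓.ge_zero_pow hξu.ge _)] at hroot'
    have hcop : ¬ 𝔓.p ∣ 𝔓.p ^ 2 - 1 := by
      have := 𝔓.ssc_coprime
      rw [Nat.coprime_comm, Nat.Prime.coprime_iff_not_dvd hp] at this
      exact this
    have heq : ξ ^ (i * (𝔓.p + 1)) = ξ ^ ((𝔓.p + 1) * (𝔓.p + 1)) := by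
      by_contra hne'
      have h1 := 𝔓.lf_is_sub_of_pow_eq_one hcop (ξ := ξ ^ (i * (𝔓.p + 1)))
        (ξ' := ξ ^ ((𝔓.p + 1) * (𝔓.p + 1)))
        (by rw [← pow_mul, mul_comm, pow_mul, hξ.pow_eq_one, one_pow])
        (by rw [← pow_mul, mul_comm, pow_mul, hξ.pow_eq_one, one_pow]) hne'
      exact h1.not_gt hroot' le_rfl
    -- exponents
    have hile : 𝔓.p + 1 ≤ i := by nlinarith
    have h2 : ξ ^ ((i - (𝔓.p + 1)) * (𝔓.p + 1)) = 1 := by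
      have e2 : i * (𝔓.p + 1) = (i - (𝔓.p + 1)) * (𝔓.p + 1) + (𝔓.p + 1) * (𝔓.p + 1) := by
        rw [← Nat.add_mul, Nat.sub_add_cancel hile]
      rw [e2, pow_add] at heq
      have hne0 : ξ ^ ((𝔓.p + 1) * (𝔓.p + 1)) ≠ 0 := pow_ne_zero _ hξu.ne_zero
      exact mul_right_cancel₀ hne0 (by rw [heq, one_mul])
    have hdvd := (hξ.pow_eq_one_iff_dvd _).mp h2
    have hi_eq := ssc_arith hp2 hige hbig hdvd
    rw [hi_eq] at huis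
    exact huis

end Level

end FFPlace

end Fermat.Agent.TW
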