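/-
P10 / G7 WP-E (helper5), supersingular count: Frobenius elements act as `x ↦ x ^ p` on residues
and conjugate `g₁` to `g₁ ^ p` modulo `Gal(ℚ̄/E0)`.
-/
import Fermat.Agent.Lib.TW.SSCount.Level
import Fermat.Agent.Lib.TW.TWPrimes.Cyclo

set_option autoImplicit false
set_option linter.unusedSectionVars false
set_option linter.style.haveILetI false

open scoped IntermediateField
open Polynomial

namespace Fermat.Agent.TW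

open Fermat.Agent.S05Lib

local notation "Qb" => AlgebraicClosure ℚ
local notation "GQ" => (AlgebraicClosure ℚ ≃ₐ[ℚ] AlgebraicClosure ℚ)

namespace FFPlace

variable (𝔓 : FFPlace)

/-- a Frobenius element acts as `x ↦ x ^ p` on residues -/
theorem ssc_frob_gt {φ : GQ} (hφ : 𝔓.P.IsFrobeniusAt φ 𝔓.p) {x : Qb} (hx : 𝔓.v.Ge x 0) :
    𝔓.v.Gt (φ x - x ^ 𝔓.p) 0 := by
  have hD : φ ∈ 𝔓.D := hφ.mem_decompositionSubgroup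
  have h := Fermat.Agent.FrobDensity.valuation_frobenius_sub_pow_lt_one hφ (lf_mem_P hx)
  have hge : 𝔓.v.Ge (φ x - x ^ 𝔓.p) 0 := (𝔓.ge_D hD hx).sub (𝔓.ge_zero_pow hx _)
  rw [← lfRes_eq_zero_iff hge, lfRes_of_mem (lf_mem_P hge), IsLocalRing.residue_eq_zero_iff]
  exact (𝔓.P.valuation_lt_one_iff _).mpr h

lemma ssc_d_pos : 0 < 𝔓.p ^ 2 - 1 := by
  have := 𝔓.hp.two_le
  have : 4 ≤ 𝔓.p ^ 2 := by nlinarith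
  omega

/-- a Frobenius element raises roots of unity of order `p² - 1` to the `p`-th power -/
lemma ssc_frob_root {φ : GQ} (hφ : 𝔓.P.IsFrobeniusAt φ 𝔓.p) {η : Qb}
    (hη : η ^ (𝔓.p ^ 2 - 1) = 1) : φ η = η ^ 𝔓.p := by
  have hd : 0 < 𝔓.p ^ 2 - 1 := by
    have := 𝔓.hp.two_le
    have : 4 ≤ 𝔓.p ^ 2 := by nlinarith
    omega
  exact twp_frobenius_rootOfUnity 𝔓.hP hφ hd 𝔓.ssc_coprime hη

/-- **Frobenius conjugates `g₁` to `g₁ ^ p` modulo `Gal(ℚ̄/E0)`** -/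
theorem ssc_frob_conj {π₀ : Qb} (hπ₀ : π₀ ^ (𝔓.p ^ 2 - 1) = -(𝔓.p : Qb)) {φ : GQ}
    (hφ : 𝔓.P.IsFrobeniusAt φ 𝔓.p) {g₁ : GQ} (hg₁ : g₁ ∈ 𝔓.I) {ξ : Qb}
    (hξ : ξ ^ (𝔓.p ^ 2 - 1) = 1) (hgξ : g₁ π₀ = ξ * π₀) :
    (g₁ ^ 𝔓.p)⁻¹ * (φ * g₁ * φ⁻¹) ∈ (lfAdjoin 𝔓.K0 π₀).fixingSubgroup := by
  have hD : φ ∈ 𝔓.D := hφ.mem_decompositionSubgroup
  have hI : (g₁ ^ 𝔓.p)⁻¹ * (φ * g₁ * φ⁻¹) ∈ 𝔓.I :=
    𝔓.I.mul_mem (𝔓.I.inv_mem (𝔓.I.pow_mem hg₁ _)) (𝔓.conj_mem_I hD hg₁)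
  refine 𝔓.ssc_mem_fixingSubgroup hπ₀ hI ?_
  obtain ⟨η, hη, hφη⟩ := 𝔓.ssc_exists_root hπ₀ φ⁻¹
  have hηK : g₁ η = η := (𝔓.mem_K0_iff η).mp (𝔓.ssc_root_mem_K0 𝔓.ssc_coprime hη) g₁ hg₁
  have h1 : φ (η * π₀) = π₀ := by
    rw [← hφη, ← AlgEquiv.mul_apply, mul_inv_cancel, AlgEquiv.one_apply]
  have h2 : (φ * g₁ * φ⁻¹) π₀ = ξ ^ 𝔓.p * π₀ := by
    rw [AlgEquiv.mul_apply, AlgEquiv.mul_apply, hφη, map_mul, hηK, hgξ]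
    have e : η * (ξ * π₀) = ξ * (η * π₀) := by ring
    rw [e, map_mul, h1, 𝔓.ssc_frob_root hφ hξ]
  have h3 := 𝔓.ssc_pow_apply hπ₀ hg₁ hξ hgξ 𝔓.p
  rw [AlgEquiv.mul_apply, h2, ← h3, ← AlgEquiv.mul_apply, inv_mul_cancel, AlgEquiv.one_apply]

end FFPlace

end Fermat.Agent.TW
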