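/-
P10 / G7 WP-E (helper5), supersingular case: shared tools for the three local-field theorems
(KS-eps), (KS-top), (KS-dep).  The tame character `θ(σ) = σ π₀ / π₀` of `E0 = K0(π₀)`, the
structure lemmas on `Gal(ℚ̄/E0)` requested by the model side, residues of roots of unity, the
non-unit analogue of `lf_level_root`, and the case distinction `ssc_level_cases`.
-/
import Fermat.Agent.Lib.TW.SSCount.Frob

set_option autoImplicit false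
set_option linter.unusedSectionVars false
set_option linter.style.haveILetI false

open scoped IntermediateField
open Polynomial

namespace Fermat.Agent.TW

open Fermat.Agent.S05Lib

local notation "Qb" => AlgebraicClosure ℚ
local notation "GQ" => (AlgebraicClosure ℚ ≃ₐ[ℚ] AlgebraicClosure ℚ)

/-- primitive roots of unity in `ℚ̄` -/
lemma lf_exists_primitiveRoot {n : ℕ} (hn : n ≠ 0) : ∃ ξ : Qb, IsPrimitiveRoot ξ n := by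
  haveI : NeZero (n : Qb) := ⟨by exact_mod_cast hn⟩
  haveI : NeZero n := ⟨hn⟩
  exact HasEnoughRootsOfUnity.exists_primitiveRoot Qb n

/-- equal powers of a primitive root of unity -/
lemma lf_dvd_sub_of_pow_eq {F : Type*} [Field F] {η : F} {N : ℕ} (hN : N ≠ 0)
    (hη : IsPrimitiveRoot η N) {a b : ℕ} (h : η ^ a = η ^ b) : (N : ℤ) ∣ (a : ℤ) - b := by
  have h0 : η ≠ 0 := hη.ne_zero hN
  rw [← hη.zpow_eq_one_iff_dvd, zpow_sub₀ h0, zpow_natCast, zpow_natCast, h,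
    div_self (pow_ne_zero _ h0)]

namespace FFPlace

variable (𝔓 : FFPlace)

/-- the residue map is additive on finite sums of integers -/
lemma lfRes_sum {ι : Type*} (T : Finset ι) (f : ι → Qb) (hf : ∀ r ∈ T, 𝔓.v.Ge (f r) 0) :
    𝔓.lfRes (∑ r ∈ T, f r) = ∑ r ∈ T, 𝔓.lfRes (f r) := by
  classical
  induction T using Finset.induction_on with
  | empty => rw [Finset.sum_empty, Finset.sum_empty, lfRes_zero]
  | insert b T hb ih =>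
    rw [Finset.sum_insert hb, Finset.sum_insert hb,
      lfRes_add (hf b (Finset.mem_insert_self b T))
        (𝔓.ge_zero_sum _ _ fun r hr => hf r (Finset.mem_insert_of_mem hr)),
      ih fun r hr => hf r (Finset.mem_insert_of_mem hr)]

/-- the residue of a primitive root of unity of order prime to `p` is primitive -/
lemma ssc_res_primitive {N : ℕ} (hN : ¬ 𝔓.p ∣ N) {ξ : Qb} (hξ : IsPrimitiveRoot ξ N) :
    IsPrimitiveRoot (𝔓.lfRes ξ) N := by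
  have hN0 : 0 < N := Nat.pos_of_ne_zero (fun h => hN (h ▸ dvd_zero _))
  have hξu : 𝔓.v.Is ξ 0 := 𝔓.is_zero_of_pow_eq_one hN0 hξ.pow_eq_one
  refine ⟨by rw [← lfRes_pow hξu.ge, hξ.pow_eq_one, lfRes_one], fun l hl => ?_⟩
  rw [← lfRes_pow hξu.ge, ← lfRes_one (𝔓 := 𝔓),
    lfRes_eq_iff (𝔓.ge_zero_pow hξu.ge l) QVal.is_one.ge] at hl
  by_contra hnd
  have hne : ξ ^ l ≠ 1 := fun h => hnd ((hξ.pow_eq_one_iff_dvd l).mp h)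
  have h1 := 𝔓.lf_is_sub_of_pow_eq_one hN (ξ := ξ ^ l) (ξ' := 1)
    (by rw [← pow_mul, mul_comm, pow_mul, hξ.pow_eq_one, one_pow]) (one_pow N) hne
  exact h1.not_gt hl le_rfl

section E0

variable {π₀ : Qb} (hπ₀ : π₀ ^ (𝔓.p ^ 2 - 1) = -(𝔓.p : Qb))
include hπ₀

/-- `Gal(ℚ̄/E0)` is normal in the decomposition group -/
theorem ssc_E0_normal : ∀ σ ∈ 𝔓.D, ∀ τ ∈ (lfAdjoin 𝔓.K0 π₀).fixingSubgroup,
    σ * τ * σ⁻¹ ∈ (lfAdjoin 𝔓.K0 π₀).fixingSubgroup := by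
  intro σ hσ τ hτ
  have := 𝔓.ssc_conj_mem hπ₀ (𝔓.D.inv_mem hσ) hτ
  rwa [inv_inv] at this

/-- `Gal(ℚ̄/E0)` is the stabiliser of `π₀` in the inertia group -/
theorem ssc_mem_E0_fix_iff {τ : GQ} :
    τ ∈ (lfAdjoin 𝔓.K0 π₀).fixingSubgroup ↔ τ ∈ 𝔓.I ∧ τ π₀ = π₀ := by
  rw [FFPlace.lf_mem_fixingSubgroup_adjoin_iff, 𝔓.lf_fixingSubgroup_K0]

/-- the tame character takes values in the roots of unity of order `p² - 1` -/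
lemma ssc_theta_pow (g : GQ) : (g π₀ / π₀) ^ (𝔓.p ^ 2 - 1) = 1 := by
  rw [div_pow, ← map_pow, hπ₀, map_neg, map_natCast, div_self]
  exact neg_ne_zero.mpr 𝔓.p_ne_zero

lemma ssc_theta_is (g : GQ) : 𝔓.v.Is (g π₀ / π₀) 0 :=
  𝔓.is_zero_of_pow_eq_one 𝔓.ssc_d_pos (𝔓.ssc_theta_pow hπ₀ g)

lemma ssc_theta_mul {σ : GQ} (hσ : σ ∈ 𝔓.I) (τ : GQ) :
    (σ * τ) π₀ / π₀ = (σ π₀ / π₀) * (τ π₀ / π₀) := by
  have h0 := 𝔓.ssc_pi_ne_zero hπ₀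
  have hK : σ (τ π₀ / π₀) = τ π₀ / π₀ :=
    (𝔓.mem_K0_iff _).mp (𝔓.ssc_root_mem_K0 𝔓.ssc_coprime (𝔓.ssc_theta_pow hπ₀ τ)) σ hσ
  have h1 : τ π₀ = (τ π₀ / π₀) * π₀ := by rw [div_mul_cancel₀ _ h0]
  rw [AlgEquiv.mul_apply]
  conv_lhs => rw [h1, map_mul, hK]
  ring

lemma ssc_theta_one : (1 : GQ) π₀ / π₀ = 1 := by
  rw [AlgEquiv.one_apply, div_self (𝔓.ssc_pi_ne_zero hπ₀)]

lemma ssc_theta_inv {σ : GQ} (hσ : σ ∈ 𝔓.I) : σ⁻¹ π₀ / π₀ = (σ π₀ / π₀)⁻¹ := by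
  have h1 := 𝔓.ssc_theta_mul hπ₀ hσ σ⁻¹
  rw [mul_inv_cancel, 𝔓.ssc_theta_one hπ₀] at h1
  exact eq_inv_of_mul_eq_one_right h1.symm

lemma ssc_theta_npow {σ : GQ} (hσ : σ ∈ 𝔓.I) (n : ℕ) :
    (σ ^ n) π₀ / π₀ = (σ π₀ / π₀) ^ n := by
  induction n with
  | zero => rw [pow_zero, pow_zero, 𝔓.ssc_theta_one hπ₀]
  | succ n ih => rw [pow_succ', 𝔓.ssc_theta_mul hπ₀ hσ, ih, pow_succ']

/-- the inertia group acts on `E0` through an abelian quotient -/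
theorem ssc_E0_comm : ∀ g ∈ 𝔓.I, ∀ h ∈ 𝔓.I,
    g * h * g⁻¹ * h⁻¹ ∈ (lfAdjoin 𝔓.K0 π₀).fixingSubgroup := by
  intro g hg h hh
  refine 𝔓.ssc_mem_fixingSubgroup hπ₀
    (𝔓.I.mul_mem (𝔓.I.mul_mem (𝔓.I.mul_mem hg hh) (𝔓.I.inv_mem hg)) (𝔓.I.inv_mem hh)) ?_
  have h0 := 𝔓.ssc_pi_ne_zero hπ₀
  have hg0 : g π₀ / π₀ ≠ 0 := (𝔓.ssc_theta_is hπ₀ g).1
  have hh0 : h π₀ / π₀ ≠ 0 := (𝔓.ssc_theta_is hπ₀ h).1
  have e : (g * h * g⁻¹ * h⁻¹) π₀ / π₀ = 1 := by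
    rw [mul_assoc, mul_assoc, 𝔓.ssc_theta_mul hπ₀ hg, 𝔓.ssc_theta_mul hπ₀ hh,
      𝔓.ssc_theta_mul hπ₀ (𝔓.I.inv_mem hg), 𝔓.ssc_theta_inv hπ₀ hg, 𝔓.ssc_theta_inv hπ₀ hh]
    generalize g π₀ / π₀ = a at hg0 ⊢
    generalize h π₀ / π₀ = b at hh0 ⊢
    field_simp
  exact (div_eq_one_iff_eq h0).mp e

/-- a generator of the tame quotient `I / Gal(ℚ̄/E0)` -/
lemma ssc_exists_tame_gen :
    ∃ g₁ ∈ 𝔓.I, ∃ ξ : Qb, IsPrimitiveRoot ξ (𝔓.p ^ 2 - 1) ∧ g₁ π₀ = ξ * π₀ := by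
  obtain ⟨ξ, hξ⟩ := lf_exists_primitiveRoot (𝔓.ssc_d_pos).ne'
  obtain ⟨g₁, hg₁, h⟩ := (𝔓.lf_E0 hπ₀).2.2.2 ξ hξ.pow_eq_one
  exact ⟨g₁, hg₁, ξ, hξ, h⟩

/-- `ω(g) = θ(g) ^ (p + 1)` in the residue field -/
lemma ssc_res_cyclo {ζ : Qb} (hζ : IsPrimitiveRoot ζ 𝔓.p) {g : GQ} (hg : g ∈ 𝔓.I) {a : ℕ}
    (ha : g ζ = ζ ^ a) : (a : 𝔓.LFk) = 𝔓.lfRes (g π₀ / π₀) ^ (𝔓.p + 1) := by
  have hp := 𝔓.hp
  have hp2 : 2 ≤ 𝔓.p := hp.two_le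
  have hsq4 : 4 ≤ 𝔓.p ^ 2 := by nlinarith
  obtain ⟨hunif, he, -, -⟩ := 𝔓.lf_E0 hπ₀
  have hπ0 := hunif.ne_zero
  set e : ℕ := 𝔓.p ^ 2 - 1 with hedef
  have hepos : (0 : ℚ) < e := by
    have : 0 < e := by omega
    exact_mod_cast this
  have hordπ : 𝔓.v.ord π₀ = 1 / e := by field_simp; linarith
  have hπ₁ : 𝔓.v.Is (π₀ ^ (𝔓.p + 1)) (1 / ((𝔓.p : ℚ) - 1)) := by
    have h1 : 𝔓.v.Is π₀ (𝔓.v.ord π₀) := ⟨hπ0, rfl⟩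
    refine (h1.pow (𝔓.p + 1)).congr ?_
    rw [hordπ]
    have h1 : (e : ℚ) = (𝔓.p : ℚ) ^ 2 - 1 := by
      rw [hedef, Nat.cast_sub (by omega)]
      push_cast
      ring
    have h2 : ((𝔓.p : ℚ) - 1) ≠ 0 := by
      have : (2 : ℚ) ≤ 𝔓.p := by exact_mod_cast hp2
      linarith
    have h3 : (𝔓.p : ℚ) ^ 2 - 1 ≠ 0 := by rw [← h1]; exact hepos.ne'
    rw [h1]
    push_cast
    field_simp
    ring
  have hares := 𝔓.lf_gt_apply_div_sub hζ hg ha hπ₁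
  have e1 : g (π₀ ^ (𝔓.p + 1)) / π₀ ^ (𝔓.p + 1) = (g π₀ / π₀) ^ (𝔓.p + 1) := by
    rw [map_pow, ← div_pow]
  rw [e1] at hares
  have hθu := 𝔓.ssc_theta_is hπ₀ g
  have hθpu : 𝔓.v.Ge ((g π₀ / π₀) ^ (𝔓.p + 1)) 0 := 𝔓.ge_zero_pow hθu.ge _
  rw [← lfRes_pow hθu.ge, ← lfRes_natCast, eq_comm, lfRes_eq_iff hθpu (𝔓.lf_ge_natCast a)]
  exact hares

end E0

section Root

variable {k : Type*} [Field k] [Algebra (ZMod 𝔓.p) k]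
  {W : Type*} [AddCommGroup W] [Module (ZMod 𝔓.p) W] [Module k W] [IsScalarTower (ZMod 𝔓.p) k W]

/-- **(LEVELS), non-unit case**: if a Kummer generator `y` of `ℓ ∘ c` has `v(y ^ p) = n / e`
with `p ∤ n`, then `1 / ω(g₁)` is a root of every polynomial over `𝔽_p` vanishing at `ε`. -/
theorem lf_nonunit_root {E : IntermediateField ℚ Qb} {π : Qb} (hπ : 𝔓.LFUnif E π) {e : ℕ}
    (he : (e : ℚ) * 𝔓.v.ord π = 1) {ζ : Qb} (hζ : IsPrimitiveRoot ζ 𝔓.p)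
    {c : GQ → W} {g₁ : GQ} (hg₁ : g₁ ∈ 𝔓.I)
    (hg₁E : ∀ σ ∈ E.fixingSubgroup, g₁⁻¹ * σ * g₁ ∈ E.fixingSubgroup) {ε : k}
    (hε : ∀ σ ∈ E.fixingSubgroup, c (g₁⁻¹ * σ * g₁) = ε • c σ)
    (ℓ : W →ₗ[ZMod 𝔓.p] ZMod 𝔓.p) {y : Qb}
    (hy : ∀ σ ∈ E.fixingSubgroup, σ y = lfZPow ζ (ℓ (c σ)) * y)
    {n : ℤ} (hn : ¬ (𝔓.p : ℤ) ∣ n) (hyn : 𝔓.v.Is (y ^ 𝔓.p) ((n : ℚ) / e)) {a : ℕ}
    (ha : g₁ ζ = ζ ^ a) {P : (ZMod 𝔓.p)[X]} (hP : aeval ε P = 0) :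
    P.eval ((a : ZMod 𝔓.p)⁻¹) = 0 := by
  classical
  have hp := 𝔓.hp
  haveI : NeZero 𝔓.p := ⟨hp.ne_zero⟩
  have hζ1 := hζ.pow_eq_one
  have he0 : (e : ℚ) ≠ 0 := by
    rintro h0; rw [h0, zero_mul] at he; exact zero_ne_one he
  have hordπ : 𝔓.v.ord π = 1 / e := by field_simp; linarith
  set α : ZMod 𝔓.p := (a : ZMod 𝔓.p) with hα
  have hαζ : g₁ ζ = lfZPow ζ α := by rw [ha, hα, lfZPow_natCast hζ1]
  have hα0 : α ≠ 0 := by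
    intro h0
    rw [h0, lfZPow_zero] at hαζ
    have : ζ = 1 := g₁.injective (by rw [hαζ, map_one])
    exact hζ.ne_one hp.one_lt this
  set R := Finset.range (P.natDegree + 1) with hR
  have hpw := fun r => lf_conj_pow E.fixingSubgroup c hg₁E hε r
  have hgζ : ∀ r : ℕ, (g₁ ^ r) ζ = lfZPow ζ (α ^ r) := by
    intro r
    induction r with
    | zero => rw [pow_zero, pow_zero, AlgEquiv.one_apply, ← Nat.cast_one, lfZPow_natCast hζ1,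
        pow_one]
    | succ r ih =>
      rw [pow_succ', AlgEquiv.mul_apply, ih, lfZPow, map_pow, hαζ, ← lfZPow, lfZPow_mul hζ1,
        pow_succ']
  have hrel : ∀ σ ∈ E.fixingSubgroup,
      ∑ r ∈ R, P.coeff r * (fun σ => ℓ (c σ)) ((g₁ ^ r)⁻¹ * σ * g₁ ^ r) = 0 := by
    intro σ hσ
    have e1 : ∀ r ∈ R, P.coeff r * ℓ (c ((g₁ ^ r)⁻¹ * σ * g₁ ^ r)) =
        ℓ ((algebraMap (ZMod 𝔓.p) k (P.coeff r) * ε ^ r) • c σ) := by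
      intro r _
      rw [(hpw r).2 σ hσ, mul_smul, algebraMap_smul, ℓ.map_smul, smul_eq_mul]
    rw [Finset.sum_congr rfl e1, ← map_sum, ← Finset.sum_smul]
    have e2 : ∑ r ∈ R, algebraMap (ZMod 𝔓.p) k (P.coeff r) * ε ^ r = aeval ε P := by
      rw [Polynomial.aeval_eq_sum_range]
      exact Finset.sum_congr rfl fun r _ => by rw [Algebra.smul_def]
    rw [e2, hP, zero_smul, map_zero]
  have hw := lf_kummer_rel E hζ1 (fun σ => ℓ (c σ)) hy R (fun r => g₁ ^ r)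
    (fun r _ => (hpw r).1) (fun r => α ^ r) (fun r _ => pow_ne_zero r hα0) (fun r _ => hgζ r)
    (fun r => P.coeff r) hrel
  set m : ℕ → ℕ := fun r => (P.coeff r * (α ^ r)⁻¹).val with hm
  set w := ∏ r ∈ R, ((g₁ ^ r) y) ^ m r with hwdef
  have hprod : ∏ r ∈ R, ((g₁ ^ r) (y ^ 𝔓.p)) ^ m r = w ^ 𝔓.p := by
    rw [hwdef, ← Finset.prod_pow]
    refine Finset.prod_congr rfl fun r _ => ?_
    rw [map_pow, ← pow_mul, ← pow_mul, Nat.mul_comm]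
  -- valuations
  have hy0 : y ≠ 0 := by
    rintro rfl
    exact hyn.1 (zero_pow hp.ne_zero)
  have hw0 : w ≠ 0 := by
    rw [hwdef]
    exact Finset.prod_ne_zero_iff.mpr fun r _ =>
      pow_ne_zero _ ((map_ne_zero_iff _ (g₁ ^ r).injective).mpr hy0)
  have hIs : 𝔓.v.Is (∏ r ∈ R, ((g₁ ^ r) (y ^ 𝔓.p)) ^ m r)
      (∑ r ∈ R, (m r : ℚ) * ((n : ℚ) / e)) := by
    refine 𝔓.lf_is_prod R _ _ fun r _ => ?_
    exact (𝔓.is_D (𝔓.I_le_D (𝔓.I.pow_mem hg₁ r)) hyn).pow (m r)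
  rw [hprod] at hIs
  obtain ⟨j, hj⟩ := hπ.gen w hw hw0
  have hwp : 𝔓.v.Is (w ^ 𝔓.p) ((𝔓.p : ℚ) * (j * 𝔓.v.ord π)) := by
    have h1 : 𝔓.v.Is w (𝔓.v.ord w) := ⟨hw0, rfl⟩
    have h2 := h1.pow 𝔓.p
    rwa [hj] at h2
  have heq : ∑ r ∈ R, (m r : ℚ) * ((n : ℚ) / e) = (𝔓.p : ℚ) * (j * 𝔓.v.ord π) := by
    rw [← hIs.2, hwp.2]
  have h1 : ((∑ r ∈ R, (m r : ℤ)) * n : ℤ) = (𝔓.p : ℤ) * j := by
    have h2 : ((∑ r ∈ R, (m r : ℚ)) * n : ℚ) = (𝔓.p : ℚ) * j := by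
      rw [hordπ, ← Finset.sum_mul] at heq
      field_simp at heq
      linarith
    exact_mod_cast h2
  have h2 : (𝔓.p : ℤ) ∣ ∑ r ∈ R, (m r : ℤ) := by
    have h3 : (𝔓.p : ℤ) ∣ (∑ r ∈ R, (m r : ℤ)) * n := ⟨j, h1⟩
    exact ((Nat.prime_iff_prime_int.mp hp).dvd_or_dvd h3).resolve_right hn
  have h4 : ((∑ r ∈ R, (m r : ℤ) : ℤ) : ZMod 𝔓.p) = 0 :=
    (ZMod.intCast_zmod_eq_zero_iff_dvd _ _).mpr h2
  push_cast at h4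
  rw [Polynomial.eval_eq_sum_range, ← h4]
  refine Finset.sum_congr rfl fun r _ => ?_
  rw [hm]
  simp only
  rw [ZMod.natCast_zmod_val, inv_pow]

end Root

section Cases

variable {k : Type*} [Field k] [Algebra (ZMod 𝔓.p) k]
  {W : Type*} [AddCommGroup W] [Module (ZMod 𝔓.p) W] [Module k W] [IsScalarTower (ZMod 𝔓.p) k W]

/-- `e = p² - 1` as a rational number -/
lemma ssc_e_cast : ((𝔓.p ^ 2 - 1 : ℕ) : ℚ) = (𝔓.p : ℚ) ^ 2 - 1 := by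
  have := 𝔓.ssc_d_pos
  rw [Nat.cast_sub (by omega)]; push_cast; ring

/-- `i / e < p / (p - 1)` means `i < p² + p` -/
lemma ssc_lt_iff (i : ℕ) : (i : ℚ) / ((𝔓.p ^ 2 - 1 : ℕ) : ℚ) < (𝔓.p : ℚ) / ((𝔓.p : ℚ) - 1) ↔
    i < 𝔓.p ^ 2 + 𝔓.p := by
  have hp2 : (2 : ℚ) ≤ 𝔓.p := by exact_mod_cast 𝔓.hp.two_le
  have hepos : (0 : ℚ) < ((𝔓.p ^ 2 - 1 : ℕ) : ℚ) := by exact_mod_cast 𝔓.ssc_d_pos
  have hpe : (𝔓.p : ℚ) / ((𝔓.p : ℚ) - 1) =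
      ((𝔓.p ^ 2 + 𝔓.p : ℕ) : ℚ) / ((𝔓.p ^ 2 - 1 : ℕ) : ℚ) := by
    have h2 : ((𝔓.p : ℚ) - 1) ≠ 0 := by linarith
    have h3 : (𝔓.p : ℚ) ^ 2 - 1 ≠ 0 := by rw [← 𝔓.ssc_e_cast]; exact hepos.ne'
    rw [𝔓.ssc_e_cast]
    push_cast
    field_simp
    ring
  rw [hpe, div_lt_div_iff_of_pos_right hepos]
  exact_mod_cast Iff.rfl

/-- **case distinction for a Kummer class over `E0` on which conjugation by `g₁ ∈ I` acts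
through `ε`**: the class is trivial, or there is `j < p² + p` (`j = 0`: non-unit class, `p ∤ j`:
unit class of exact level `j`) such that `θ(g₁) ^ j / ω(g₁)` is, in the residue field, a root of
every polynomial over `𝔽_p` vanishing at `ε`. -/
theorem ssc_level_cases {π₀ : Qb} (hπ₀ : π₀ ^ (𝔓.p ^ 2 - 1) = -(𝔓.p : Qb)) {ζ : Qb}
    (hζ : IsPrimitiveRoot ζ 𝔓.p) {g₁ : GQ} (hg₁ : g₁ ∈ 𝔓.I) {c : GQ → W} {ε : k}
    (hε : ∀ σ ∈ (lfAdjoin 𝔓.K0 π₀).fixingSubgroup, c (g₁⁻¹ * σ * g₁) = ε • c σ)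
    (ℓ : W →ₗ[ZMod 𝔓.p] ZMod 𝔓.p) {y : Qb} (hy0 : y ≠ 0)
    (hy : ∀ σ ∈ (lfAdjoin 𝔓.K0 π₀).fixingSubgroup, σ y = lfZPow ζ (ℓ (c σ)) * y) :
    y ∈ lfAdjoin 𝔓.K0 π₀ ∨ ∃ j : ℕ, j < 𝔓.p ^ 2 + 𝔓.p ∧
      (∀ P : (ZMod 𝔓.p)[X], aeval ε P = 0 →
        (P.map 𝔓.lfCast).eval (𝔓.lfRes (g₁ π₀ / π₀) ^ j *
          (𝔓.lfRes (g₁ π₀ / π₀) ^ (𝔓.p + 1))⁻¹) = 0) ∧
      (j = 0 ∨ (¬ 𝔓.p ∣ j ∧ ∃ w ∈ lfAdjoin 𝔓.K0 π₀, w ≠ 0 ∧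
        𝔓.v.Is (y ^ 𝔓.p / w ^ 𝔓.p - 1) ((j : ℚ) / ((𝔓.p ^ 2 - 1 : ℕ) : ℚ)))) := by
  classical
  have hp := 𝔓.hp
  obtain ⟨hunif, he, hζmem, -⟩ := 𝔓.lf_E0 hπ₀
  have hζE := hζmem ζ hζ
  set E0 := lfAdjoin 𝔓.K0 π₀ with hE0
  have hK0E : 𝔓.K0 ≤ E0 := lf_le_adjoin _ _
  have hypE : y ^ 𝔓.p ∈ E0 := lf_kummer_pow_mem E0 hζ.pow_eq_one (fun σ => ℓ (c σ)) hy
  have hg₁E : ∀ σ ∈ E0.fixingSubgroup, g₁⁻¹ * σ * g₁ ∈ E0.fixingSubgroup :=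
    fun σ hσ => 𝔓.ssc_conj_mem hπ₀ (𝔓.I_le_D hg₁) hσ
  have hgζ1 : (g₁ ζ) ^ 𝔓.p = 1 := by rw [← map_pow, hζ.pow_eq_one, map_one]
  haveI : NeZero 𝔓.p := ⟨hp.ne_zero⟩
  obtain ⟨a, -, ha⟩ := hζ.eq_pow_of_pow_eq_one hgζ1
  have hares := 𝔓.ssc_res_cyclo hπ₀ hζ hg₁ ha.symm
  rcases 𝔓.lf_kummer_classify hK0E hunif he hζ hζE hypE (pow_ne_zero _ hy0) with
    ⟨n, hn, hyn⟩ | ⟨w, hwE, hw0, h⟩
  · right
    refine ⟨0, Nat.add_pos_right _ hp.pos, fun P hP => ?_, Or.inl rfl⟩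
    have h1 := 𝔓.lf_nonunit_root hunif he hζ hg₁ hg₁E hε ℓ hy hn hyn ha.symm hP
    have h2 := congrArg 𝔓.lfCast h1
    rw [← Polynomial.eval_map_apply, map_inv₀, lfCast_natCast, map_zero, hares] at h2
    rwa [pow_zero, one_mul]
  · rcases h with h | ⟨i, hi0, hi, hlt, hIs⟩
    · left
      exact lf_mem_of_pow_eq hζ hζE hwE hw0 h
    · right
      refine ⟨i, (𝔓.ssc_lt_iff i).mp hlt, fun P hP => ?_, Or.inr ⟨hi, w, hwE, hw0, hIs⟩⟩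
      have hy' : ∀ σ ∈ E0.fixingSubgroup, σ (y / w) = lfZPow ζ (ℓ (c σ)) * (y / w) := by
        intro σ hσ
        rw [map_div₀, hy σ hσ, mul_div_assoc]
        rw [IntermediateField.mem_fixingSubgroup_iff] at hσ
        rw [hσ w hwE]
      have hroot := lf_level_root hunif he hζ hi hi0 hlt hg₁ hg₁E hε ℓ hy'
        (by rw [div_pow]; exact hIs) ha.symm hP
      rwa [hares] at hroot

end Cases

end FFPlace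

end Fermat.Agent.TW
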