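/-
P10 / G7 WP-E (helper5), supersingular case, (KS-eps): a homomorphism `γ : Gal(ℚ̄/E0) → V`
(`V` a finite `𝔽_p`-vector space) which is invariant under the inertia group and anti-invariant
under a Frobenius element has cyclic image, all its Kummer classes have level `p + 1`, and hence
`Gal(ℚ̄/E0)` moves the integers of the field cut out by `γ` by at least `p / (p² - 1)`.
-/
import Fermat.Agent.Lib.TW.SSCount.Root

set_option autoImplicit false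
set_option linter.unusedSectionVars false
set_option linter.style.haveILetI false

open scoped IntermediateField
open Polynomial

namespace Fermat.Agent.TW

open Fermat.Agent.S05Lib

local notation "Qb" => AlgebraicClosure ℚ
local notation "GQ" => (AlgebraicClosure ℚ ≃ₐ[ℚ] AlgebraicClosure ℚ)

/-- arithmetic for the levels: `j ≡ p + 1 mod p² - 1`, `j < p² + p` -/
lemma ssc_arith_succ {p j : ℕ} (hp : 3 ≤ p) (hj : j < p ^ 2 + p)
    (h : ((p ^ 2 - 1 : ℕ) : ℤ) ∣ (j : ℤ) - (p + 1)) : j = p + 1 := by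
  have h9 : 9 ≤ p ^ 2 := by nlinarith
  have hN : ((p ^ 2 - 1 : ℕ) : ℤ) = (p : ℤ) ^ 2 - 1 := by
    rw [Nat.cast_sub (by omega)]; push_cast; ring
  rw [hN] at h
  obtain ⟨t, ht⟩ := h
  have hpz : (3 : ℤ) ≤ p := by exact_mod_cast hp
  have hjz : (j : ℤ) < (p : ℤ) ^ 2 + p := by exact_mod_cast hj
  have hj0 : (0 : ℤ) ≤ j := Int.natCast_nonneg j
  have ht0 : 0 ≤ t := by
    by_contra hneg
    have : t ≤ -1 := by omega
    nlinarith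
  have ht1 : t ≤ 0 := by
    by_contra hbig
    have : 1 ≤ t := by omega
    nlinarith
  have ht' : t = 0 := le_antisymm ht1 ht0
  rw [ht', mul_zero] at ht
  have : (j : ℤ) = p + 1 := by linarith
  exact_mod_cast this

/-- arithmetic for the levels: `j ≡ 2 mod p² - 1`, `j < p² + p` -/
lemma ssc_arith_two {p j : ℕ} (hp : 3 ≤ p) (hj : j < p ^ 2 + p)
    (h : ((p ^ 2 - 1 : ℕ) : ℤ) ∣ (j : ℤ) - 2) : j = 2 ∨ j = p ^ 2 + 1 := by
  have h9 : 9 ≤ p ^ 2 := by nlinarith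
  have hN : ((p ^ 2 - 1 : ℕ) : ℤ) = (p : ℤ) ^ 2 - 1 := by
    rw [Nat.cast_sub (by omega)]; push_cast; ring
  rw [hN] at h
  obtain ⟨t, ht⟩ := h
  have hpz : (3 : ℤ) ≤ p := by exact_mod_cast hp
  have hjz : (j : ℤ) < (p : ℤ) ^ 2 + p := by exact_mod_cast hj
  have hj0 : (0 : ℤ) ≤ j := Int.natCast_nonneg j
  have ht0 : 0 ≤ t := by
    by_contra hneg
    have : t ≤ -1 := by omega
    nlinarith
  have ht1 : t ≤ 1 := by
    by_contra hbig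
    have : 2 ≤ t := by omega
    nlinarith
  have ht' : t = 0 ∨ t = 1 := by omega
  rcases ht' with rfl | rfl
  · left
    rw [mul_zero] at ht
    have : (j : ℤ) = 2 := by linarith
    exact_mod_cast this
  · right
    rw [mul_one] at ht
    have : (j : ℤ) = (p : ℤ) ^ 2 + 1 := by linarith
    exact_mod_cast this

/-- arithmetic for the levels: `j ≡ 2p mod p² - 1`, `j < p² + p` -/
lemma ssc_arith_two_mul {p j : ℕ} (hp : 3 ≤ p) (hj : j < p ^ 2 + p)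
    (h : ((p ^ 2 - 1 : ℕ) : ℤ) ∣ (j : ℤ) - 2 * p) : j = 2 * p := by
  have h9 : 9 ≤ p ^ 2 := by nlinarith
  have hN : ((p ^ 2 - 1 : ℕ) : ℤ) = (p : ℤ) ^ 2 - 1 := by
    rw [Nat.cast_sub (by omega)]; push_cast; ring
  rw [hN] at h
  obtain ⟨t, ht⟩ := h
  have hpz : (3 : ℤ) ≤ p := by exact_mod_cast hp
  have hjz : (j : ℤ) < (p : ℤ) ^ 2 + p := by exact_mod_cast hj
  have hj0 : (0 : ℤ) ≤ j := Int.natCast_nonneg j
  have ht0 : 0 ≤ t := by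
    by_contra hneg
    have : t ≤ -1 := by omega
    nlinarith
  have ht1 : t ≤ 0 := by
    by_contra hbig
    have : 1 ≤ t := by omega
    nlinarith
  have ht' : t = 0 := le_antisymm ht1 ht0
  rw [ht', mul_zero] at ht
  have : (j : ℤ) = 2 * p := by linarith
  exact_mod_cast this

namespace FFPlace

variable (𝔓 : FFPlace)

lemma ssc_three_le (hp2 : 𝔓.p ≠ 2) : 3 ≤ 𝔓.p := by
  have := 𝔓.hp.two_le
  omega

section Eps

variable {V : Type*} [AddCommGroup V] [Module (ZMod 𝔓.p) V]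

/-- every Kummer class of an `I`-invariant homomorphism on `Gal(ℚ̄/E0)` has level `p + 1` -/
theorem ssc_eps_countHyp (hp2 : 𝔓.p ≠ 2) {π₀ : Qb} (hπ₀ : π₀ ^ (𝔓.p ^ 2 - 1) = -(𝔓.p : Qb))
    {ζ : Qb} (hζ : IsPrimitiveRoot ζ 𝔓.p) (γ : GQ → V)
    (hadd : ∀ σ ∈ (lfAdjoin 𝔓.K0 π₀).fixingSubgroup, ∀ τ ∈ (lfAdjoin 𝔓.K0 π₀).fixingSubgroup,
      γ (σ * τ) = γ σ + γ τ)
    (hcont : ∃ F : IntermediateField ℚ Qb, FiniteDimensional ℚ F ∧
      ∀ σ ∈ (lfAdjoin 𝔓.K0 π₀).fixingSubgroup, σ ∈ F.fixingSubgroup → γ σ = 0)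
    (hinv : ∀ g ∈ 𝔓.I, ∀ τ ∈ (lfAdjoin 𝔓.K0 π₀).fixingSubgroup, γ (g * τ * g⁻¹) = γ τ) :
    𝔓.LFCountHyp (lfAdjoin 𝔓.K0 π₀) π₀ (𝔓.p ^ 2 - 1) ζ (𝔓.p + 1) γ := by
  have hp := 𝔓.hp
  have hp3 := 𝔓.ssc_three_le hp2
  obtain ⟨hunif, he, hζmem, -⟩ := 𝔓.lf_E0 hπ₀
  obtain ⟨g₁, hg₁, ξ, hξ, hgξ⟩ := 𝔓.ssc_exists_tame_gen hπ₀
  have hcop : ¬ 𝔓.p ∣ 𝔓.p ^ 2 - 1 := by
    have := 𝔓.ssc_coprime
    rw [Nat.coprime_comm, Nat.Prime.coprime_iff_not_dvd hp] at this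
    exact this
  have hθ : g₁ π₀ / π₀ = ξ := by rw [hgξ, mul_div_cancel_right₀ _ hunif.ne_zero]
  have hη := 𝔓.ssc_res_primitive hcop hξ
  have hε : ∀ σ ∈ (lfAdjoin 𝔓.K0 π₀).fixingSubgroup,
      γ (g₁⁻¹ * σ * g₁) = (1 : ZMod 𝔓.p) • γ σ := by
    intro σ hσ
    have := hinv g₁⁻¹ (𝔓.I.inv_mem hg₁) σ hσ
    rw [inv_inv] at this
    rw [this, one_smul]
  refine ⟨hunif, he, hζ, hζmem ζ hζ, ?_, Nat.succ_pos _, ?_, hadd, hcont, ?_⟩
  · intro hdvd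
    have := (Nat.dvd_add_right (dvd_refl 𝔓.p)).mp hdvd
    exact hp.one_lt.ne' (Nat.dvd_one.mp this)
  · rw [𝔓.ssc_lt_iff]
    nlinarith
  · intro ℓ y hy0 hy
    rcases 𝔓.ssc_level_cases (k := ZMod 𝔓.p) hπ₀ hζ hg₁ hε ℓ hy0 hy with h | ⟨j, hj, hroot, hcase⟩
    · exact Or.inl h
    · right
      have h1 := hroot (X - 1) (by rw [map_sub, aeval_X, map_one, sub_self])
      rw [Polynomial.map_sub, Polynomial.map_X, Polynomial.map_one, Polynomial.eval_sub,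
        Polynomial.eval_X, Polynomial.eval_one, sub_eq_zero, hθ] at h1
      have hne : 𝔓.lfRes ξ ^ (𝔓.p + 1) ≠ 0 :=
        pow_ne_zero _ (hη.ne_zero 𝔓.ssc_d_pos.ne')
      have h2 : 𝔓.lfRes ξ ^ j = 𝔓.lfRes ξ ^ (𝔓.p + 1) := by
        rwa [mul_inv_eq_one₀ hne] at h1
      have h3 := lf_dvd_sub_of_pow_eq 𝔓.ssc_d_pos.ne' hη h2
      have h4 : j = 𝔓.p + 1 := ssc_arith_succ hp3 hj (by push_cast at h3 ⊢; exact h3)
      subst h4
      rcases hcase with h0 | ⟨-, hw⟩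
      · exact absurd h0 (Nat.succ_ne_zero _)
      · exact hw

end Eps

section Main

variable {V : Type*} [AddCommGroup V] [Module (ZMod 𝔓.p) V] [Finite V]

/-- **(KS-eps)** -/
theorem ssc_eps (hp2 : 𝔓.p ≠ 2) {π₀ : Qb} (hπ₀ : π₀ ^ (𝔓.p ^ 2 - 1) = -(𝔓.p : Qb))
    (γ : GQ → V)
    (hadd : ∀ σ ∈ (lfAdjoin 𝔓.K0 π₀).fixingSubgroup, ∀ τ ∈ (lfAdjoin 𝔓.K0 π₀).fixingSubgroup,
      γ (σ * τ) = γ σ + γ τ)
    (hcont : ∃ F : IntermediateField ℚ Qb, FiniteDimensional ℚ F ∧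
      ∀ σ ∈ (lfAdjoin 𝔓.K0 π₀).fixingSubgroup, σ ∈ F.fixingSubgroup → γ σ = 0)
    (hinv : ∀ g ∈ 𝔓.I, ∀ τ ∈ (lfAdjoin 𝔓.K0 π₀).fixingSubgroup, γ (g * τ * g⁻¹) = γ τ)
    {φ : GQ} (hφ : 𝔓.P.IsFrobeniusAt φ 𝔓.p)
    (hanti : ∀ τ ∈ (lfAdjoin 𝔓.K0 π₀).fixingSubgroup, γ (φ * τ * φ⁻¹) = -γ τ)
    {τ : GQ} (hτ : τ ∈ (lfAdjoin 𝔓.K0 π₀).fixingSubgroup) {z : Qb} (hz : 𝔓.v.Ge z 0)
    (hfix : ∀ σ ∈ (lfAdjoin 𝔓.K0 π₀).fixingSubgroup, γ σ = 0 → σ z = z) :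
    𝔓.v.Ge (τ z - z) ((𝔓.p : ℚ) / ((𝔓.p : ℚ) ^ 2 - 1)) := by
  classical
  have hp := 𝔓.hp
  obtain ⟨ζ, hζ⟩ := lf_exists_primitiveRoot hp.ne_zero
  have H := 𝔓.ssc_eps_countHyp hp2 hπ₀ hζ γ hadd hcont hinv
  obtain ⟨hunif, he, hζmem, -⟩ := 𝔓.lf_E0 hπ₀
  have hζE := hζmem ζ hζ
  set E0 := lfAdjoin 𝔓.K0 π₀ with hE0
  have hK0E : 𝔓.K0 ≤ E0 := lf_le_adjoin _ _
  have hD : φ ∈ 𝔓.D := hφ.mem_decompositionSubgroup
  have hanti' : ∀ σ ∈ E0.fixingSubgroup, γ (φ⁻¹ * σ * φ) = -γ σ := by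
    intro σ hσ
    have h1 := 𝔓.ssc_conj_mem hπ₀ hD hσ
    have h2 := hanti _ h1
    have e : φ * (φ⁻¹ * σ * φ) * φ⁻¹ = σ := by group
    rw [e] at h2
    rw [h2, neg_neg]
  -- the count
  have hcard := H.card_span_le (ι := Fin 2) Finset.univ ![1, φ]
    (by
      intro r _
      fin_cases r
      · exact 𝔓.D.one_mem
      · exact hD)
    (by
      intro r _ σ hσ
      fin_cases r
      · simpa using hσ
      · exact 𝔓.ssc_conj_mem hπ₀ hD hσ)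
    ![LinearMap.id, -LinearMap.id]
    (by
      intro r _ σ hσ
      fin_cases r
      · simp
      · simpa using hanti' σ hσ)
    ![0, 1]
    (by
      intro r _ x hx
      fin_cases r
      · left
        simp
      · simpa using 𝔓.ssc_frob_gt hφ hx)
    ![1, 1]
    (by
      rw [Fin.sum_univ_two]
      simp)
    (r₀ := 1) (Finset.mem_univ _) (by simp)
    (by
      intro r _ hr
      fin_cases r
      · simp
      · exact absurd rfl hr)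
  set A := Submodule.span (ZMod 𝔓.p) {x : V | ∃ σ ∈ E0.fixingSubgroup, γ σ = x} with hA
  have hAmem : ∀ σ ∈ E0.fixingSubgroup, γ σ ∈ A := fun σ hσ =>
    Submodule.subset_span ⟨σ, hσ, rfl⟩
  by_cases hall : ∀ σ ∈ E0.fixingSubgroup, γ σ = 0
  · left
    rw [hfix τ hτ (hall τ hτ), sub_self]
  push Not at hall
  obtain ⟨σ₀, hσ₀, hγσ₀⟩ := hall
  -- a functional
  obtain ⟨ℓ, hℓ⟩ : ∃ ℓ : V →ₗ[ZMod 𝔓.p] ZMod 𝔓.p, ℓ (γ σ₀) ≠ 0 := by
    by_contra hcon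
    push Not at hcon
    exact hγσ₀ ((Module.forall_dual_apply_eq_zero_iff (ZMod 𝔓.p) (γ σ₀)).mp hcon)
  -- the image is at most a line
  haveI : Module.Finite (ZMod 𝔓.p) A := Module.Finite.of_finite
  have hfr : Module.finrank (ZMod 𝔓.p) A ≤ 1 := by
    have h1 := Module.natCard_eq_pow_finrank (K := ZMod 𝔓.p) (V := A)
    rw [Nat.card_zmod] at h1
    rw [h1] at hcard
    exact (Nat.pow_le_pow_iff_right hp.one_lt).mp hcard
  obtain ⟨v₀, hv₀⟩ := finrank_le_one_iff.mp hfr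
  have hker : ∀ σ ∈ E0.fixingSubgroup, ℓ (γ σ) = 0 → γ σ = 0 := by
    intro σ hσ h0
    obtain ⟨t, ht⟩ := hv₀ ⟨γ σ, hAmem σ hσ⟩
    obtain ⟨t₀, ht₀⟩ := hv₀ ⟨γ σ₀, hAmem σ₀ hσ₀⟩
    have e1 : γ σ = t • (v₀ : V) := by
      have := congrArg Subtype.val ht
      simpa using this.symm
    have e0 : γ σ₀ = t₀ • (v₀ : V) := by
      have := congrArg Subtype.val ht₀
      simpa using this.symm
    have hv : ℓ (v₀ : V) ≠ 0 := by
      intro h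
      apply hℓ
      rw [e0, map_smul, h, smul_zero]
    rw [e1, map_smul, smul_eq_mul, mul_eq_zero] at h0
    rcases h0 with h0 | h0
    · rw [e1, h0, zero_smul]
    · exact absurd h0 hv
  -- the generator
  obtain ⟨F, hF, hFc⟩ := hcont
  haveI := hF
  obtain ⟨y, hy0, -, hy⟩ := lf_kummer_exists E0 hζ.pow_eq_one hζE (fun σ => ℓ (γ σ))
    (by intro σ hσ τ hτ; rw [hadd σ hσ τ hτ, map_add]) F
    (by intro σ hσ hσF; rw [hFc σ hσ hσF, map_zero])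
  have hcancel : ∀ {σ : GQ} {x : Qb}, x ≠ 0 → lfZPow ζ (ℓ (γ σ)) * x = x → ℓ (γ σ) = 0 := by
    intro σ x hx h
    have h1 : lfZPow ζ (ℓ (γ σ)) = 1 := mul_right_cancel₀ hx (h.trans (one_mul x).symm)
    exact (lfZPow_eq_one_iff hζ _).mp h1
  have hyE : y ∉ E0 := by
    intro hmem
    have h1 := (IntermediateField.mem_fixingSubgroup_iff _ _).mp hσ₀ y hmem
    rw [hy σ₀ hσ₀] at h1
    exact hℓ (hcancel hy0 h1)
  rcases H.lev ℓ y hy0 hy with hmem | ⟨w, hwE, hw0, hIs⟩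
  · exact absurd hmem hyE
  set y' := y / w with hy'
  have hy'0 : y' ≠ 0 := div_ne_zero hy0 hw0
  have hy'gen : ∀ σ ∈ E0.fixingSubgroup, σ y' = lfZPow ζ (ℓ (γ σ)) * y' := by
    intro σ hσ
    rw [hy', map_div₀, hy σ hσ, mul_div_assoc]
    rw [IntermediateField.mem_fixingSubgroup_iff] at hσ
    rw [hσ w hwE]
  have hzmem : z ∈ lfAdjoin E0 y' := by
    rw [lf_mem_iff_forall]
    intro σ hσ
    obtain ⟨hσE, hσy⟩ := (lf_mem_fixingSubgroup_adjoin_iff E0 y' σ).mp hσ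
    refine hfix σ hσE (hker σ hσE ?_)
    rw [hy'gen σ hσE] at hσy
    exact hcancel hy'0 hσy
  have hu : y' ^ 𝔓.p ∈ E0 :=
    lf_kummer_pow_mem E0 hζ.pow_eq_one (fun σ => ℓ (γ σ)) hy'gen
  have hge := 𝔓.lf_kummer_unit_ge hK0E hunif he hu rfl H.hi H.hi0
    (by rw [hy', div_pow]; exact hIs) H.hlt hτ hzmem hz
  refine hge.mono (le_of_eq ?_)
  rw [𝔓.ssc_e_cast]
  have hp1 : (1 : ℚ) < 𝔓.p := by exact_mod_cast hp.one_lt
  have h1 : (𝔓.p : ℚ) - 1 ≠ 0 := by linarith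
  have h2 : (𝔓.p : ℚ) + 1 ≠ 0 := by linarith
  have h3 : (𝔓.p : ℚ) ^ 2 - 1 = ((𝔓.p : ℚ) - 1) * ((𝔓.p : ℚ) + 1) := by ring
  have h4 : (𝔓.p : ℚ) ≠ 0 := by linarith
  rw [h3]
  push_cast
  field_simp
  ring

end Main

end FFPlace

end Fermat.Agent.TW
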