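/-
P10 / G7 WP-E (helper5), supersingular case, (KS-top): if a homomorphism
`γ : Gal(ℚ̄/E0) → V`, `|V| ≤ p²`, has a Kummer class of level `2`, then some `τ ∈ Gal(ℚ̄/E0)` acting
non-trivially on that class moves the integers of the field cut out by `γ` by at least
`(p² + p - 1) / (p² (p² - 1))`.
-/
import Fermat.Agent.Lib.TW.SSCount.Eps

set_option autoImplicit false
set_option linter.unusedSectionVars false
set_option linter.style.haveILetI false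

open scoped IntermediateField
open Polynomial

namespace Fermat.Agent.TW

open Fermat.Agent.S05Lib

local notation "Qb" => AlgebraicClosure ℚ
local notation "GQ" => (AlgebraicClosure ℚ ≃ₐ[ℚ] AlgebraicClosure ℚ)

namespace FFPlace

variable (𝔓 : FFPlace)

/-- the fixed field of a subgroup containing all elements of the inertia group which fix a finite
extension `F` of `ℚ` pointwise has boundedly many conjugates under the inertia group -/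
theorem lf_bdd_fixedField (N : Subgroup GQ) (F : IntermediateField ℚ Qb) [FiniteDimensional ℚ F]
    (hN : ∀ σ ∈ 𝔓.I, σ ∈ F.fixingSubgroup → σ ∈ N) :
    ∃ n : ℕ, 𝔓.LFBdd (IntermediateField.fixedField N) n := by
  classical
  haveI : Algebra.IsAlgebraic ℚ Qb := AlgebraicClosure.isAlgebraic ℚ
  haveI : IsAlgClosure ℚ Qb := ⟨inferInstance, inferInstance⟩
  haveI : Normal ℚ Qb := IsAlgClosure.normal ℚ Qb
  set F' : IntermediateField ℚ Qb := IntermediateField.normalClosure ℚ ↥F Qb with hF'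
  haveI : FiniteDimensional ℚ ↥F' := normalClosure.is_finiteDimensional ℚ _ Qb
  haveI hnorm : Normal ℚ ↥F' := normalClosure.normal ℚ _ Qb
  have hle : F ≤ F' := IntermediateField.le_normalClosure _
  letI : Fintype (↥F' ≃ₐ[ℚ] ↥F') := Fintype.ofFinite _
  let φ : 𝔓.I →* (↥F' ≃ₐ[ℚ] ↥F') := (AlgEquiv.restrictNormalHom ↥F').comp 𝔓.I.subtype
  refine ⟨Fintype.card (↥F' ≃ₐ[ℚ] ↥F'), lf_bdd_of_hom φ ?_⟩
  intro σ hσ x hx
  have hfix : (σ : GQ) ∈ F.fixingSubgroup := by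
    rw [IntermediateField.mem_fixingSubgroup_iff]
    intro a ha
    have h1 := AlgEquiv.restrictNormalHom_apply F' (σ : GQ) ⟨a, hle ha⟩
    have h2 : (AlgEquiv.restrictNormalHom ↥F') (σ : GQ) = 1 := hσ
    have h3 := DFunLike.congr_fun h2 ⟨a, hle ha⟩
    rw [AlgEquiv.one_apply] at h3
    exact h1.symm.trans (congrArg Subtype.val h3)
  exact (IntermediateField.mem_fixedField_iff N x).mp hx _ (hN _ σ.2 hfix)

section Top

variable {V : Type*} [AddCommGroup V] [Module (ZMod 𝔓.p) V] [Finite V]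

/-- the kernel of a non-zero functional on a space with at most `p²` elements has at most `p`
elements -/
lemma ssc_card_ker_le (hV : Nat.card V ≤ 𝔓.p ^ 2) (ℓ : V →ₗ[ZMod 𝔓.p] ZMod 𝔓.p) {x : V}
    (hx : ℓ x ≠ 0) : Nat.card ↥(LinearMap.ker ℓ) ≤ 𝔓.p := by
  have hp := 𝔓.hp
  have hsurj : Function.Surjective ℓ := by
    intro t
    refine ⟨(t * (ℓ x)⁻¹) • x, ?_⟩
    rw [map_smul, smul_eq_mul, mul_assoc, inv_mul_cancel₀ hx, mul_one]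
  have h1 := Submodule.card_eq_card_quotient_mul_card (LinearMap.ker ℓ)
  have h2 : Nat.card (V ⧸ LinearMap.ker ℓ) = 𝔓.p := by
    rw [Nat.card_congr (LinearMap.quotKerEquivOfSurjective ℓ hsurj).toEquiv, Nat.card_zmod]
  rw [h2] at h1
  rw [h1, sq] at hV
  exact Nat.le_of_mul_le_mul_right hV hp.pos

/-- **(KS-top)** -/
theorem ssc_top (hp2 : 𝔓.p ≠ 2) {π₀ ζ : Qb} (hπ₀ : π₀ ^ (𝔓.p ^ 2 - 1) = -(𝔓.p : Qb))
    (hζ : IsPrimitiveRoot ζ 𝔓.p) (hV : Nat.card V ≤ 𝔓.p ^ 2) (γ : GQ → V)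
    (hadd : ∀ σ ∈ (lfAdjoin 𝔓.K0 π₀).fixingSubgroup, ∀ τ ∈ (lfAdjoin 𝔓.K0 π₀).fixingSubgroup,
      γ (σ * τ) = γ σ + γ τ)
    (hcont : ∃ F : IntermediateField ℚ Qb, FiniteDimensional ℚ F ∧
      ∀ σ ∈ (lfAdjoin 𝔓.K0 π₀).fixingSubgroup, σ ∈ F.fixingSubgroup → γ σ = 0)
    (ℓ : V →ₗ[ZMod 𝔓.p] ZMod 𝔓.p) {y : Qb} (hy0 : y ≠ 0)
    (hy : ∀ σ ∈ (lfAdjoin 𝔓.K0 π₀).fixingSubgroup, σ y = lfZPow ζ (ℓ (γ σ)) * y)
    {w : Qb} (hw : w ∈ lfAdjoin 𝔓.K0 π₀) (hw0 : w ≠ 0)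
    (hlev : 𝔓.v.Is (y ^ 𝔓.p / w ^ 𝔓.p - 1) (2 / ((𝔓.p : ℚ) ^ 2 - 1))) :
    ∃ τ ∈ (lfAdjoin 𝔓.K0 π₀).fixingSubgroup, ℓ (γ τ) ≠ 0 ∧
      ∀ z : Qb, 𝔓.v.Ge z 0 →
        (∀ σ ∈ (lfAdjoin 𝔓.K0 π₀).fixingSubgroup, γ σ = 0 → σ z = z) →
        𝔓.v.Ge (τ z - z)
          (((𝔓.p : ℚ) ^ 2 + 𝔓.p - 1) / ((𝔓.p : ℚ) ^ 2 * ((𝔓.p : ℚ) ^ 2 - 1))) := by
  classical
  have hp := 𝔓.hp
  have hp3 := 𝔓.ssc_three_le hp2
  obtain ⟨hunif, he, hζmem, -⟩ := 𝔓.lf_E0 hπ₀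
  have hζE := hζmem ζ hζ
  have hζ1 := hζ.pow_eq_one
  haveI : NeZero 𝔓.p := ⟨hp.ne_zero⟩
  set E0 := lfAdjoin 𝔓.K0 π₀ with hE0
  have hK0E : 𝔓.K0 ≤ E0 := lf_le_adjoin _ _
  have hE0I : E0.fixingSubgroup ≤ 𝔓.I := 𝔓.lf_fixingSubgroup_le hK0E
  -- the normalised generator
  set y' := y / w with hy'
  have hy'0 : y' ≠ 0 := div_ne_zero hy0 hw0
  have hy'gen : ∀ σ ∈ E0.fixingSubgroup, σ y' = lfZPow ζ (ℓ (γ σ)) * y' := by
    intro σ hσ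
    rw [hy', map_div₀, hy σ hσ, mul_div_assoc]
    rw [IntermediateField.mem_fixingSubgroup_iff] at hσ
    rw [hσ w hw]
  have hu : y' ^ 𝔓.p ∈ E0 := lf_kummer_pow_mem E0 hζ1 (fun σ => ℓ (γ σ)) hy'gen
  have hi : ¬ 𝔓.p ∣ 2 := fun h => by
    have := Nat.le_of_dvd (by norm_num) h
    omega
  have hlt : ((2 : ℕ) : ℚ) / ((𝔓.p ^ 2 - 1 : ℕ) : ℚ) < (𝔓.p : ℚ) / ((𝔓.p : ℚ) - 1) := by
    rw [𝔓.ssc_lt_iff]
    nlinarith
  have hIs : 𝔓.v.Is (y' ^ 𝔓.p - 1) (((2 : ℕ) : ℚ) / ((𝔓.p ^ 2 - 1 : ℕ) : ℚ)) := by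
    rw [hy', div_pow, 𝔓.ssc_e_cast]
    exact_mod_cast hlev
  have hcancel : ∀ {σ : GQ}, lfZPow ζ (ℓ (γ σ)) * y' = y' → ℓ (γ σ) = 0 := by
    intro σ h
    have h1 : lfZPow ζ (ℓ (γ σ)) = 1 := mul_right_cancel₀ hy'0 (h.trans (one_mul y').symm)
    exact (lfZPow_eq_one_iff hζ _).mp h1
  -- `y'` does not lie in `E0`
  have hyE : y' ∉ E0 := fun hmem =>
    𝔓.lf_not_is_pow_sub_one hunif he hi (by norm_num) hlt hmem hIs
  obtain ⟨σ₀, hσ₀, hσ₀y⟩ : ∃ σ ∈ E0.fixingSubgroup, σ y' ≠ y' := by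
    by_contra hcon
    push Not at hcon
    exact hyE ((lf_mem_iff_forall E0 y').mpr hcon)
  have hℓσ₀ : ℓ (γ σ₀) ≠ 0 := by
    intro h0
    apply hσ₀y
    rw [hy'gen σ₀ hσ₀, h0, lfZPow_zero, one_mul]
  -- the intermediate field `E1 = E0(y')`
  set E1 := lfAdjoin E0 y' with hE1
  have hE0E1 : E0 ≤ E1 := lf_le_adjoin _ _
  have hK0E1 : 𝔓.K0 ≤ E1 := hK0E.trans hE0E1
  set c₁ : ℚ := 1 / ((𝔓.p : ℚ) * ((𝔓.p ^ 2 - 1 : ℕ) : ℚ)) + 1 / ((𝔓.p : ℚ) - 1) -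
    ((2 : ℕ) : ℚ) / ((𝔓.p : ℚ) * ((𝔓.p ^ 2 - 1 : ℕ) : ℚ)) with hc₁
  have hc : ∀ a ∈ E1, 𝔓.v.Ge a 0 → 𝔓.v.Ge (σ₀ a - a) c₁ := fun a ha ha0 =>
    𝔓.lf_kummer_unit_ge hK0E hunif he hu rfl hi (by norm_num) hIs hlt hσ₀ ha ha0
  -- the kernel of `γ` and its fixed field
  have hγ1 : γ 1 = 0 := by
    have := hadd 1 E0.fixingSubgroup.one_mem 1 E0.fixingSubgroup.one_mem
    rw [mul_one] at this
    exact left_eq_add.mp this
  have hγinv : ∀ σ ∈ E0.fixingSubgroup, γ σ⁻¹ = -γ σ := by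
    intro σ hσ
    have := hadd σ hσ σ⁻¹ (E0.fixingSubgroup.inv_mem hσ)
    rw [mul_inv_cancel, hγ1] at this
    exact eq_neg_of_add_eq_zero_right this.symm
  let N : Subgroup GQ :=
    { carrier := {σ | σ ∈ E0.fixingSubgroup ∧ γ σ = 0}
      mul_mem' := fun {a b} ha hb =>
        ⟨E0.fixingSubgroup.mul_mem ha.1 hb.1, by rw [hadd a ha.1 b hb.1, ha.2, hb.2, add_zero]⟩
      one_mem' := ⟨E0.fixingSubgroup.one_mem, hγ1⟩
      inv_mem' := fun {a} ha =>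
        ⟨E0.fixingSubgroup.inv_mem ha.1, by rw [hγinv a ha.1, ha.2, neg_zero]⟩ }
  have hNmem : ∀ σ : GQ, σ ∈ N ↔ σ ∈ E0.fixingSubgroup ∧ γ σ = 0 := fun σ => Iff.rfl
  set L : IntermediateField ℚ Qb := IntermediateField.fixedField N with hL
  have hLmem : ∀ x : Qb, x ∈ L ↔ ∀ σ ∈ N, σ x = x := fun x =>
    IntermediateField.mem_fixedField_iff N x
  have hK0L : 𝔓.K0 ≤ L := by
    intro x hx
    rw [hLmem]
    intro σ hσ
    exact (𝔓.mem_K0_iff x).mp hx σ (hE0I hσ.1)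
  -- bounded conjugates, uniformiser
  obtain ⟨F, hF, hFc⟩ := hcont
  haveI := hF
  have hπint : IsIntegral ℚ π₀ := (AlgebraicClosure.isAlgebraic ℚ).isIntegral.isIntegral π₀
  haveI : FiniteDimensional ℚ ↥(IntermediateField.adjoin ℚ {π₀}) :=
    IntermediateField.adjoin.finiteDimensional hπint
  haveI : FiniteDimensional ℚ ↥(F ⊔ IntermediateField.adjoin ℚ {π₀}) :=
    IntermediateField.finiteDimensional_sup _ _
  obtain ⟨n, hbdd⟩ := 𝔓.lf_bdd_fixedField N (F ⊔ IntermediateField.adjoin ℚ {π₀}) (by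
    intro σ hσI hσF
    have h1 : σ ∈ F.fixingSubgroup := IntermediateField.fixingSubgroup_antitone le_sup_left hσF
    have h2 : σ ∈ (IntermediateField.adjoin ℚ {π₀}).fixingSubgroup :=
      IntermediateField.fixingSubgroup_antitone le_sup_right hσF
    have h3 : σ π₀ = π₀ := (IntermediateField.mem_fixingSubgroup_iff _ _).mp h2 π₀
      (IntermediateField.mem_adjoin_simple_self ℚ π₀)
    have h4 : σ ∈ E0.fixingSubgroup := (𝔓.ssc_mem_E0_fix_iff hπ₀).mpr ⟨hσI, h3⟩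
    exact ⟨h4, hFc σ h4 h1⟩)
  obtain ⟨ϖ, hϖ⟩ := hbdd.exists_unif
  have hϖge : 𝔓.v.Ge ϖ 0 := Or.inr hϖ.pos.le
  -- the orbit of `ϖ` under `Gal(ℚ̄/E1)`
  have hE1ker : ∀ σ ∈ E1.fixingSubgroup, σ ∈ E0.fixingSubgroup ∧ ℓ (γ σ) = 0 := by
    intro σ hσ
    obtain ⟨hσE, hσy⟩ := (lf_mem_fixingSubgroup_adjoin_iff E0 y' σ).mp hσ
    refine ⟨hσE, ?_⟩
    rw [hy'gen σ hσE] at hσy
    exact hcancel hσy
  letI : Fintype (Multiplicative ↥(LinearMap.ker ℓ)) := Fintype.ofFinite _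
  let ψ : E1.fixingSubgroup →* Multiplicative ↥(LinearMap.ker ℓ) :=
    MonoidHom.mk' (fun σ => Multiplicative.ofAdd
      ⟨γ (σ : GQ), LinearMap.mem_ker.mpr (hE1ker σ σ.2).2⟩) (by
      intro a b
      apply Multiplicative.toAdd.injective
      apply Subtype.ext
      exact hadd a (hE1ker a a.2).1 b (hE1ker b b.2).1)
  obtain ⟨T, hTcard, hϖT, hstab, horb⟩ := lf_exists_orbit_of_hom E1.fixingSubgroup ψ (x := ϖ) (by
    intro σ hσ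
    have h1 : γ (σ : GQ) = 0 := by
      have := congrArg (fun t => ((Multiplicative.toAdd t : ↥(LinearMap.ker ℓ)) : V)) hσ
      simpa [ψ] using this
    exact (hLmem ϖ).mp hϖ.mem _ ⟨(hE1ker σ σ.2).1, h1⟩)
  have hTp : T.card ≤ 𝔓.p := by
    refine hTcard.trans ?_
    rw [Fintype.card_eq_nat_card]
    exact (Nat.card_congr Multiplicative.toAdd).le.trans (𝔓.ssc_card_ker_le hV ℓ hℓσ₀)
  have hTpos : 0 < T.card := Finset.card_pos.mpr ⟨ϖ, hϖT⟩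
  -- the lift
  obtain ⟨τ, hτI, hτE1, hτϖ⟩ := 𝔓.lf_exists_lift_ge hK0E1 hϖge T hϖT hstab horb (hE0I hσ₀) hc
  have hτE0 : τ ∈ E0.fixingSubgroup := by
    rw [𝔓.ssc_mem_E0_fix_iff hπ₀]
    refine ⟨hτI, ?_⟩
    rw [hτE1 π₀ (hE0E1 (lf_self_mem_adjoin _ _))]
    exact (IntermediateField.mem_fixingSubgroup_iff _ _).mp hσ₀ π₀ (lf_self_mem_adjoin _ _)
  have hτy : τ y' = σ₀ y' := hτE1 y' (lf_self_mem_adjoin _ _)
  refine ⟨τ, hτE0, ?_, fun z hz hfix => ?_⟩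
  · intro h0
    apply hσ₀y
    rw [← hτy, hy'gen τ hτE0, h0, lfZPow_zero, one_mul]
  · have hzL : z ∈ L := by
      rw [hLmem]
      intro σ hσ
      exact hfix σ hσ.1 hσ.2
    have h1 := lf_ge_sub hϖ hK0L hτI hτϖ hzL hz
    refine h1.mono ?_
    -- arithmetic
    have hp1 : (1 : ℚ) < 𝔓.p := by exact_mod_cast hp.one_lt
    have hp0 : (0 : ℚ) < 𝔓.p := by linarith
    have hTq : (0 : ℚ) < T.card := by exact_mod_cast hTpos
    have hTle : (T.card : ℚ) ≤ 𝔓.p := by exact_mod_cast hTp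
    have he1 : (0 : ℚ) < (𝔓.p : ℚ) ^ 2 - 1 := by nlinarith
    have hc₁eq : c₁ = ((𝔓.p : ℚ) ^ 2 + 𝔓.p - 1) / ((𝔓.p : ℚ) * ((𝔓.p : ℚ) ^ 2 - 1)) := by
      rw [hc₁, 𝔓.ssc_e_cast]
      have h1 : (𝔓.p : ℚ) - 1 ≠ 0 := by linarith
      have h2 : (𝔓.p : ℚ) + 1 ≠ 0 := by linarith
      have h3 : (𝔓.p : ℚ) ^ 2 - 1 = ((𝔓.p : ℚ) - 1) * ((𝔓.p : ℚ) + 1) := by ring
      have h4 : (𝔓.p : ℚ) ≠ 0 := hp0.ne'
      rw [h3]
      push_cast
      field_simp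
      ring
    have hc₁pos : 0 < c₁ := by
      rw [hc₁eq]
      apply div_pos
      · nlinarith
      · exact mul_pos hp0 he1
    have h2 : c₁ / (𝔓.p : ℚ) ≤ c₁ / T.card := div_le_div_of_nonneg_left hc₁pos.le hTq hTle
    refine le_trans (le_of_eq ?_) h2
    rw [hc₁eq, div_div]
    congr 1
    ring

end Top

end FFPlace

end Fermat.Agent.TW
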