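/-
P10 / G7 WP-E (helper5), supersingular case: fundamental characters of level two with values in
a field `k` of characteristic `p` (`LFFund`, defined by the model side in `Flat/SS/Tame.lean`) and
the transfer of polynomial identities between `k` and the residue field of `ℚ̄`.
-/
import Fermat.Agent.Lib.TW.SSCount.Top
import Fermat.Agent.Lib.TW.Flat.SS.Tame

set_option autoImplicit false
set_option linter.unusedSectionVars false
set_option linter.style.haveILetI false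

open scoped IntermediateField
open Polynomial

namespace Fermat.Agent.TW

open Fermat.Agent.S05Lib

local notation "Qb" => AlgebraicClosure ℚ
local notation "GQ" => (AlgebraicClosure ℚ ≃ₐ[ℚ] AlgebraicClosure ℚ)

namespace FFPlace

variable (𝔓 : FFPlace)

variable {𝔓}

section Fund

variable {k : Type*} [Field k] {π₀ : Qb} {ch : GQ → k}

lemma LFFund.map_one (hπ₀ : π₀ ^ (𝔓.p ^ 2 - 1) = -(𝔓.p : Qb)) (hch : 𝔓.LFFund π₀ ch) :
    ch 1 = 1 := by
  have h0 : ch 1 ≠ 0 := by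
    intro h
    have key := hch.2 {1} (fun _ => 1) (by
      intro σ hσ
      rw [Finset.mem_singleton] at hσ
      rw [hσ]
      exact 𝔓.I.one_mem)
    rw [Finset.sum_singleton, Finset.sum_singleton, 𝔓.ssc_theta_one hπ₀] at key
    have h1 : 𝔓.v.Gt (((1 : ℤ) : Qb) * 1) 0 := key.mp (by rw [h, mul_zero])
    rw [Int.cast_one, mul_one] at h1
    exact QVal.is_one.not_gt h1 le_rfl
  have h1 := hch.1 1 𝔓.I.one_mem 1 𝔓.I.one_mem
  rw [mul_one] at h1
  exact (mul_right_cancel₀ h0 (by rw [one_mul]; exact h1)).symm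

lemma LFFund.map_npow (hπ₀ : π₀ ^ (𝔓.p ^ 2 - 1) = -(𝔓.p : Qb)) (hch : 𝔓.LFFund π₀ ch) {g : GQ}
    (hg : g ∈ 𝔓.I) (n : ℕ) : ch (g ^ n) = ch g ^ n := by
  induction n with
  | zero => rw [pow_zero, pow_zero, hch.map_one hπ₀]
  | succ n ih => rw [pow_succ, hch.1 _ (𝔓.I.pow_mem hg n) _ hg, ih, pow_succ]

variable [Algebra (ZMod 𝔓.p) k]

/-- **transfer of polynomial identities**: a polynomial over `𝔽_p` vanishes at `ch g ^ m` if and
only if it vanishes at the residue of `(g π₀ / π₀) ^ m` -/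
theorem LFFund.aeval_iff (hπ₀ : π₀ ^ (𝔓.p ^ 2 - 1) = -(𝔓.p : Qb)) (hch : 𝔓.LFFund π₀ ch) {g : GQ}
    (hg : g ∈ 𝔓.I) (m : ℕ) (P : (ZMod 𝔓.p)[X]) :
    aeval (ch g ^ m) P = 0 ↔ (P.map 𝔓.lfCast).eval (𝔓.lfRes (g π₀ / π₀) ^ m) = 0 := by
  classical
  haveI : NeZero 𝔓.p := ⟨𝔓.hp.ne_zero⟩
  set J := Finset.range (P.natDegree + 1) with hJ
  set h : ℕ → GQ := fun j => g ^ (m * j) with hh
  set t := J.image h with htdef
  set n : GQ → ℤ := fun σ => ∑ j ∈ J with h j = σ, ((P.coeff j).val : ℤ) with hn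
  have ht : ∀ σ ∈ t, σ ∈ 𝔓.I := by
    intro σ hσ
    obtain ⟨j, -, rfl⟩ := Finset.mem_image.mp hσ
    exact 𝔓.I.pow_mem hg _
  have key := hch.2 t n ht
  have hmaps : ∀ j ∈ J, h j ∈ t := fun j hj => Finset.mem_image_of_mem h hj
  -- the left hand side
  have e1 : ∑ σ ∈ t, (n σ : k) * ch σ = aeval (ch g ^ m) P := by
    calc ∑ σ ∈ t, (n σ : k) * ch σ
        = ∑ σ ∈ t, ∑ j ∈ J with h j = σ, (((P.coeff j).val : ℤ) : k) * ch (h j) := by
          refine Finset.sum_congr rfl fun σ _ => ?_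
          rw [hn]
          simp only
          rw [Int.cast_sum, Finset.sum_mul]
          refine Finset.sum_congr rfl fun j hj => ?_
          rw [(Finset.mem_filter.mp hj).2]
      _ = ∑ j ∈ J, (((P.coeff j).val : ℤ) : k) * ch (h j) :=
          Finset.sum_fiberwise_of_maps_to hmaps _
      _ = aeval (ch g ^ m) P := by
          rw [aeval_eq_sum_range]
          refine Finset.sum_congr rfl fun j _ => ?_
          rw [hh]
          simp only
          rw [hch.map_npow hπ₀ hg, Algebra.smul_def, pow_mul, Int.cast_natCast,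
            ← map_natCast (algebraMap (ZMod 𝔓.p) k), ZMod.natCast_zmod_val]
  -- the right hand side
  have hθu := 𝔓.ssc_theta_is hπ₀ g
  have e2 : ∑ σ ∈ t, (n σ : Qb) * (σ π₀ / π₀) =
      ∑ j ∈ J, (((P.coeff j).val : ℕ) : Qb) * ((g π₀ / π₀) ^ m) ^ j := by
    calc ∑ σ ∈ t, (n σ : Qb) * (σ π₀ / π₀)
        = ∑ σ ∈ t, ∑ j ∈ J with h j = σ, (((P.coeff j).val : ℤ) : Qb) * (h j π₀ / π₀) := by
          refine Finset.sum_congr rfl fun σ _ => ?_
          rw [hn]
          simp only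
          rw [Int.cast_sum, Finset.sum_mul]
          refine Finset.sum_congr rfl fun j hj => ?_
          rw [(Finset.mem_filter.mp hj).2]
      _ = ∑ j ∈ J, (((P.coeff j).val : ℤ) : Qb) * (h j π₀ / π₀) :=
          Finset.sum_fiberwise_of_maps_to hmaps _
      _ = ∑ j ∈ J, (((P.coeff j).val : ℕ) : Qb) * ((g π₀ / π₀) ^ m) ^ j := by
          refine Finset.sum_congr rfl fun j _ => ?_
          rw [hh]
          simp only
          rw [𝔓.ssc_theta_npow hπ₀ hg, pow_mul, Int.cast_natCast]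
  have hterm : ∀ j ∈ J, 𝔓.v.Ge ((((P.coeff j).val : ℕ) : Qb) * ((g π₀ / π₀) ^ m) ^ j) 0 := by
    intro j _
    have := (𝔓.lf_ge_natCast (P.coeff j).val).mul
      (𝔓.ge_zero_pow (𝔓.ge_zero_pow hθu.ge m) j)
    rwa [add_zero] at this
  rw [e1, e2, ← lfRes_eq_zero_iff (𝔓.ge_zero_sum _ _ hterm), 𝔓.lfRes_sum _ _ hterm] at key
  rw [key, Polynomial.eval_map, Polynomial.eval₂_eq_sum_range]
  have e3 : ∀ j ∈ J, 𝔓.lfRes ((((P.coeff j).val : ℕ) : Qb) * ((g π₀ / π₀) ^ m) ^ j) =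
      𝔓.lfCast (P.coeff j) * (𝔓.lfRes (g π₀ / π₀) ^ m) ^ j := by
    intro j _
    rw [lfRes_mul (𝔓.lf_ge_natCast _) (𝔓.ge_zero_pow (𝔓.ge_zero_pow hθu.ge m) j), lfRes_natCast,
      lfRes_pow (𝔓.ge_zero_pow hθu.ge m), lfRes_pow hθu.ge, lfCast_val]
  rw [Finset.sum_congr rfl e3]

end Fund

end FFPlace

end Fermat.Agent.TW
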