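/-
P10 / G7 WP-E (helper5), supersingular case, (KS-dep): two homomorphisms
`γ, γ' : Gal(ℚ̄/E0) → k` on which the inertia group acts through `ch ^ (p - 1)` (`ch` a
fundamental character of level two), `φ²` acts through a common scalar, and none of whose Kummer
classes has level `2`, are linearly dependent over `k`.
-/
import Fermat.Agent.Lib.TW.SSCount.Fund

set_option autoImplicit false
set_option linter.unusedSectionVars false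
set_option linter.style.haveILetI false

open scoped IntermediateField
open Polynomial

namespace Fermat.Agent.TW

open Fermat.Agent.S05Lib

local notation "Qb" => AlgebraicClosure ℚ
local notation "GQ" => (AlgebraicClosure ℚ ≃ₐ[ℚ] AlgebraicClosure ℚ)

/-- `p² - 1` does not divide `(p - 1)²` -/
lemma ssc_arith_not_dvd {p : ℕ} (hp : 2 ≤ p) :
    ¬ ((p ^ 2 - 1 : ℕ) : ℤ) ∣ ((p * (p - 1) : ℕ) : ℤ) - ((p - 1 : ℕ) : ℤ) := by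
  have h4 : 4 ≤ p ^ 2 := by nlinarith
  rw [Nat.cast_sub (by omega : 1 ≤ p ^ 2), Nat.cast_mul, Nat.cast_sub (by omega : 1 ≤ p)]
  push_cast
  rintro ⟨t, ht⟩
  have hpz : (2 : ℤ) ≤ p := by exact_mod_cast hp
  have h1 : ((p : ℤ) - 1) * (((p : ℤ) - 1) - ((p : ℤ) + 1) * t) = 0 := by
    linear_combination ht
  rcases mul_eq_zero.mp h1 with h | h
  · linarith
  · have h2 : ((p : ℤ) + 1) * t = (p : ℤ) - 1 := by linarith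
    rcases le_or_gt t 0 with ht0 | ht0
    · nlinarith
    · have : 1 ≤ t := ht0
      nlinarith

/-- the two roots of `X² - T X + 1` -/
lemma ssc_quad_roots {F : Type*} [Field F] {T ρ x : F} (hρ : ρ ^ 2 - T * ρ + 1 = 0)
    (hx : x ^ 2 - T * x + 1 = 0) : x = ρ ∨ x = ρ⁻¹ := by
  have hρ0 : ρ ≠ 0 := by
    rintro rfl
    simp at hρ
  have hT : T = ρ + ρ⁻¹ := by
    field_simp
    linear_combination (-1 : F) * hρ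
  have h : (x - ρ) * (x - ρ⁻¹) = 0 := by
    rw [hT] at hx
    have e : (x - ρ) * (x - ρ⁻¹) = x ^ 2 - (ρ + ρ⁻¹) * x + ρ * ρ⁻¹ := by ring
    rw [e, mul_inv_cancel₀ hρ0]
    exact hx
  rcases mul_eq_zero.mp h with h | h
  · exact Or.inl (sub_eq_zero.mp h)
  · exact Or.inr (sub_eq_zero.mp h)

namespace FFPlace

variable (𝔓 : FFPlace)

/-- quotients of elements congruent to one -/
lemma ssc_is_div_sub_one {A B : Qb} {a b : ℚ} (ha : 0 < a) (hab : a < b)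
    (hA : 𝔓.v.Is (A - 1) a) (hB : 𝔓.v.Ge (B - 1) b) : 𝔓.v.Is (A / B - 1) a := by
  have hBu : 𝔓.v.Is B 0 := by
    have := QVal.is_one.add_gt (hB.gt (ha.trans hab))
    rwa [add_sub_cancel] at this
  have hB0 := hBu.1
  have e : A / B - 1 = ((A - 1) - (B - 1)) / B := by
    field_simp
    ring
  rw [e]
  have := (hA.sub_gt (hB.gt hab)).div hBu
  rwa [sub_zero] at this

/-- products of elements congruent to one -/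
lemma ssc_ge_mul_sub_one' {x y : Qb} {t : ℚ} (ht : 0 ≤ t) (hx : 𝔓.v.Ge (x - 1) t)
    (hy : 𝔓.v.Ge (y - 1) t) : 𝔓.v.Ge (x * y - 1) t := by
  have e : x * y - 1 = (x - 1) + (y - 1) + (x - 1) * (y - 1) := by ring
  rw [e]
  exact (hx.add hy).add ((hx.mul hy).mono (by linarith))

section Dep

variable {k : Type*} [Field k] [Algebra (ZMod 𝔓.p) k]
  {W : Type*} [AddCommGroup W] [Module (ZMod 𝔓.p) W] [Module k W] [IsScalarTower (ZMod 𝔓.p) k W]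
  {π₀ : Qb} {ch : GQ → k}

lemma ssc_sq_sub_one : 𝔓.p ^ 2 - 1 = (𝔓.p - 1) * (𝔓.p + 1) := by
  have h1 : 1 ≤ 𝔓.p := 𝔓.hp.one_le
  have h2 : 1 ≤ 𝔓.p ^ 2 := Nat.one_le_pow 2 𝔓.p h1
  zify [h1, h2]
  ring

variable {𝔓}

/-- the character `ch` has order dividing `p² - 1` on the inertia group -/
lemma LFFund.pow_eq_one (hπ₀ : π₀ ^ (𝔓.p ^ 2 - 1) = -(𝔓.p : Qb)) (hch : 𝔓.LFFund π₀ ch) {g : GQ}
    (hg : g ∈ 𝔓.I) : ch g ^ (𝔓.p ^ 2 - 1) = 1 := by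
  have h1 := (hch.aeval_iff hπ₀ hg 1 (X ^ (𝔓.p ^ 2 - 1) - 1)).mpr (by
    rw [Polynomial.map_sub, Polynomial.map_pow, Polynomial.map_X, Polynomial.map_one,
      Polynomial.eval_sub, Polynomial.eval_pow, Polynomial.eval_X, Polynomial.eval_one, pow_one,
      ← lfRes_pow (𝔓.ssc_theta_is hπ₀ g).ge, 𝔓.ssc_theta_pow hπ₀ g, lfRes_one, sub_self])
  rw [map_sub, map_pow, aeval_X, aeval_one, pow_one, sub_eq_zero] at h1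
  exact h1

/-- the quadratic equation over `𝔽_p` satisfied by `ε = ch g ^ (p - 1)` -/
lemma LFFund.quad (hπ₀ : π₀ ^ (𝔓.p ^ 2 - 1) = -(𝔓.p : Qb)) (hch : 𝔓.LFFund π₀ ch) {g : GQ}
    (hg : g ∈ 𝔓.I) : (ch g ^ (𝔓.p - 1)) ^ (𝔓.p + 1) = 1 ∧
      ∃ T₀ : ZMod 𝔓.p, aeval (ch g ^ (𝔓.p - 1)) (X ^ 2 - C T₀ * X + 1 : (ZMod 𝔓.p)[X]) = 0 := by
  have hp := 𝔓.hp
  haveI : CharP k 𝔓.p :=
    charP_of_injective_algebraMap (algebraMap (ZMod 𝔓.p) k).injective 𝔓.p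
  set ε := ch g ^ (𝔓.p - 1) with hε
  have hε1 : ε ^ (𝔓.p + 1) = 1 := by
    rw [hε, ← pow_mul, ← 𝔓.ssc_sq_sub_one, hch.pow_eq_one hπ₀ hg]
  refine ⟨hε1, ?_⟩
  -- `T = ε + ε ^ p` lies in the prime field
  have hεpp : (ε ^ 𝔓.p) ^ 𝔓.p = ε := by
    have h1 : 𝔓.p * 𝔓.p = (𝔓.p + 1) * (𝔓.p - 1) + 1 := by
      have h1 : 1 ≤ 𝔓.p := hp.one_le
      zify [h1]
      ring
    rw [← pow_mul, h1, pow_succ, pow_mul, hε1, one_pow, one_mul]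
  have hT : (ε + ε ^ 𝔓.p) ^ 𝔓.p = ε + ε ^ 𝔓.p := by
    rw [add_pow_char, hεpp, add_comm]
  obtain ⟨n, hn⟩ := (mem_bot_iff_intCast 𝔓.p k).mp
    ((Subfield.mem_bot_iff_pow_eq_self k 𝔓.p).mpr hT)
  refine ⟨(n : ZMod 𝔓.p), ?_⟩
  rw [map_add, map_sub, map_pow, map_mul, aeval_X, aeval_C, aeval_one, map_intCast, hn]
  have : ε ^ 2 - (ε + ε ^ 𝔓.p) * ε + 1 = 1 - ε ^ (𝔓.p + 1) := by ring
  rw [this, hε1, sub_self]

/-- **classification of the levels**: a Kummer class over `E0` on which the inertia group acts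
through `ch ^ (p - 1)` is trivial or has level `2` or `p² + 1` -/
theorem ssc_dep_level (hp2 : 𝔓.p ≠ 2) (hπ₀ : π₀ ^ (𝔓.p ^ 2 - 1) = -(𝔓.p : Qb)) {ζ : Qb}
    (hζ : IsPrimitiveRoot ζ 𝔓.p) (hch : 𝔓.LFFund π₀ ch) {g₀ : GQ} (hg₀ : g₀ ∈ 𝔓.I) {ξ : Qb}
    (hξ : IsPrimitiveRoot ξ (𝔓.p ^ 2 - 1)) (hgξ : g₀ π₀ = ξ * π₀) {c : GQ → W}
    (hε : ∀ σ ∈ (lfAdjoin 𝔓.K0 π₀).fixingSubgroup,
      c (g₀ * σ * g₀⁻¹) = (ch g₀ ^ (𝔓.p - 1)) • c σ)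
    (ℓ : W →ₗ[ZMod 𝔓.p] ZMod 𝔓.p) {y : Qb} (hy0 : y ≠ 0)
    (hy : ∀ σ ∈ (lfAdjoin 𝔓.K0 π₀).fixingSubgroup, σ y = lfZPow ζ (ℓ (c σ)) * y) :
    y ∈ lfAdjoin 𝔓.K0 π₀ ∨
      (∃ w ∈ lfAdjoin 𝔓.K0 π₀, w ≠ 0 ∧
        𝔓.v.Is (y ^ 𝔓.p / w ^ 𝔓.p - 1) (((2 : ℕ) : ℚ) / ((𝔓.p ^ 2 - 1 : ℕ) : ℚ))) ∨
      (∃ w ∈ lfAdjoin 𝔓.K0 π₀, w ≠ 0 ∧
        𝔓.v.Is (y ^ 𝔓.p / w ^ 𝔓.p - 1)
          (((𝔓.p ^ 2 + 1 : ℕ) : ℚ) / ((𝔓.p ^ 2 - 1 : ℕ) : ℚ))) := by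
  have hp := 𝔓.hp
  have hp3 := 𝔓.ssc_three_le hp2
  have hd := 𝔓.ssc_d_pos
  have hπ0 := 𝔓.ssc_pi_ne_zero hπ₀
  have hcop : ¬ 𝔓.p ∣ 𝔓.p ^ 2 - 1 := by
    have := 𝔓.ssc_coprime
    rw [Nat.coprime_comm, Nat.Prime.coprime_iff_not_dvd hp] at this
    exact this
  have hg₁ : g₀⁻¹ ∈ 𝔓.I := 𝔓.I.inv_mem hg₀
  have hε' : ∀ σ ∈ (lfAdjoin 𝔓.K0 π₀).fixingSubgroup,
      c (g₀⁻¹⁻¹ * σ * g₀⁻¹) = (ch g₀ ^ (𝔓.p - 1)) • c σ := by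
    intro σ hσ
    rw [inv_inv]
    exact hε σ hσ
  rcases 𝔓.ssc_level_cases hπ₀ hζ hg₁ hε' ℓ hy0 hy with h | ⟨j, hj, hroot, hcase⟩
  · exact Or.inl h
  right
  obtain ⟨-, T₀, hP⟩ := hch.quad hπ₀ hg₀
  have h1 := hroot _ hP
  have h2 := (hch.aeval_iff hπ₀ hg₀ (𝔓.p - 1) _).mp hP
  have hθ₀ : g₀ π₀ / π₀ = ξ := by rw [hgξ, mul_div_cancel_right₀ _ hπ0]
  have hθ₁ : g₀⁻¹ π₀ / π₀ = ξ⁻¹ := by rw [𝔓.ssc_theta_inv hπ₀ hg₀, hθ₀]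
  have hη := 𝔓.ssc_res_primitive hcop hξ
  have hη0 : 𝔓.lfRes ξ ≠ 0 := hη.ne_zero hd.ne'
  have hηinv : 𝔓.lfRes ξ⁻¹ = (𝔓.lfRes ξ)⁻¹ := by
    have hξu : 𝔓.v.Is ξ 0 := 𝔓.is_zero_of_pow_eq_one hd hξ.pow_eq_one
    have hξu' : 𝔓.v.Is ξ⁻¹ 0 :=
      𝔓.is_zero_of_pow_eq_one hd (by rw [inv_pow, hξ.pow_eq_one, inv_one])
    have h3 : 𝔓.lfRes ξ⁻¹ * 𝔓.lfRes ξ = 1 := by
      rw [← lfRes_mul hξu'.ge hξu.ge, inv_mul_cancel₀ hξu.1, lfRes_one]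
    exact eq_inv_of_mul_eq_one_left h3
  rw [hθ₁, hηinv] at h1
  rw [hθ₀] at h2
  set η := 𝔓.lfRes ξ with hηdef
  have hx : (η⁻¹) ^ j * ((η⁻¹) ^ (𝔓.p + 1))⁻¹ = η ^ (𝔓.p + 1) * (η ^ j)⁻¹ := by
    rw [inv_pow, inv_pow, inv_inv, mul_comm]
  rw [hx] at h1
  simp only [Polynomial.map_add, Polynomial.map_sub, Polynomial.map_pow, Polynomial.map_mul,
    Polynomial.map_X, Polynomial.map_C, Polynomial.map_one, eval_add, eval_sub, eval_pow,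
    eval_mul, eval_X, eval_C, eval_one] at h1 h2
  have hjne : η ^ j ≠ 0 := pow_ne_zero _ hη0
  have hfin : j = 2 ∨ j = 𝔓.p ^ 2 + 1 := by
    rcases ssc_quad_roots h2 h1 with h3 | h3
    · -- `η ^ (p + 1) = η ^ (p - 1 + j)`
      have h4 : η ^ (𝔓.p + 1) = η ^ (𝔓.p - 1 + j) := by
        calc η ^ (𝔓.p + 1) = η ^ (𝔓.p + 1) * (η ^ j)⁻¹ * η ^ j := by
              rw [mul_assoc, inv_mul_cancel₀ hjne, mul_one]
          _ = η ^ (𝔓.p - 1) * η ^ j := by rw [h3]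
          _ = η ^ (𝔓.p - 1 + j) := (pow_add _ _ _).symm
      have h5 := lf_dvd_sub_of_pow_eq hd.ne' hη h4
      refine ssc_arith_two hp3 hj ?_
      have h6 : ((𝔓.p + 1 : ℕ) : ℤ) - ((𝔓.p - 1 + j : ℕ) : ℤ) = -((j : ℤ) - 2) := by
        have h1 : 1 ≤ 𝔓.p := hp.one_le
        push_cast [h1]
        ring
      rw [h6, dvd_neg] at h5
      exact h5
    · -- `η ^ (2 p) = η ^ j`
      exfalso
      have hρ0 : η ^ (𝔓.p - 1) ≠ 0 := pow_ne_zero _ hη0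
      have h4 : η ^ (𝔓.p + 1 + (𝔓.p - 1)) = η ^ j := by
        calc η ^ (𝔓.p + 1 + (𝔓.p - 1)) = η ^ (𝔓.p + 1) * η ^ (𝔓.p - 1) := pow_add _ _ _
          _ = η ^ (𝔓.p + 1) * (η ^ j)⁻¹ * η ^ j * η ^ (𝔓.p - 1) := by
              rw [mul_assoc (η ^ (𝔓.p + 1)), inv_mul_cancel₀ hjne, mul_one]
          _ = (η ^ (𝔓.p - 1))⁻¹ * η ^ j * η ^ (𝔓.p - 1) := by rw [h3]
          _ = η ^ j := by
              rw [mul_comm ((η ^ (𝔓.p - 1))⁻¹), mul_assoc, inv_mul_cancel₀ hρ0, mul_one]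
      have h5 := lf_dvd_sub_of_pow_eq hd.ne' hη h4
      have h6 : ((𝔓.p + 1 + (𝔓.p - 1) : ℕ) : ℤ) - (j : ℤ) = -((j : ℤ) - 2 * 𝔓.p) := by
        have h1 : 1 ≤ 𝔓.p := hp.one_le
        push_cast [h1]
        ring
      rw [h6, dvd_neg] at h5
      have h7 := ssc_arith_two_mul hp3 hj h5
      rcases hcase with h0 | ⟨hnd, -⟩
      · rw [h0] at h7
        have := hp.pos
        omega
      · exact hnd (h7 ▸ dvd_mul_left _ _)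
  rcases hcase with h0 | ⟨-, w, hwE, hw0, hIs⟩
  · exfalso
    rcases hfin with h | h
    · omega
    · omega
  · rcases hfin with h | h
    · subst h
      exact Or.inl ⟨w, hwE, hw0, hIs⟩
    · subst h
      exact Or.inr ⟨w, hwE, hw0, hIs⟩

end Dep

end FFPlace

end Fermat.Agent.TW
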