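/-
P10 / G7 WP-E (helper5), supersingular case, (KS-dep), main theorem.
-/
import Fermat.Agent.Lib.TW.SSCount.DepK

set_option autoImplicit false
set_option linter.unusedSectionVars false
set_option linter.style.haveILetI false

open scoped IntermediateField
open Polynomial

namespace Fermat.Agent.TW

open Fermat.Agent.S05Lib

local notation "Qb" => AlgebraicClosure ℚ
local notation "GQ" => (AlgebraicClosure ℚ ≃ₐ[ℚ] AlgebraicClosure ℚ)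

namespace FFPlace

variable (𝔓 : FFPlace)

section Dep

variable {k : Type*} [Field k] [Algebra (ZMod 𝔓.p) k] {π₀ : Qb} {ch : GQ → k}

variable {𝔓}

/-- a class without level `2` lies in `U^(p² + 1) · E0^{×p}` -/
lemma ssc_dep_ge (hp2 : 𝔓.p ≠ 2) (hπ₀ : π₀ ^ (𝔓.p ^ 2 - 1) = -(𝔓.p : Qb)) {ζ : Qb}
    (hζ : IsPrimitiveRoot ζ 𝔓.p) (hch : 𝔓.LFFund π₀ ch) {g₀ : GQ} (hg₀ : g₀ ∈ 𝔓.I) {ξ : Qb}
    (hξ : IsPrimitiveRoot ξ (𝔓.p ^ 2 - 1)) (hgξ : g₀ π₀ = ξ * π₀) {γ : GQ → k}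
    (heq : ∀ g ∈ 𝔓.I, ∀ τ ∈ (lfAdjoin 𝔓.K0 π₀).fixingSubgroup,
      γ (g * τ * g⁻¹) = ch g ^ (𝔓.p - 1) * γ τ)
    (hno2 : ∀ (ℓ : k →ₗ[ZMod 𝔓.p] ZMod 𝔓.p) (y : Qb), y ≠ 0 →
      (∀ σ ∈ (lfAdjoin 𝔓.K0 π₀).fixingSubgroup, σ y = lfZPow ζ (ℓ (γ σ)) * y) →
      ¬ ∃ w ∈ lfAdjoin 𝔓.K0 π₀, w ≠ 0 ∧
        𝔓.v.Is (y ^ 𝔓.p / w ^ 𝔓.p - 1) (2 / ((𝔓.p : ℚ) ^ 2 - 1)))
    (ℓ : k →ₗ[ZMod 𝔓.p] ZMod 𝔓.p) {y : Qb} (hy0 : y ≠ 0)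
    (hy : ∀ σ ∈ (lfAdjoin 𝔓.K0 π₀).fixingSubgroup, σ y = lfZPow ζ (ℓ (γ σ)) * y) :
    ∃ w ∈ lfAdjoin 𝔓.K0 π₀, w ≠ 0 ∧ 𝔓.v.Ge (y ^ 𝔓.p / w ^ 𝔓.p - 1)
      (((𝔓.p ^ 2 + 1 : ℕ) : ℚ) / ((𝔓.p ^ 2 - 1 : ℕ) : ℚ)) := by
  have hε : ∀ σ ∈ (lfAdjoin 𝔓.K0 π₀).fixingSubgroup,
      γ (g₀ * σ * g₀⁻¹) = (ch g₀ ^ (𝔓.p - 1)) • γ σ := fun σ hσ => heq g₀ hg₀ σ hσ
  rcases ssc_dep_level (W := k) hp2 hπ₀ hζ hch hg₀ hξ hgξ hε ℓ hy0 hy with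
    h | ⟨w, hwE, hw0, hIs⟩ | ⟨w, hwE, hw0, hIs⟩
  · refine ⟨y, h, hy0, Or.inl ?_⟩
    rw [div_self (pow_ne_zero _ hy0), sub_self]
  · exfalso
    refine hno2 ℓ y hy0 hy ⟨w, hwE, hw0, ?_⟩
    rw [𝔓.ssc_e_cast] at hIs
    exact_mod_cast hIs
  · exact ⟨w, hwE, hw0, hIs.ge⟩

end Dep

section Main

variable {k : Type*} [Field k] [Finite k] [Algebra (ZMod 𝔓.p) k]

/-- **(KS-dep)** -/
theorem ssc_dep_k (hp2 : 𝔓.p ≠ 2) {π₀ ζ : Qb} (hπ₀ : π₀ ^ (𝔓.p ^ 2 - 1) = -(𝔓.p : Qb))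
    (hζ : IsPrimitiveRoot ζ 𝔓.p) {ch : GQ → k}
    (hch : 𝔓.LFFund π₀ ch) (γ γ' : GQ → k)
    (hadd : ∀ σ ∈ (lfAdjoin 𝔓.K0 π₀).fixingSubgroup, ∀ τ ∈ (lfAdjoin 𝔓.K0 π₀).fixingSubgroup,
      γ (σ * τ) = γ σ + γ τ)
    (hadd' : ∀ σ ∈ (lfAdjoin 𝔓.K0 π₀).fixingSubgroup, ∀ τ ∈ (lfAdjoin 𝔓.K0 π₀).fixingSubgroup,
      γ' (σ * τ) = γ' σ + γ' τ)
    (hcont : ∃ F : IntermediateField ℚ Qb, FiniteDimensional ℚ F ∧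
      ∀ σ ∈ (lfAdjoin 𝔓.K0 π₀).fixingSubgroup, σ ∈ F.fixingSubgroup → γ σ = 0)
    (hcont' : ∃ F : IntermediateField ℚ Qb, FiniteDimensional ℚ F ∧
      ∀ σ ∈ (lfAdjoin 𝔓.K0 π₀).fixingSubgroup, σ ∈ F.fixingSubgroup → γ' σ = 0)
    (heq : ∀ g ∈ 𝔓.I, ∀ τ ∈ (lfAdjoin 𝔓.K0 π₀).fixingSubgroup,
      γ (g * τ * g⁻¹) = ch g ^ (𝔓.p - 1) * γ τ)
    (heq' : ∀ g ∈ 𝔓.I, ∀ τ ∈ (lfAdjoin 𝔓.K0 π₀).fixingSubgroup,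
      γ' (g * τ * g⁻¹) = ch g ^ (𝔓.p - 1) * γ' τ)
    {φ : GQ} (hφ : 𝔓.P.IsFrobeniusAt φ 𝔓.p) (lam : k)
    (hlam : ∀ τ ∈ (lfAdjoin 𝔓.K0 π₀).fixingSubgroup, γ (φ ^ 2 * τ * (φ ^ 2)⁻¹) = lam * γ τ)
    (hlam' : ∀ τ ∈ (lfAdjoin 𝔓.K0 π₀).fixingSubgroup, γ' (φ ^ 2 * τ * (φ ^ 2)⁻¹) = lam * γ' τ)
    (hno2 : ∀ (ℓ : k →ₗ[ZMod 𝔓.p] ZMod 𝔓.p) (y : Qb), y ≠ 0 →
      (∀ σ ∈ (lfAdjoin 𝔓.K0 π₀).fixingSubgroup, σ y = lfZPow ζ (ℓ (γ σ)) * y) →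
      ¬ ∃ w ∈ lfAdjoin 𝔓.K0 π₀, w ≠ 0 ∧
        𝔓.v.Is (y ^ 𝔓.p / w ^ 𝔓.p - 1) (2 / ((𝔓.p : ℚ) ^ 2 - 1)))
    (hno2' : ∀ (ℓ : k →ₗ[ZMod 𝔓.p] ZMod 𝔓.p) (y : Qb), y ≠ 0 →
      (∀ σ ∈ (lfAdjoin 𝔓.K0 π₀).fixingSubgroup, σ y = lfZPow ζ (ℓ (γ' σ)) * y) →
      ¬ ∃ w ∈ lfAdjoin 𝔓.K0 π₀, w ≠ 0 ∧
        𝔓.v.Is (y ^ 𝔓.p / w ^ 𝔓.p - 1) (2 / ((𝔓.p : ℚ) ^ 2 - 1))) :
    ∃ a b : k, (a ≠ 0 ∨ b ≠ 0) ∧
      ∀ τ ∈ (lfAdjoin 𝔓.K0 π₀).fixingSubgroup, a * γ τ + b * γ' τ = 0 := by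
  classical
  have hp := 𝔓.hp
  have hp3 := 𝔓.ssc_three_le hp2
  have hd := 𝔓.ssc_d_pos
  have hD : φ ∈ 𝔓.D := hφ.mem_decompositionSubgroup
  have hD2 : φ ^ 2 ∈ 𝔓.D := 𝔓.D.pow_mem hD 2
  set E0 := lfAdjoin 𝔓.K0 π₀ with hE0
  have hconj2 : ∀ σ ∈ E0.fixingSubgroup, (φ ^ 2)⁻¹ * σ * φ ^ 2 ∈ E0.fixingSubgroup :=
    fun σ hσ => 𝔓.ssc_conj_mem hπ₀ hD2 hσ
  have hback : ∀ σ : GQ, φ ^ 2 * ((φ ^ 2)⁻¹ * σ * φ ^ 2) * (φ ^ 2)⁻¹ = σ := by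
    intro σ; group
  by_cases hlam0 : lam = 0
  · refine ⟨1, 0, Or.inl one_ne_zero, fun τ hτ => ?_⟩
    have h1 := hlam _ (hconj2 τ hτ)
    rw [hback, hlam0, zero_mul] at h1
    rw [h1]; ring
  obtain ⟨hunif, he, hζmem, -⟩ := 𝔓.lf_E0 hπ₀
  have hζE := hζmem ζ hζ
  have hζ1 := hζ.pow_eq_one
  obtain ⟨g₀, hg₀, ξ, hξ, hgξ⟩ := 𝔓.ssc_exists_tame_gen hπ₀
  have hg₁ : g₀⁻¹ ∈ 𝔓.I := 𝔓.I.inv_mem hg₀
  set ε : k := ch g₀ ^ (𝔓.p - 1) with hεdef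
  set c : GQ → k × k := fun σ => (γ σ, γ' σ) with hc
  have hlvl0 : (0 : ℚ) ≤ ((𝔓.p ^ 2 + 1 : ℕ) : ℚ) / ((𝔓.p ^ 2 - 1 : ℕ) : ℚ) := by positivity
  have hlvlt : ((2 : ℕ) : ℚ) / ((𝔓.p ^ 2 - 1 : ℕ) : ℚ) <
      ((𝔓.p ^ 2 + 1 : ℕ) : ℚ) / ((𝔓.p ^ 2 - 1 : ℕ) : ℚ) := by
    have hepos : (0 : ℚ) < ((𝔓.p ^ 2 - 1 : ℕ) : ℚ) := by exact_mod_cast hd
    rw [div_lt_div_iff_of_pos_right hepos]
    have : 2 < 𝔓.p ^ 2 + 1 := by nlinarith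
    exact_mod_cast this
  have hεc : ∀ σ ∈ E0.fixingSubgroup, c (g₀ * σ * g₀⁻¹) = ε • c σ := by
    intro σ hσ
    rw [hc]
    simp only
    rw [heq g₀ hg₀ σ hσ, heq' g₀ hg₀ σ hσ]
    rfl
  have hεc' : ∀ σ ∈ E0.fixingSubgroup, c (g₀⁻¹⁻¹ * σ * g₀⁻¹) = ε • c σ := by
    intro σ hσ
    rw [inv_inv]
    exact hεc σ hσ
  -- the hypotheses of the counting lemma
  have H : 𝔓.LFCountHyp E0 π₀ (𝔓.p ^ 2 - 1) ζ (𝔓.p ^ 2 + 1) c := by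
    refine ⟨hunif, he, hζ, hζE, ?_, Nat.succ_pos _, ?_, ?_, ?_, ?_⟩
    · intro hdvd
      have h1 : 𝔓.p ∣ 𝔓.p ^ 2 := dvd_pow_self _ (by norm_num)
      have h2 := (Nat.dvd_add_right h1).mp hdvd
      exact hp.one_lt.ne' (Nat.dvd_one.mp h2)
    · rw [𝔓.ssc_lt_iff]
      have := hp.one_lt
      omega
    · intro σ hσ τ hτ
      rw [hc]
      simp only
      rw [hadd σ hσ τ hτ, hadd' σ hσ τ hτ]
      rfl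
    · obtain ⟨F, hF, hFc⟩ := hcont
      obtain ⟨F', hF', hFc'⟩ := hcont'
      haveI := hF; haveI := hF'
      refine ⟨F ⊔ F', inferInstance, fun σ hσ hσF => ?_⟩
      rw [hc]
      simp only
      rw [hFc σ hσ (IntermediateField.fixingSubgroup_antitone le_sup_left hσF),
        hFc' σ hσ (IntermediateField.fixingSubgroup_antitone le_sup_right hσF)]
      rfl
    · intro ℓ y hy0 hy
      rcases ssc_dep_level (W := k × k) hp2 hπ₀ hζ hch hg₀ hξ hgξ hεc ℓ hy0 hy with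
        h | ⟨w, hwE, hw0, hIs⟩ | h
      · exact Or.inl h
      · -- level two is impossible
        exfalso
        set ℓ₁ : k →ₗ[ZMod 𝔓.p] ZMod 𝔓.p := ℓ ∘ₗ LinearMap.inl (ZMod 𝔓.p) k k with hℓ₁
        set ℓ₂ : k →ₗ[ZMod 𝔓.p] ZMod 𝔓.p := ℓ ∘ₗ LinearMap.inr (ZMod 𝔓.p) k k with hℓ₂
        have hsplit : ∀ x : k × k, ℓ x = ℓ₁ x.1 + ℓ₂ x.2 := by
          intro x
          rw [hℓ₁, hℓ₂, LinearMap.comp_apply, LinearMap.comp_apply, ← map_add]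
          congr 1
          simp
        obtain ⟨F, hF, hFc⟩ := hcont
        obtain ⟨F', hF', hFc'⟩ := hcont'
        haveI := hF; haveI := hF'
        obtain ⟨y₁, hy₁0, -, hy₁⟩ := lf_kummer_exists E0 hζ1 hζE (fun σ => ℓ₁ (γ σ))
          (by intro σ hσ τ hτ; rw [hadd σ hσ τ hτ, map_add]) F
          (by intro σ hσ hσF; rw [hFc σ hσ hσF, map_zero])
        obtain ⟨y₂, hy₂0, -, hy₂⟩ := lf_kummer_exists E0 hζ1 hζE (fun σ => ℓ₂ (γ' σ))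
          (by intro σ hσ τ hτ; rw [hadd' σ hσ τ hτ, map_add]) F'
          (by intro σ hσ hσF; rw [hFc' σ hσ hσF, map_zero])
        obtain ⟨w₁, hw₁, hw₁0, hge₁⟩ :=
          ssc_dep_ge hp2 hπ₀ hζ hch hg₀ hξ hgξ heq hno2 ℓ₁ hy₁0 hy₁
        obtain ⟨w₂, hw₂, hw₂0, hge₂⟩ :=
          ssc_dep_ge hp2 hπ₀ hζ hch hg₀ hξ hgξ heq' hno2' ℓ₂ hy₂0 hy₂
        have hy₁₂ := lf_kummer_mul E0 hζ1 (fun σ => ℓ₁ (γ σ)) (fun σ => ℓ₂ (γ' σ)) hy₁ hy₂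
        have hy'' : ∀ σ ∈ E0.fixingSubgroup, σ y =
            lfZPow ζ (ℓ₁ (γ σ) + ℓ₂ (γ' σ)) * y := by
          intro σ hσ
          rw [hy σ hσ, hsplit]
        have htE : y / (y₁ * y₂) ∈ E0 := lf_kummer_div_mem E0 hζ1
          (fun σ => ℓ₁ (γ σ) + ℓ₂ (γ' σ)) hy₁₂ hy''
        set t := y / (y₁ * y₂) with ht
        have ht0 : t ≠ 0 := div_ne_zero hy0 (mul_ne_zero hy₁0 hy₂0)
        set w' := w₁ * w₂ * t with hw'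
        have hw'E : w' ∈ E0 := mul_mem (mul_mem hw₁ hw₂) htE
        have hw'0 : w' ≠ 0 := mul_ne_zero (mul_ne_zero hw₁0 hw₂0) ht0
        have hge : 𝔓.v.Ge (y ^ 𝔓.p / w' ^ 𝔓.p - 1)
            (((𝔓.p ^ 2 + 1 : ℕ) : ℚ) / ((𝔓.p ^ 2 - 1 : ℕ) : ℚ)) := by
          have e : y ^ 𝔓.p / w' ^ 𝔓.p =
              (y₁ ^ 𝔓.p / w₁ ^ 𝔓.p) * (y₂ ^ 𝔓.p / w₂ ^ 𝔓.p) := by
            have hyt : y = t * (y₁ * y₂) := by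
              rw [ht, div_mul_cancel₀ _ (mul_ne_zero hy₁0 hy₂0)]
            have hy₁p : y₁ ^ 𝔓.p ≠ 0 := pow_ne_zero _ hy₁0
            have hy₂p : y₂ ^ 𝔓.p ≠ 0 := pow_ne_zero _ hy₂0
            have hw₁p : w₁ ^ 𝔓.p ≠ 0 := pow_ne_zero _ hw₁0
            have hw₂p : w₂ ^ 𝔓.p ≠ 0 := pow_ne_zero _ hw₂0
            have htp : t ^ 𝔓.p ≠ 0 := pow_ne_zero _ ht0
            rw [hw', hyt, mul_pow, mul_pow, mul_pow, mul_pow]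
            field_simp
          rw [e]
          exact 𝔓.ssc_ge_mul_sub_one' hlvl0 hge₁ hge₂
        -- `(w' / w) ^ p` would have level two
        have hpos2 : (0 : ℚ) < ((2 : ℕ) : ℚ) / ((𝔓.p ^ 2 - 1 : ℕ) : ℚ) := by
          have hepos : (0 : ℚ) < ((𝔓.p ^ 2 - 1 : ℕ) : ℚ) := by exact_mod_cast hd
          positivity
        have h1 := 𝔓.ssc_is_div_sub_one hpos2 hlvlt hIs hge
        have e2 : y ^ 𝔓.p / w ^ 𝔓.p / (y ^ 𝔓.p / w' ^ 𝔓.p) = (w' / w) ^ 𝔓.p := by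
          have hyp : y ^ 𝔓.p ≠ 0 := pow_ne_zero _ hy0
          have hwp : w ^ 𝔓.p ≠ 0 := pow_ne_zero _ hw0
          have hw'p : w' ^ 𝔓.p ≠ 0 := pow_ne_zero _ hw'0
          rw [div_pow]
          field_simp
        rw [e2] at h1
        have hi2 : ¬ 𝔓.p ∣ 2 := fun h => by
          have := Nat.le_of_dvd (by norm_num) h
          omega
        have hlt2 : ((2 : ℕ) : ℚ) / ((𝔓.p ^ 2 - 1 : ℕ) : ℚ) <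
            (𝔓.p : ℚ) / ((𝔓.p : ℚ) - 1) := by
          rw [𝔓.ssc_lt_iff]
          nlinarith
        exact 𝔓.lf_not_is_pow_sub_one hunif he hi2 (by norm_num) hlt2
          (div_mem hw'E hwE) h1
      · exact Or.inr h
  -- the line
  have hg₁E : ∀ σ ∈ E0.fixingSubgroup, g₀⁻¹⁻¹ * σ * g₀⁻¹ ∈ E0.fixingSubgroup :=
    fun σ hσ => 𝔓.ssc_conj_mem hπ₀ (𝔓.I_le_D hg₁) hσ
  have hlamc : ∀ σ ∈ E0.fixingSubgroup, c ((φ ^ 2)⁻¹ * σ * φ ^ 2) = lam⁻¹ • c σ := by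
    intro σ hσ
    have h1 := hlam _ (hconj2 σ hσ)
    have h2 := hlam' _ (hconj2 σ hσ)
    rw [hback] at h1 h2
    rw [hc]
    simp only
    rw [h1, h2, Prod.smul_mk, smul_eq_mul, smul_eq_mul, ← mul_assoc, ← mul_assoc,
      inv_mul_cancel₀ hlam0, one_mul, one_mul]
  have hf₀ : ∀ x, 𝔓.v.Ge x 0 → 𝔓.v.Gt ((φ ^ 2) x - x ^ (𝔓.p ^ 2)) 0 := by
    have h1 := 𝔓.lf_frob_pow hD (f := 1)
      (fun x hx => by simpa using 𝔓.ssc_frob_gt hφ hx) 2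
    simpa using h1
  have hdeg : 2 ≤ (minpoly (ZMod 𝔓.p) ε).natDegree := by
    haveI : Module.Finite (ZMod 𝔓.p) k := Module.Finite.of_finite
    have hint : IsIntegral (ZMod 𝔓.p) ε := Algebra.IsIntegral.isIntegral ε
    have hpos := minpoly.natDegree_pos hint
    by_contra hlt
    have h1 : (minpoly (ZMod 𝔓.p) ε).natDegree = 1 := by omega
    rw [minpoly.natDegree_eq_one_iff] at h1
    obtain ⟨a, ha⟩ := h1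
    have h2 : ε ^ 𝔓.p = ε := by rw [← ha, ← map_pow, ZMod.pow_card]
    -- transfer to the residue field
    have h3 : aeval (ch g₀ ^ (𝔓.p - 1)) (X ^ 𝔓.p - X : (ZMod 𝔓.p)[X]) = 0 := by
      rw [map_sub, map_pow, aeval_X, ← hεdef, h2, sub_self]
    have h4 := (hch.aeval_iff hπ₀ hg₀ (𝔓.p - 1) _).mp h3
    rw [Polynomial.map_sub, Polynomial.map_pow, Polynomial.map_X, Polynomial.eval_sub,
      Polynomial.eval_pow, Polynomial.eval_X, sub_eq_zero, ← pow_mul] at h4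
    have hcop : ¬ 𝔓.p ∣ 𝔓.p ^ 2 - 1 := by
      have := 𝔓.ssc_coprime
      rw [Nat.coprime_comm, Nat.Prime.coprime_iff_not_dvd hp] at this
      exact this
    have hθ₀ : g₀ π₀ / π₀ = ξ := by rw [hgξ, mul_div_cancel_right₀ _ hunif.ne_zero]
    rw [hθ₀] at h4
    have hη := 𝔓.ssc_res_primitive hcop hξ
    have h5 := lf_dvd_sub_of_pow_eq hd.ne' hη h4
    rw [Nat.mul_comm] at h5
    exact ssc_arith_not_dvd hp.two_le h5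
  obtain ⟨w, hw⟩ := H.exists_line hg₁ hD2 hg₁E hconj2 hεc' hlamc (by norm_num) hf₀ hdeg
  by_cases hw0 : w = 0
  · refine ⟨1, 0, Or.inl one_ne_zero, fun σ hσ => ?_⟩
    obtain ⟨t, ht⟩ := hw σ hσ
    rw [hw0, smul_zero] at ht
    have := congrArg Prod.fst ht
    simp only [hc, Prod.fst_zero] at this
    rw [this]; ring
  · refine ⟨w.2, -w.1, ?_, fun σ hσ => ?_⟩
    · by_contra hcon
      push Not at hcon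
      apply hw0
      ext
      · simpa using hcon.2
      · simpa using hcon.1
    · obtain ⟨t, ht⟩ := hw σ hσ
      have h1 := congrArg Prod.fst ht
      have h2 := congrArg Prod.snd ht
      simp only [hc, Prod.smul_fst, Prod.smul_snd, smul_eq_mul] at h1 h2
      rw [h1, h2]; ring

end Main

end FFPlace

end Fermat.Agent.TW
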