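/-
P10 / G7 WP-E (helper5), supersingular count: matrix coordinates on `ad⁰ ρbar` with respect to a
basis `bs` of `ρbar.V`, and the adjoint action in these coordinates.
-/
import Fermat.Agent.Lib.TW.Ad0

set_option autoImplicit false
set_option linter.unusedSectionVars false
set_option linter.style.haveILetI false

namespace Fermat.Agent.TW

open Fermat.Agent.S53Lib

local notation "Qb" => AlgebraicClosure ℚ
local notation "GQ" => (AlgebraicClosure ℚ ≃ₐ[ℚ] AlgebraicClosure ℚ)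

noncomputable section

variable {k : Type} [Field k] (ρbar : ResidualGaloisRep k) (bs : Module.Basis (Fin 2) k ρbar.V)

/-- the matrix of `ρbar σ` in the basis `bs` -/
def sscR (σ : GQ) : Matrix (Fin 2) (Fin 2) k := LinearMap.toMatrix bs bs (ρbar.ρ σ)

lemma sscR_mul (σ τ : GQ) : sscR ρbar bs (σ * τ) = sscR ρbar bs σ * sscR ρbar bs τ := by
  unfold sscR
  rw [map_mul, Module.End.mul_eq_comp, LinearMap.toMatrix_comp bs bs bs]

lemma sscR_one : sscR ρbar bs 1 = 1 := by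
  unfold sscR
  rw [map_one, Module.End.one_eq_id, LinearMap.toMatrix_id]

lemma sscR_mul_inv (σ : GQ) : sscR ρbar bs σ * sscR ρbar bs σ⁻¹ = 1 := by
  rw [← sscR_mul, mul_inv_cancel, sscR_one]

lemma sscR_inv_mul (σ : GQ) : sscR ρbar bs σ⁻¹ * sscR ρbar bs σ = 1 := by
  rw [← sscR_mul, inv_mul_cancel, sscR_one]

lemma sscR_pow (σ : GQ) (n : ℕ) : sscR ρbar bs (σ ^ n) = sscR ρbar bs σ ^ n := by
  induction n with
  | zero => rw [pow_zero, pow_zero, sscR_one]
  | succ n ih => rw [pow_succ, pow_succ, sscR_mul, ih]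

lemma sscR_eq_one_of {σ : GQ} (h : ρbar.ρ σ = 1) : sscR ρbar bs σ = 1 := by
  unfold sscR
  rw [h, Module.End.one_eq_id, LinearMap.toMatrix_id]

/-- the matrix of an element of `ad⁰ ρbar` in the basis `bs` -/
def sscMat (x : (ad0Rep ρbar).V) : Matrix (Fin 2) (Fin 2) k :=
  LinearMap.toMatrix bs bs (ad0Val ρbar x)

lemma sscMat_add (x y : (ad0Rep ρbar).V) :
    sscMat ρbar bs (x + y) = sscMat ρbar bs x + sscMat ρbar bs y := by
  unfold sscMat
  rw [ad0Val_add, map_add]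

lemma sscMat_sub (x y : (ad0Rep ρbar).V) :
    sscMat ρbar bs (x - y) = sscMat ρbar bs x - sscMat ρbar bs y := by
  unfold sscMat
  rw [ad0Val_sub, map_sub]

lemma sscMat_smul (a : k) (x : (ad0Rep ρbar).V) :
    sscMat ρbar bs (a • x) = a • sscMat ρbar bs x := by
  unfold sscMat
  rw [ad0Val_smul, map_smul]

lemma sscMat_zero : sscMat ρbar bs 0 = 0 := by
  have := sscMat_sub ρbar bs 0 0
  rwa [sub_zero, sub_self] at this

lemma sscMat_injective : Function.Injective (sscMat ρbar bs) := by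
  intro x y h
  apply ad0Val_injective ρbar
  exact (LinearMap.toMatrix bs bs).injective h

lemma sscMat_trace (x : (ad0Rep ρbar).V) :
    sscMat ρbar bs x 0 0 + sscMat ρbar bs x 1 1 = 0 := by
  have h := trace_ad0Val ρbar x
  rw [LinearMap.trace_eq_matrix_trace k bs, Matrix.trace_fin_two] at h
  exact h

/-- the adjoint action in coordinates -/
lemma sscMat_ρ (σ : GQ) (x : (ad0Rep ρbar).V) :
    sscMat ρbar bs ((ad0Rep ρbar).ρ σ x) =
      sscR ρbar bs σ * sscMat ρbar bs x * sscR ρbar bs σ⁻¹ := by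
  unfold sscMat sscR
  rw [ad0Val_ρ, adRepn_apply, LinearMap.toMatrix_comp bs bs bs, LinearMap.toMatrix_comp bs bs bs,
    mul_assoc]

/-- elements of `ad⁰ ρbar` from trace-zero matrices -/
def sscOfMat (X : Matrix (Fin 2) (Fin 2) k) (hX : X 0 0 + X 1 1 = 0) : (ad0Rep ρbar).V :=
  ad0Mk ρbar (Matrix.toLin bs bs X) (by
    rw [LinearMap.trace_eq_matrix_trace k bs, LinearMap.toMatrix_toLin, Matrix.trace_fin_two]
    exact hX)

lemma sscMat_sscOfMat (X : Matrix (Fin 2) (Fin 2) k) (hX : X 0 0 + X 1 1 = 0) :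
    sscMat ρbar bs (sscOfMat ρbar bs X hX) = X := by
  unfold sscMat sscOfMat
  rw [ad0Val_ad0Mk, LinearMap.toMatrix_toLin]

/-- the matrix of `ρbar σ` when `bs` is an eigenbasis -/
lemma sscR_of_eigen {σ : GQ} {a₁ a₂ : k} (h1 : ρbar.ρ σ (bs 0) = a₁ • bs 0)
    (h2 : ρbar.ρ σ (bs 1) = a₂ • bs 1) : sscR ρbar bs σ = Matrix.diagonal ![a₁, a₂] := by
  ext i j
  unfold sscR
  rw [LinearMap.toMatrix_apply]
  fin_cases i <;> fin_cases j <;> simp [h1, h2]

/-- the matrix of `ρbar σ` when `ρbar σ` swaps the basis lines -/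
lemma sscR_of_swap {σ : GQ} {μ₁ μ₂ : k} (h1 : ρbar.ρ σ (bs 0) = μ₁ • bs 1)
    (h2 : ρbar.ρ σ (bs 1) = μ₂ • bs 0) : sscR ρbar bs σ = !![0, μ₂; μ₁, 0] := by
  ext i j
  unfold sscR
  rw [LinearMap.toMatrix_apply]
  fin_cases i <;> fin_cases j <;> simp [h1, h2]

end

end Fermat.Agent.TW
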