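/-
P10 / G7 WP-E (helper5), supersingular count: the frame (eigenbasis of the inertia group acting
through `Gal(E0/K0)`), Frobenius elements in the frame.
-/
import Fermat.Agent.Lib.TW.SSCount.Frob
import Fermat.Agent.Lib.TW.SSCount.Mat

set_option autoImplicit false
set_option linter.unusedSectionVars false
set_option linter.style.haveILetI false

open scoped IntermediateField
open Polynomial

namespace Fermat.Agent.TW

open Fermat.Agent.S05Lib Fermat.Agent.S53Lib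

local notation "Qb" => AlgebraicClosure ℚ
local notation "GQ" => (AlgebraicClosure ℚ ≃ₐ[ℚ] AlgebraicClosure ℚ)

/-- the data of the supersingular count -/
structure SscFrame (𝔓 : FFPlace) {k : Type} [Field k] (ρbar : ResidualGaloisRep k) where
  /-- a root of `X ^ (p² - 1) + p` -/
  π₀ : Qb
  /-- a primitive root of unity of order `p² - 1` -/
  ξ : Qb
  /-- a primitive `p`-th root of unity -/
  ζ : Qb
  /-- a generator of the tame inertia of `E0 / K0` -/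
  g₁ : GQ
  /-- an eigenbasis of `ρbar g₁` -/
  bs : Module.Basis (Fin 2) k ρbar.V
  /-- the first eigenvalue -/
  a₁ : k
  /-- the second eigenvalue -/
  a₂ : k
  hπ₀ : π₀ ^ (𝔓.p ^ 2 - 1) = -(𝔓.p : Qb)
  hζ : IsPrimitiveRoot ζ 𝔓.p
  hg₁ : g₁ ∈ 𝔓.I
  hξ : IsPrimitiveRoot ξ (𝔓.p ^ 2 - 1)
  hgξ : g₁ π₀ = ξ * π₀
  h1 : ρbar.ρ g₁ (bs 0) = a₁ • bs 0
  h2 : ρbar.ρ g₁ (bs 1) = a₂ • bs 1
  ha : a₂ = a₁ ^ 𝔓.p
  hne : (a₁ * a₂⁻¹) ^ 2 ≠ 1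
  htriv : ∀ σ ∈ (lfAdjoin 𝔓.K0 π₀).fixingSubgroup, ρbar.ρ σ = 1

namespace SscFrame

variable {𝔓 : FFPlace} {k : Type} [Field k] {ρbar : ResidualGaloisRep k} (fr : SscFrame 𝔓 ρbar)

/-- the field `E0` -/
noncomputable def E0 : IntermediateField ℚ Qb := lfAdjoin 𝔓.K0 fr.π₀

/-- the scalar through which conjugation by `g₁` acts on the lower left entry -/
noncomputable def ε : k := fr.a₁ * fr.a₂⁻¹

lemma R_g₁ : sscR ρbar fr.bs fr.g₁ = Matrix.diagonal ![fr.a₁, fr.a₂] :=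
  sscR_of_eigen ρbar fr.bs fr.h1 fr.h2

lemma R_triv {σ : GQ} (hσ : σ ∈ fr.E0.fixingSubgroup) : sscR ρbar fr.bs σ = 1 :=
  sscR_eq_one_of ρbar fr.bs (fr.htriv σ hσ)

/-- `g₁ ^ (p² - 1)` acts trivially -/
lemma pow_mem : fr.g₁ ^ (𝔓.p ^ 2 - 1) ∈ fr.E0.fixingSubgroup := by
  refine 𝔓.ssc_mem_fixingSubgroup fr.hπ₀ (𝔓.I.pow_mem fr.hg₁ _) ?_
  rw [𝔓.ssc_pow_apply fr.hπ₀ fr.hg₁ fr.hξ.pow_eq_one fr.hgξ, fr.hξ.pow_eq_one, one_mul]

lemma a₁_pow : fr.a₁ ^ (𝔓.p ^ 2 - 1) = 1 := by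
  have h := fr.R_triv fr.pow_mem
  rw [sscR_pow, fr.R_g₁, Matrix.diagonal_pow] at h
  have := congrFun (congrFun h 0) 0
  simpa using this

lemma a₂_pow : fr.a₂ ^ (𝔓.p ^ 2 - 1) = 1 := by
  have h := fr.R_triv fr.pow_mem
  rw [sscR_pow, fr.R_g₁, Matrix.diagonal_pow] at h
  have := congrFun (congrFun h 1) 1
  simpa using this

lemma a₁_ne_zero : fr.a₁ ≠ 0 := by
  intro h
  have := fr.a₁_pow
  rw [h, zero_pow 𝔓.ssc_d_pos.ne'] at this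
  exact zero_ne_one this

lemma a₂_ne_zero : fr.a₂ ≠ 0 := by
  intro h
  have := fr.a₂_pow
  rw [h, zero_pow 𝔓.ssc_d_pos.ne'] at this
  exact zero_ne_one this

lemma a₁_ne_a₂ : fr.a₁ ≠ fr.a₂ := by
  intro h
  apply fr.hne
  rw [h, mul_inv_cancel₀ fr.a₂_ne_zero, one_pow]

lemma ε_ne_one : fr.ε ≠ 1 := by
  intro h
  apply fr.hne
  have : fr.a₁ * fr.a₂⁻¹ = 1 := h
  rw [this, one_pow]

lemma ε_sq_ne_one : fr.ε ^ 2 ≠ 1 := fr.hne

lemma ε_ne_zero : fr.ε ≠ 0 := mul_ne_zero fr.a₁_ne_zero (inv_ne_zero fr.a₂_ne_zero)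

/-- `a₂ ^ p = a₁` -/
lemma a₂_pow_p : fr.a₂ ^ 𝔓.p = fr.a₁ := by
  have h1 : 𝔓.p * 𝔓.p = (𝔓.p ^ 2 - 1) + 1 := by
    have := 𝔓.ssc_d_pos
    have : 𝔓.p ^ 2 = 𝔓.p * 𝔓.p := sq _
    omega
  rw [fr.ha, ← pow_mul, h1, pow_succ, fr.a₁_pow, one_mul]

/-- `ε ^ (p + 1) = 1` -/
lemma ε_pow : fr.ε ^ (𝔓.p + 1) = 1 := by
  unfold ε
  rw [mul_pow, inv_pow, pow_succ fr.a₂, fr.a₂_pow_p, pow_succ fr.a₁, ← fr.ha]
  field_simp [fr.a₁_ne_zero, fr.a₂_ne_zero]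

/-- **a Frobenius element swaps the eigenlines** -/
theorem R_frob {φ : GQ} (hφ : 𝔓.P.IsFrobeniusAt φ 𝔓.p) :
    ∃ μ₁ μ₂ : k, μ₁ ≠ 0 ∧ μ₂ ≠ 0 ∧ sscR ρbar fr.bs φ = !![0, μ₂; μ₁, 0] := by
  set R := sscR ρbar fr.bs φ with hR
  have hn := 𝔓.ssc_frob_conj fr.hπ₀ hφ fr.hg₁ fr.hξ.pow_eq_one fr.hgξ
  have h1 : sscR ρbar fr.bs (φ * fr.g₁ * φ⁻¹) = sscR ρbar fr.bs (fr.g₁ ^ 𝔓.p) := by
    have e : φ * fr.g₁ * φ⁻¹ = fr.g₁ ^ 𝔓.p * ((fr.g₁ ^ 𝔓.p)⁻¹ * (φ * fr.g₁ * φ⁻¹)) := by group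
    rw [e, sscR_mul, fr.R_triv hn, mul_one]
  rw [sscR_mul, sscR_mul, sscR_pow, fr.R_g₁, Matrix.diagonal_pow] at h1
  have h2 : R * Matrix.diagonal ![fr.a₁, fr.a₂] =
      Matrix.diagonal (![fr.a₁, fr.a₂] ^ 𝔓.p) * R := by
    have h3 := congrArg (fun Z => Z * R) h1
    change R * Matrix.diagonal ![fr.a₁, fr.a₂] * sscR ρbar fr.bs φ⁻¹ * R =
      Matrix.diagonal (![fr.a₁, fr.a₂] ^ 𝔓.p) * R at h3
    rw [mul_assoc, sscR_inv_mul, mul_one] at h3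
    exact h3
  have h00 : R 0 0 = 0 := by
    have := congrFun (congrFun h2 0) 0
    rw [Matrix.mul_diagonal, Matrix.diagonal_mul] at this
    simp only [Matrix.cons_val_zero, Pi.pow_apply] at this
    rw [← fr.ha] at this
    have h3 : R 0 0 * (fr.a₁ - fr.a₂) = 0 := by rw [mul_sub, this]; ring
    rcases mul_eq_zero.mp h3 with h | h
    · exact h
    · exact absurd (sub_eq_zero.mp h) fr.a₁_ne_a₂
  have h11 : R 1 1 = 0 := by
    have := congrFun (congrFun h2 1) 1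
    rw [Matrix.mul_diagonal, Matrix.diagonal_mul] at this
    simp only [Matrix.cons_val_one, Pi.pow_apply, Matrix.cons_val_zero] at this
    rw [fr.a₂_pow_p] at this
    have h3 : R 1 1 * (fr.a₂ - fr.a₁) = 0 := by rw [mul_sub, this]; ring
    rcases mul_eq_zero.mp h3 with h | h
    · exact h
    · exact absurd (sub_eq_zero.mp h).symm fr.a₁_ne_a₂
  have hRform : R = !![0, R 0 1; R 1 0, 0] := by
    ext i j
    fin_cases i <;> fin_cases j <;> simp [h00, h11]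
  have hdet : R.det * (sscR ρbar fr.bs φ⁻¹).det = 1 := by
    rw [← Matrix.det_mul, hR, sscR_mul_inv, Matrix.det_one]
  have hdetR : R.det = -(R 0 1 * R 1 0) := by
    rw [Matrix.det_fin_two, h00, h11]; ring
  refine ⟨R 1 0, R 0 1, ?_, ?_, hRform⟩
  · intro h
    rw [hdetR, h, mul_zero, neg_zero, zero_mul] at hdet
    exact zero_ne_one hdet
  · intro h
    rw [hdetR, h, zero_mul, neg_zero, zero_mul] at hdet
    exact zero_ne_one hdet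

end SscFrame

end Fermat.Agent.TW
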