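/-
P10 / G7 WP-E (helper5), supersingular count: cocycles of a group `G → D ⊆ G_ℚ` with values in
`ad⁰ ρbar`, pushed forward to matrix valued functions on `G_ℚ`; their restriction to
`Gal(ℚ̄/E0)` is additive and transforms under conjugation by the decomposition group through the
adjoint action.
-/
import Fermat.Agent.Lib.TW.SSCount.Frame

set_option autoImplicit false
set_option linter.unusedSectionVars false
set_option linter.style.haveILetI false

open scoped IntermediateField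
open Polynomial

namespace Fermat.Agent.TW

open Fermat.Agent.S05Lib Fermat.Agent.S53Lib

local notation "Qb" => AlgebraicClosure ℚ
local notation "GQ" => (AlgebraicClosure ℚ ≃ₐ[ℚ] AlgebraicClosure ℚ)

variable {k : Type} [Field k] {ρbar : ResidualGaloisRep k}
variable {G : Type*} [Group G] (loc : G →* GQ)

/-- level-constant cocycles of `G` with values in `ad⁰ ρbar` -/
structure SscCocycle (ρbar : ResidualGaloisRep k) (c : G → (ad0Rep ρbar).V) : Prop where
  coc : ∀ g h, c (g * h) = (ad0Rep ρbar).ρ (loc g) (c h) + c g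
  lvl : ∃ F : IntermediateField ℚ Qb, FiniteDimensional ℚ F ∧
    ∀ g s, loc s ∈ F.fixingSubgroup → c (g * s) = c g

namespace SscCocycle

variable {loc} {c c' : G → (ad0Rep ρbar).V}

lemma map_one (h : SscCocycle loc ρbar c) : c 1 = 0 := by
  have := h.coc 1 1
  rw [mul_one, _root_.map_one, _root_.map_one, Module.End.one_apply] at this
  exact left_eq_add.mp this

lemma eq_of_loc_eq (h : SscCocycle loc ρbar c) {s s' : G} (hs : loc s = loc s') : c s = c s' := by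
  obtain ⟨F, -, hF⟩ := h.lvl
  have h1 : loc (s⁻¹ * s') ∈ F.fixingSubgroup := by
    rw [map_mul, map_inv, hs, inv_mul_cancel]
    exact F.fixingSubgroup.one_mem
  have := hF s _ h1
  rw [mul_inv_cancel_left] at this
  exact this.symm

lemma add (h : SscCocycle loc ρbar c) (h' : SscCocycle loc ρbar c') :
    SscCocycle loc ρbar (fun s => c s + c' s) := by
  refine ⟨fun g s => ?_, ?_⟩
  · rw [h.coc, h'.coc, map_add]
    abel
  · obtain ⟨F, hF, hFc⟩ := h.lvl
    obtain ⟨F', hF', hFc'⟩ := h'.lvl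
    haveI := hF; haveI := hF'
    refine ⟨F ⊔ F', inferInstance, fun g s hs => ?_⟩
    rw [hFc g s (IntermediateField.fixingSubgroup_antitone le_sup_left hs),
      hFc' g s (IntermediateField.fixingSubgroup_antitone le_sup_right hs)]

lemma smul (h : SscCocycle loc ρbar c) (a : k) : SscCocycle loc ρbar (fun s => a • c s) := by
  refine ⟨fun g s => ?_, ?_⟩
  · rw [h.coc, smul_add, map_smul]
  · obtain ⟨F, hF, hFc⟩ := h.lvl
    exact ⟨F, hF, fun g s hs => by rw [hFc g s hs]⟩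

/-- coboundaries -/
lemma cob (hsm : ∃ F : IntermediateField ℚ Qb, FiniteDimensional ℚ F ∧
    ∀ σ ∈ F.fixingSubgroup, ρbar.ρ σ = 1) (m : (ad0Rep ρbar).V) :
    SscCocycle loc ρbar (fun s => (ad0Rep ρbar).ρ (loc s) m - m) := by
  refine ⟨fun g s => ?_, ?_⟩
  · rw [map_mul, _root_.map_mul, Module.End.mul_apply, map_sub]
    abel
  · obtain ⟨F, hF, hFρ⟩ := hsm
    refine ⟨F, hF, fun g s hs => ?_⟩
    rw [map_mul, _root_.map_mul, Module.End.mul_apply]
    congr 2
    apply ad0Val_injective ρbar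
    rw [ad0Val_ρ, adRepn_apply, hFρ _ hs, hFρ _ (F.fixingSubgroup.inv_mem hs)]
    rfl

end SscCocycle

/-- push forward of a function on `G` to `G_ℚ` -/
noncomputable def sscPush (c : G → (ad0Rep ρbar).V) (σ : GQ) : (ad0Rep ρbar).V := by
  classical
  exact if h : ∃ s, loc s = σ then c h.choose else 0

lemma sscPush_loc {c : G → (ad0Rep ρbar).V} (h : SscCocycle loc ρbar c) (s : G) :
    sscPush loc c (loc s) = c s := by
  have hex : ∃ s', loc s' = loc s := ⟨s, rfl⟩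
  rw [sscPush, dif_pos hex]
  exact h.eq_of_loc_eq hex.choose_spec

section Frame

variable {𝔓 : FFPlace} (fr : SscFrame 𝔓 ρbar)

/-- the matrix valued push forward -/
noncomputable def sscPM (c : G → (ad0Rep ρbar).V) (σ : GQ) : Matrix (Fin 2) (Fin 2) k :=
  sscMat ρbar fr.bs (sscPush loc c σ)

lemma SscFrame.mem_D {σ : GQ} (hσ : σ ∈ fr.E0.fixingSubgroup) : σ ∈ 𝔓.D :=
  𝔓.I_le_D (𝔓.ssc_fixingSubgroup_le fr.hπ₀ hσ)

/-- the action of `Gal(ℚ̄/E0)` on `ad⁰ ρbar` is trivial -/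
lemma SscFrame.ρ_triv {σ : GQ} (hσ : σ ∈ fr.E0.fixingSubgroup) (x : (ad0Rep ρbar).V) :
    (ad0Rep ρbar).ρ σ x = x := by
  apply sscMat_injective ρbar fr.bs
  rw [sscMat_ρ, fr.R_triv hσ, fr.R_triv (fr.E0.fixingSubgroup.inv_mem hσ), one_mul, mul_one]

variable {loc} {c : G → (ad0Rep ρbar).V} (h : SscCocycle loc ρbar c)
  (hsurj : ∀ σ ∈ 𝔓.D, ∃ s, loc s = σ)
include h hsurj

lemma sscPM_loc (s : G) : sscPM loc fr c (loc s) = sscMat ρbar fr.bs (c s) := by
  rw [sscPM, sscPush_loc loc h]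

/-- additivity on `Gal(ℚ̄/E0)` -/
lemma sscPM_mul {σ τ : GQ} (hσ : σ ∈ fr.E0.fixingSubgroup) (hτ : τ ∈ fr.E0.fixingSubgroup) :
    sscPM loc fr c (σ * τ) = sscPM loc fr c σ + sscPM loc fr c τ := by
  obtain ⟨s, rfl⟩ := hsurj σ (fr.mem_D hσ)
  obtain ⟨t, rfl⟩ := hsurj τ (fr.mem_D hτ)
  rw [← map_mul, sscPM_loc fr h hsurj, sscPM_loc fr h hsurj, sscPM_loc fr h hsurj, h.coc,
    fr.ρ_triv hσ, sscMat_add, add_comm]

/-- continuity -/
lemma sscPM_cont : ∃ F : IntermediateField ℚ Qb, FiniteDimensional ℚ F ∧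
    ∀ σ ∈ fr.E0.fixingSubgroup, σ ∈ F.fixingSubgroup → sscPM loc fr c σ = 0 := by
  obtain ⟨F, hF, hFc⟩ := h.lvl
  refine ⟨F, hF, fun σ hσ hσF => ?_⟩
  obtain ⟨s, rfl⟩ := hsurj σ (fr.mem_D hσ)
  rw [sscPM_loc fr h hsurj]
  have := hFc 1 s hσF
  rw [one_mul, h.map_one] at this
  rw [this, sscMat_zero]

/-- conjugation by the decomposition group -/
lemma sscPM_conj {g : GQ} (hg : g ∈ 𝔓.D) {σ : GQ} (hσ : σ ∈ fr.E0.fixingSubgroup) :
    sscPM loc fr c (g⁻¹ * σ * g) =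
      sscR ρbar fr.bs g⁻¹ * sscPM loc fr c σ * sscR ρbar fr.bs g := by
  obtain ⟨s, rfl⟩ := hsurj σ (fr.mem_D hσ)
  obtain ⟨t, rfl⟩ := hsurj g hg
  have e0 : (loc t)⁻¹ * loc s * loc t = loc (t⁻¹ * s * t) := by
    rw [map_mul, map_mul, map_inv]
  rw [e0, sscPM_loc fr h hsurj, sscPM_loc fr h hsurj]
  -- the cocycle computation
  have h1 : c (t⁻¹ * s * t) = (ad0Rep ρbar).ρ (loc t)⁻¹ (c s) := by
    have e1 : c (t⁻¹ * s * t) = (ad0Rep ρbar).ρ (loc t⁻¹) (c (s * t)) + c t⁻¹ := by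
      rw [mul_assoc, h.coc]
    have e2 : c (s * t) = c t + c s := by
      rw [h.coc, fr.ρ_triv hσ]
    have e3 : (ad0Rep ρbar).ρ (loc t⁻¹) (c t) + c t⁻¹ = 0 := by
      have := h.coc t⁻¹ t
      rw [inv_mul_cancel, h.map_one] at this
      exact this.symm
    rw [e1, e2, map_add, map_inv]
    rw [map_inv] at e3
    rw [add_assoc, add_comm ((ad0Rep ρbar).ρ (loc t)⁻¹ (c s)), ← add_assoc, e3, zero_add]
  rw [h1, sscMat_ρ, inv_inv]

lemma sscPM_trace (σ : GQ) : sscPM loc fr c σ 0 0 + sscPM loc fr c σ 1 1 = 0 :=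
  sscMat_trace ρbar fr.bs _

end Frame

end Fermat.Agent.TW
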