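/-
P10 / G7 WP-E (helper5), supersingular count: the local condition `SscCond` and the dependence of
the lower left components of two cocycles satisfying it.
-/
import Fermat.Agent.Lib.TW.SSCount.Coc

set_option autoImplicit false
set_option linter.unusedSectionVars false
set_option linter.style.haveILetI false

open scoped IntermediateField
open Polynomial

namespace Fermat.Agent.TW

open Fermat.Agent.S05Lib Fermat.Agent.S53Lib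

local notation "Qb" => AlgebraicClosure ℚ
local notation "GQ" => (AlgebraicClosure ℚ ≃ₐ[ℚ] AlgebraicClosure ℚ)

variable {k : Type} [Field k] {ρbar : ResidualGaloisRep k}
variable {G : Type*} [Group G] (loc : G →* GQ)
variable {𝔓 : FFPlace} [Algebra (ZMod 𝔓.p) k] (fr : SscFrame 𝔓 ρbar)

/-- the level `(p² + 1) / (p² - 1)` -/
noncomputable def FFPlace.sscLvl (𝔓 : FFPlace) : ℚ :=
  ((𝔓.p ^ 2 + 1 : ℕ) : ℚ) / ((𝔓.p ^ 2 - 1 : ℕ) : ℚ)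

/-- all Kummer classes of the `(i, j)` entry of `c` restricted to `Gal(ℚ̄/E0)` lie in
`U^(p²+1) · E0^{×p}` -/
def SscEntry (c : G → (ad0Rep ρbar).V) (i j : Fin 2) : Prop :=
  ∀ (ℓ : k →ₗ[ZMod 𝔓.p] ZMod 𝔓.p) (y : Qb), y ≠ 0 →
    (∀ s, loc s ∈ fr.E0.fixingSubgroup →
      (loc s) y = lfZPow fr.ζ (ℓ (sscMat ρbar fr.bs (c s) i j)) * y) →
    ∃ w ∈ fr.E0, w ≠ 0 ∧ 𝔓.v.Ge (y ^ 𝔓.p / w ^ 𝔓.p - 1) 𝔓.sscLvl

/-- **the local condition of the supersingular case**: the diagonal part vanishes on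
`Gal(ℚ̄/E0)` and all Kummer classes of the off-diagonal entries lie in `U^(p²+1) · E0^{×p}` -/
def SscCond (c : G → (ad0Rep ρbar).V) : Prop :=
  (∀ s, loc s ∈ fr.E0.fixingSubgroup → sscMat ρbar fr.bs (c s) 0 0 = 0) ∧
  SscEntry loc fr c 1 0 ∧ SscEntry loc fr c 0 1

section Dep

variable {loc} {c c' : G → (ad0Rep ρbar).V} (h : SscCocycle loc ρbar c)
  (h' : SscCocycle loc ρbar c') (hsurj : ∀ σ ∈ 𝔓.D, ∃ s, loc s = σ)

/-- products of elements `≡ 1` -/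
lemma FFPlace.ssc_ge_mul_sub_one {x y : Qb} {t : ℚ} (ht : 0 ≤ t) (hx : 𝔓.v.Ge (x - 1) t)
    (hy : 𝔓.v.Ge (y - 1) t) : 𝔓.v.Ge (x * y - 1) t := by
  have e : x * y - 1 = (x - 1) + (y - 1) + (x - 1) * (y - 1) := by ring
  rw [e]
  exact (hx.add hy).add ((hx.mul hy).mono (by linarith))

include h hsurj in
/-- Kummer generators for the functionals of an entry -/
lemma ssc_exists_gen (i j : Fin 2) (ℓ : k →ₗ[ZMod 𝔓.p] ZMod 𝔓.p) :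
    ∃ y : Qb, y ≠ 0 ∧ ∀ σ ∈ fr.E0.fixingSubgroup,
      σ y = lfZPow fr.ζ (ℓ (sscPM loc fr c σ i j)) * y := by
  obtain ⟨F, hF, hFc⟩ := sscPM_cont fr h hsurj
  haveI := hF
  obtain ⟨-, -, hζmem, -⟩ := 𝔓.lf_E0 fr.hπ₀
  obtain ⟨y, hy0, -, hy⟩ := lf_kummer_exists fr.E0 fr.hζ.pow_eq_one (hζmem _ fr.hζ)
    (fun σ => ℓ (sscPM loc fr c σ i j)) (by
      intro σ hσ τ hτ
      rw [sscPM_mul fr h hsurj hσ hτ, Matrix.add_apply, map_add]) F (by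
      intro σ hσ hσF
      rw [hFc σ hσ hσF, Matrix.zero_apply, map_zero])
  exact ⟨y, hy0, hy⟩

include h hsurj in
/-- the condition in terms of the pushed forward cocycle -/
lemma SscEntry.gen {i j : Fin 2} (hc : SscEntry loc fr c i j) (ℓ : k →ₗ[ZMod 𝔓.p] ZMod 𝔓.p)
    {y : Qb} (hy0 : y ≠ 0)
    (hy : ∀ σ ∈ fr.E0.fixingSubgroup, σ y = lfZPow fr.ζ (ℓ (sscPM loc fr c σ i j)) * y) :
    ∃ w ∈ fr.E0, w ≠ 0 ∧ 𝔓.v.Ge (y ^ 𝔓.p / w ^ 𝔓.p - 1) 𝔓.sscLvl := by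
  refine hc ℓ y hy0 fun s hs => ?_
  rw [hy _ hs, sscPM_loc fr h hsurj]

include h hsurj in
/-- the condition in terms of the pushed forward cocycle, converse -/
lemma SscEntry.of_gen {i j : Fin 2}
    (hc : ∀ (ℓ : k →ₗ[ZMod 𝔓.p] ZMod 𝔓.p) (y : Qb), y ≠ 0 →
      (∀ σ ∈ fr.E0.fixingSubgroup, σ y = lfZPow fr.ζ (ℓ (sscPM loc fr c σ i j)) * y) →
      ∃ w ∈ fr.E0, w ≠ 0 ∧ 𝔓.v.Ge (y ^ 𝔓.p / w ^ 𝔓.p - 1) 𝔓.sscLvl) :
    SscEntry loc fr c i j := by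
  intro ℓ y hy0 hy
  refine hc ℓ y hy0 fun σ hσ => ?_
  obtain ⟨s, rfl⟩ := hsurj σ (fr.mem_D hσ)
  rw [hy s hσ, sscPM_loc fr h hsurj]

end Dep

/-- the pair of lower left entries -/
noncomputable def sscPair (c c' : G → (ad0Rep ρbar).V) (σ : GQ) : k × k :=
  (sscPM loc fr c σ 1 0, sscPM loc fr c' σ 1 0)

section Main

variable [Finite k] {loc} {c c' : G → (ad0Rep ρbar).V} (h : SscCocycle loc ρbar c)
  (h' : SscCocycle loc ρbar c') (hsurj : ∀ σ ∈ 𝔓.D, ∃ s, loc s = σ)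


lemma FFPlace.ssc_lvl_lt : 𝔓.sscLvl < (𝔓.p : ℚ) / ((𝔓.p : ℚ) - 1) := by
  have hp2 : (2 : ℚ) ≤ 𝔓.p := by exact_mod_cast 𝔓.hp.two_le
  have h4 : 4 ≤ 𝔓.p ^ 2 := by have := 𝔓.hp.two_le; nlinarith
  unfold FFPlace.sscLvl
  rw [Nat.cast_sub (by omega)]
  push_cast
  have h1 : (0 : ℚ) < (𝔓.p : ℚ) - 1 := by linarith
  have h2 : (0 : ℚ) < (𝔓.p : ℚ) ^ 2 - 1 := by nlinarith
  rw [div_lt_div_iff₀ h2 h1]
  nlinarith

include h h' hsurj in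
/-- the hypotheses of the counting lemma for the pair of lower left entries -/
theorem ssc_countHyp (hc : SscCond loc fr c) (hc' : SscCond loc fr c') :
    𝔓.LFCountHyp fr.E0 fr.π₀ (𝔓.p ^ 2 - 1) fr.ζ (𝔓.p ^ 2 + 1) (sscPair loc fr c c') := by
  have hp := 𝔓.hp
  have hp2 : 2 ≤ 𝔓.p := hp.two_le
  obtain ⟨hunif, he, hζmem, -⟩ := 𝔓.lf_E0 fr.hπ₀
  have hζE := hζmem _ fr.hζ
  have hζ1 := fr.hζ.pow_eq_one
  have hlvl : ((𝔓.p ^ 2 + 1 : ℕ) : ℚ) / ((𝔓.p ^ 2 - 1 : ℕ) : ℚ) = 𝔓.sscLvl := rfl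
  refine ⟨hunif, he, fr.hζ, hζE, ?_, Nat.succ_pos _, ?_, ?_, ?_, ?_⟩
  · intro hdvd
    have h1 : 𝔓.p ∣ 𝔓.p ^ 2 := dvd_pow_self _ (by norm_num)
    have h2 := (Nat.dvd_add_right h1).mp hdvd
    exact hp.one_lt.ne' (Nat.dvd_one.mp h2)
  · rw [hlvl]; exact 𝔓.ssc_lvl_lt
  · intro σ hσ τ hτ
    unfold sscPair
    rw [sscPM_mul fr h hsurj hσ hτ, sscPM_mul fr h' hsurj hσ hτ]
    rfl
  · obtain ⟨F, hF, hFc⟩ := sscPM_cont fr h hsurj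
    obtain ⟨F', hF', hFc'⟩ := sscPM_cont fr h' hsurj
    haveI := hF; haveI := hF'
    refine ⟨F ⊔ F', inferInstance, fun σ hσ hσF => ?_⟩
    unfold sscPair
    rw [hFc σ hσ (IntermediateField.fixingSubgroup_antitone le_sup_left hσF),
      hFc' σ hσ (IntermediateField.fixingSubgroup_antitone le_sup_right hσF)]
    rfl
  · intro ℓ y hy0 hy
    rw [hlvl]
    -- split the functional
    set ℓ₁ : k →ₗ[ZMod 𝔓.p] ZMod 𝔓.p := ℓ ∘ₗ LinearMap.inl (ZMod 𝔓.p) k k with hℓ₁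
    set ℓ₂ : k →ₗ[ZMod 𝔓.p] ZMod 𝔓.p := ℓ ∘ₗ LinearMap.inr (ZMod 𝔓.p) k k with hℓ₂
    have hsplit : ∀ x : k × k, ℓ x = ℓ₁ x.1 + ℓ₂ x.2 := by
      intro x
      rw [hℓ₁, hℓ₂, LinearMap.comp_apply, LinearMap.comp_apply, ← map_add]
      congr 1
      simp
    obtain ⟨y₁, hy₁0, hy₁⟩ := ssc_exists_gen fr h hsurj 1 0 ℓ₁
    obtain ⟨y₂, hy₂0, hy₂⟩ := ssc_exists_gen fr h' hsurj 1 0 ℓ₂
    obtain ⟨w₁, hw₁, hw₁0, hge₁⟩ := hc.2.1.gen fr h hsurj ℓ₁ hy₁0 hy₁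
    obtain ⟨w₂, hw₂, hw₂0, hge₂⟩ := hc'.2.1.gen fr h' hsurj ℓ₂ hy₂0 hy₂
    have hy₁₂ := lf_kummer_mul fr.E0 hζ1 (fun σ => ℓ₁ (sscPM loc fr c σ 1 0))
      (fun σ => ℓ₂ (sscPM loc fr c' σ 1 0)) hy₁ hy₂
    have hy'' : ∀ σ ∈ fr.E0.fixingSubgroup, σ y =
        lfZPow fr.ζ (ℓ₁ (sscPM loc fr c σ 1 0) + ℓ₂ (sscPM loc fr c' σ 1 0)) * y := by
      intro σ hσ
      rw [hy σ hσ, hsplit]
      rfl
    have htE : y / (y₁ * y₂) ∈ fr.E0 := lf_kummer_div_mem fr.E0 hζ1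
      (fun σ => ℓ₁ (sscPM loc fr c σ 1 0) + ℓ₂ (sscPM loc fr c' σ 1 0)) hy₁₂ hy''
    set t := y / (y₁ * y₂) with ht
    have ht0 : t ≠ 0 := div_ne_zero hy0 (mul_ne_zero hy₁0 hy₂0)
    set w := w₁ * w₂ * t with hw
    have hwE : w ∈ fr.E0 := mul_mem (mul_mem hw₁ hw₂) htE
    have hw0 : w ≠ 0 := mul_ne_zero (mul_ne_zero hw₁0 hw₂0) ht0
    have hlvl0 : (0 : ℚ) ≤ 𝔓.sscLvl := by unfold FFPlace.sscLvl; positivity
    have hge : 𝔓.v.Ge (y ^ 𝔓.p / w ^ 𝔓.p - 1) 𝔓.sscLvl := by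
      have e : y ^ 𝔓.p / w ^ 𝔓.p = (y₁ ^ 𝔓.p / w₁ ^ 𝔓.p) * (y₂ ^ 𝔓.p / w₂ ^ 𝔓.p) := by
        have hy : y = t * (y₁ * y₂) := by rw [ht, div_mul_cancel₀ _ (mul_ne_zero hy₁0 hy₂0)]
        have hy₁p : y₁ ^ 𝔓.p ≠ 0 := pow_ne_zero _ hy₁0
        have hy₂p : y₂ ^ 𝔓.p ≠ 0 := pow_ne_zero _ hy₂0
        have hw₁p : w₁ ^ 𝔓.p ≠ 0 := pow_ne_zero _ hw₁0
        have hw₂p : w₂ ^ 𝔓.p ≠ 0 := pow_ne_zero _ hw₂0
        have htp : t ^ 𝔓.p ≠ 0 := pow_ne_zero _ ht0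
        rw [hw, hy, mul_pow, mul_pow, mul_pow, mul_pow]
        field_simp
      rw [e]
      exact 𝔓.ssc_ge_mul_sub_one hlvl0 hge₁ hge₂
    -- conjugation by `g₁`
    have hε : ∀ σ ∈ (lfAdjoin 𝔓.K0 fr.π₀).fixingSubgroup,
        sscPair loc fr c c' (fr.g₁⁻¹ * σ * fr.g₁) = fr.ε • sscPair loc fr c c' σ := by
      intro σ hσ
      have hD := 𝔓.I_le_D fr.hg₁
      have key : ∀ (c₀ : G → (ad0Rep ρbar).V), SscCocycle loc ρbar c₀ →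
          sscPM loc fr c₀ (fr.g₁⁻¹ * σ * fr.g₁) 1 0 = fr.ε * sscPM loc fr c₀ σ 1 0 := by
        intro c₀ h₀
        rw [sscPM_conj fr h₀ hsurj hD hσ]
        have hinv : sscR ρbar fr.bs fr.g₁⁻¹ = Matrix.diagonal ![fr.a₁⁻¹, fr.a₂⁻¹] := by
          have h1 := sscR_inv_mul ρbar fr.bs fr.g₁
          rw [fr.R_g₁] at h1
          have h2 : Matrix.diagonal ![fr.a₁⁻¹, fr.a₂⁻¹] * Matrix.diagonal ![fr.a₁, fr.a₂] =
              (1 : Matrix (Fin 2) (Fin 2) k) := by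
            rw [Matrix.diagonal_mul_diagonal]
            ext i j
            fin_cases i <;> fin_cases j <;>
              simp [inv_mul_cancel₀ fr.a₁_ne_zero, inv_mul_cancel₀ fr.a₂_ne_zero]
          have h3 : Matrix.diagonal ![fr.a₁, fr.a₂] * Matrix.diagonal ![fr.a₁⁻¹, fr.a₂⁻¹] =
              (1 : Matrix (Fin 2) (Fin 2) k) := by
            rw [Matrix.diagonal_mul_diagonal]
            ext i j
            fin_cases i <;> fin_cases j <;>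
              simp [mul_inv_cancel₀ fr.a₁_ne_zero, mul_inv_cancel₀ fr.a₂_ne_zero]
          calc sscR ρbar fr.bs fr.g₁⁻¹
              = sscR ρbar fr.bs fr.g₁⁻¹ * (Matrix.diagonal ![fr.a₁, fr.a₂] *
                  Matrix.diagonal ![fr.a₁⁻¹, fr.a₂⁻¹]) := by rw [h3, mul_one]
            _ = Matrix.diagonal ![fr.a₁⁻¹, fr.a₂⁻¹] := by rw [← mul_assoc, h1, one_mul]
        rw [hinv, fr.R_g₁, Matrix.mul_diagonal, Matrix.diagonal_mul]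
        simp only [Matrix.cons_val_one, Matrix.cons_val_zero, SscFrame.ε]
        ring
      unfold sscPair
      rw [key c h, key c' h']
      rfl
    exact 𝔓.ssc_level_exact fr.hπ₀ fr.hζ fr.hg₁ fr.hξ fr.hgξ fr.ε_pow hε ℓ hy0 hy hwE hw0 hge
      |>.imp id (fun h => ⟨w, hwE, hw0, h⟩)

end Main

section Line

variable [Finite k] {loc} {c c' : G → (ad0Rep ρbar).V} (h : SscCocycle loc ρbar c)
  (h' : SscCocycle loc ρbar c') (hsurj : ∀ σ ∈ 𝔓.D, ∃ s, loc s = σ)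

/-- the inverse of a diagonal matrix of `ρbar g₁` -/
lemma SscFrame.R_g₁_inv : sscR ρbar fr.bs fr.g₁⁻¹ = Matrix.diagonal ![fr.a₁⁻¹, fr.a₂⁻¹] := by
  have h1 := sscR_inv_mul ρbar fr.bs fr.g₁
  rw [fr.R_g₁] at h1
  have h3 : Matrix.diagonal ![fr.a₁, fr.a₂] * Matrix.diagonal ![fr.a₁⁻¹, fr.a₂⁻¹] =
      (1 : Matrix (Fin 2) (Fin 2) k) := by
    rw [Matrix.diagonal_mul_diagonal]
    ext i j
    fin_cases i <;> fin_cases j <;>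
      simp [mul_inv_cancel₀ fr.a₁_ne_zero, mul_inv_cancel₀ fr.a₂_ne_zero]
  calc sscR ρbar fr.bs fr.g₁⁻¹
      = sscR ρbar fr.bs fr.g₁⁻¹ * (Matrix.diagonal ![fr.a₁, fr.a₂] *
          Matrix.diagonal ![fr.a₁⁻¹, fr.a₂⁻¹]) := by rw [h3, mul_one]
    _ = Matrix.diagonal ![fr.a₁⁻¹, fr.a₂⁻¹] := by rw [← mul_assoc, h1, one_mul]

include h hsurj in
/-- conjugation by `g₁` in coordinates -/
lemma sscPM_conj_g₁ {σ : GQ} (hσ : σ ∈ fr.E0.fixingSubgroup) (i j : Fin 2) :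
    sscPM loc fr c (fr.g₁⁻¹ * σ * fr.g₁) i j =
      (![fr.a₁⁻¹, fr.a₂⁻¹] i) * sscPM loc fr c σ i j * (![fr.a₁, fr.a₂] j) := by
  rw [sscPM_conj fr h hsurj (𝔓.I_le_D fr.hg₁) hσ, fr.R_g₁_inv, fr.R_g₁, Matrix.mul_diagonal,
    Matrix.diagonal_mul]

/-- the square of a Frobenius element acts through a scalar -/
lemma SscFrame.R_frob_sq {φ : GQ} (hφ : 𝔓.P.IsFrobeniusAt φ 𝔓.p) :
    ∃ μ : k, μ ≠ 0 ∧ sscR ρbar fr.bs (φ ^ 2) = μ • (1 : Matrix (Fin 2) (Fin 2) k) ∧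
      sscR ρbar fr.bs (φ ^ 2)⁻¹ = μ⁻¹ • (1 : Matrix (Fin 2) (Fin 2) k) := by
  obtain ⟨μ₁, μ₂, h1, h2, hR⟩ := fr.R_frob hφ
  have hsq : sscR ρbar fr.bs (φ ^ 2) = (μ₁ * μ₂) • (1 : Matrix (Fin 2) (Fin 2) k) := by
    rw [sscR_pow, hR, sq]
    ext i j
    fin_cases i <;> fin_cases j <;> simp [Matrix.mul_apply, Fin.sum_univ_two, mul_comm]
  refine ⟨μ₁ * μ₂, mul_ne_zero h1 h2, hsq, ?_⟩
  have h3 := sscR_inv_mul ρbar fr.bs (φ ^ 2)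
  rw [hsq, Matrix.mul_smul, mul_one] at h3
  have h4 : sscR ρbar fr.bs (φ ^ 2)⁻¹ = (μ₁ * μ₂)⁻¹ • ((μ₁ * μ₂) • sscR ρbar fr.bs (φ ^ 2)⁻¹) := by
    rw [smul_smul, inv_mul_cancel₀ (mul_ne_zero h1 h2), one_smul]
  rw [h4, h3]

include h h' hsurj in
/-- **dependence of the lower left entries of two cocycles satisfying the local condition** -/
theorem ssc_dep (hc : SscCond loc fr c) (hc' : SscCond loc fr c') {φ : GQ}
    (hφ : 𝔓.P.IsFrobeniusAt φ 𝔓.p) :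
    ∃ a b : k, (a ≠ 0 ∨ b ≠ 0) ∧ ∀ σ ∈ fr.E0.fixingSubgroup,
      a * sscPM loc fr c σ 1 0 + b * sscPM loc fr c' σ 1 0 = 0 := by
  have hp := 𝔓.hp
  have H := ssc_countHyp fr h h' hsurj hc hc'
  have hD : φ ∈ 𝔓.D := hφ.mem_decompositionSubgroup
  have hD2 : φ ^ 2 ∈ 𝔓.D := 𝔓.D.pow_mem hD 2
  have hg₁E : ∀ σ ∈ fr.E0.fixingSubgroup, fr.g₁⁻¹ * σ * fr.g₁ ∈ fr.E0.fixingSubgroup :=
    fun σ hσ => 𝔓.ssc_conj_mem fr.hπ₀ (𝔓.I_le_D fr.hg₁) hσ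
  have hg₀E : ∀ σ ∈ fr.E0.fixingSubgroup, (φ ^ 2)⁻¹ * σ * φ ^ 2 ∈ fr.E0.fixingSubgroup :=
    fun σ hσ => 𝔓.ssc_conj_mem fr.hπ₀ hD2 hσ
  have hε : ∀ σ ∈ fr.E0.fixingSubgroup,
      sscPair loc fr c c' (fr.g₁⁻¹ * σ * fr.g₁) = fr.ε • sscPair loc fr c c' σ := by
    intro σ hσ
    unfold sscPair
    rw [sscPM_conj_g₁ fr h hsurj hσ, sscPM_conj_g₁ fr h' hsurj hσ]
    simp only [Matrix.cons_val_one, Matrix.cons_val_zero, SscFrame.ε, Prod.smul_mk, smul_eq_mul]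
    congr 1 <;> ring
  have hlam : ∀ σ ∈ fr.E0.fixingSubgroup,
      sscPair loc fr c c' ((φ ^ 2)⁻¹ * σ * φ ^ 2) = (1 : k) • sscPair loc fr c c' σ := by
    intro σ hσ
    obtain ⟨μ, hμ, hR, hRinv⟩ := fr.R_frob_sq hφ
    unfold sscPair
    rw [sscPM_conj fr h hsurj hD2 hσ, sscPM_conj fr h' hsurj hD2 hσ, hR, hRinv, one_smul]
    simp only [Matrix.smul_mul, Matrix.mul_smul, one_mul, mul_one, smul_smul,
      mul_inv_cancel₀ hμ, one_smul]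
  have hf₀ : ∀ x, 𝔓.v.Ge x 0 → 𝔓.v.Gt ((φ ^ 2) x - x ^ (𝔓.p ^ 2)) 0 := by
    have := 𝔓.lf_frob_pow hD (f := 1) (fun x hx => by simpa using 𝔓.ssc_frob_gt hφ hx) 2
    simpa using this
  have hd : 2 ≤ (minpoly (ZMod 𝔓.p) fr.ε).natDegree := by
    haveI : Module.Finite (ZMod 𝔓.p) k := Module.Finite.of_finite
    have hint : IsIntegral (ZMod 𝔓.p) fr.ε := Algebra.IsIntegral.isIntegral fr.ε
    have hpos := minpoly.natDegree_pos hint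
    by_contra hlt
    have h1 : (minpoly (ZMod 𝔓.p) fr.ε).natDegree = 1 := by omega
    rw [minpoly.natDegree_eq_one_iff] at h1
    obtain ⟨a, ha⟩ := h1
    have h2 : fr.ε ^ 𝔓.p = fr.ε := by rw [← ha, ← map_pow, ZMod.pow_card]
    have h3 := fr.ε_pow
    rw [pow_succ, h2, ← sq] at h3
    exact fr.ε_sq_ne_one h3
  obtain ⟨w, hw⟩ := H.exists_line fr.hg₁ hD2 hg₁E hg₀E hε hlam (by norm_num) hf₀ hd
  by_cases hw0 : w = 0
  · refine ⟨1, 0, Or.inl one_ne_zero, fun σ hσ => ?_⟩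
    obtain ⟨t, ht⟩ := hw σ hσ
    rw [hw0, smul_zero] at ht
    have := congrArg Prod.fst ht
    simp only [sscPair, Prod.fst_zero] at this
    rw [this]; ring
  · refine ⟨w.2, -w.1, ?_, fun σ hσ => ?_⟩
    · by_contra hcon
      push Not at hcon
      apply hw0
      ext
      · simpa using hcon.2
      · simpa using hcon.1
    · obtain ⟨t, ht⟩ := hw σ hσ
      have h1 := congrArg Prod.fst ht
      have h2 := congrArg Prod.snd ht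
      simp only [sscPair, Prod.smul_fst, Prod.smul_snd, smul_eq_mul] at h1 h2
      rw [h1, h2]; ring

end Line

end Fermat.Agent.TW
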