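/-
P10 / G7 WP-E (helper5), supersingular count: the local condition `SscCond` is closed under
sums, scalar multiples and contains `0`.
-/
import Fermat.Agent.Lib.TW.SSCount.Dep

set_option autoImplicit false
set_option linter.unusedSectionVars false
set_option linter.style.haveILetI false

open scoped IntermediateField
open Polynomial

namespace Fermat.Agent.TW

open Fermat.Agent.S05Lib Fermat.Agent.S53Lib

local notation "Qb" => AlgebraicClosure ℚ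
local notation "GQ" => (AlgebraicClosure ℚ ≃ₐ[ℚ] AlgebraicClosure ℚ)

variable {k : Type} [Field k] {ρbar : ResidualGaloisRep k}
variable {G : Type*} [Group G] {loc : G →* GQ}
variable {𝔓 : FFPlace} [Algebra (ZMod 𝔓.p) k] (fr : SscFrame 𝔓 ρbar)
variable {c c' : G → (ad0Rep ρbar).V}

/-- the zero function satisfies the entry condition -/
lemma SscEntry.zero (hsurj : ∀ σ ∈ 𝔓.D, ∃ s, loc s = σ) (i j : Fin 2) :
    SscEntry loc fr (fun _ => (0 : (ad0Rep ρbar).V)) i j := by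
  intro ℓ y hy0 hy
  have hyE : y ∈ fr.E0 := by
    rw [FFPlace.lf_mem_iff_forall]
    intro σ hσ
    obtain ⟨s, rfl⟩ := hsurj σ (fr.mem_D hσ)
    rw [hy s hσ, sscMat_zero, Matrix.zero_apply, map_zero, lfZPow_zero, one_mul]
  refine ⟨y, hyE, hy0, ?_⟩
  rw [div_self (pow_ne_zero _ hy0), sub_self]
  exact 𝔓.v.ge_zero'

/-- scalar multiples -/
lemma SscEntry.smul {i j : Fin 2} (hc : SscEntry loc fr c i j) (a : k) :
    SscEntry loc fr (fun s => a • c s) i j := by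
  intro ℓ y hy0 hy
  refine hc (ℓ ∘ₗ LinearMap.mulLeft (ZMod 𝔓.p) a) y hy0 fun s hs => ?_
  rw [hy s hs, sscMat_smul, Matrix.smul_apply, smul_eq_mul]
  rfl

section Add

variable (h : SscCocycle loc ρbar c) (h' : SscCocycle loc ρbar c')
  (hsurj : ∀ σ ∈ 𝔓.D, ∃ s, loc s = σ)

include h h' hsurj in
/-- products of Kummer generators of two entries -/
lemma SscEntry.mul {i j i' j' : Fin 2} (hc : SscEntry loc fr c i j)
    (hc' : SscEntry loc fr c' i' j') (ℓ₁ ℓ₂ : k →ₗ[ZMod 𝔓.p] ZMod 𝔓.p) {y : Qb} (hy0 : y ≠ 0)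
    (hy : ∀ σ ∈ fr.E0.fixingSubgroup, σ y =
      lfZPow fr.ζ (ℓ₁ (sscPM loc fr c σ i j) + ℓ₂ (sscPM loc fr c' σ i' j')) * y) :
    ∃ w ∈ fr.E0, w ≠ 0 ∧ 𝔓.v.Ge (y ^ 𝔓.p / w ^ 𝔓.p - 1) 𝔓.sscLvl := by
  have hζ1 := fr.hζ.pow_eq_one
  obtain ⟨y₁, hy₁0, hy₁⟩ := ssc_exists_gen fr h hsurj i j ℓ₁
  obtain ⟨y₂, hy₂0, hy₂⟩ := ssc_exists_gen fr h' hsurj i' j' ℓ₂
  obtain ⟨w₁, hw₁, hw₁0, hge₁⟩ := hc.gen fr h hsurj ℓ₁ hy₁0 hy₁
  obtain ⟨w₂, hw₂, hw₂0, hge₂⟩ := hc'.gen fr h' hsurj ℓ₂ hy₂0 hy₂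
  have hy₁₂ := lf_kummer_mul fr.E0 hζ1 (fun σ => ℓ₁ (sscPM loc fr c σ i j))
    (fun σ => ℓ₂ (sscPM loc fr c' σ i' j')) hy₁ hy₂
  have htE : y / (y₁ * y₂) ∈ fr.E0 := lf_kummer_div_mem fr.E0 hζ1
    (fun σ => ℓ₁ (sscPM loc fr c σ i j) + ℓ₂ (sscPM loc fr c' σ i' j')) hy₁₂ hy
  set t := y / (y₁ * y₂) with ht
  have ht0 : t ≠ 0 := div_ne_zero hy0 (mul_ne_zero hy₁0 hy₂0)
  set w := w₁ * w₂ * t with hw
  have hwE : w ∈ fr.E0 := mul_mem (mul_mem hw₁ hw₂) htE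
  have hw0 : w ≠ 0 := mul_ne_zero (mul_ne_zero hw₁0 hw₂0) ht0
  have hlvl0 : (0 : ℚ) ≤ 𝔓.sscLvl := by unfold FFPlace.sscLvl; positivity
  refine ⟨w, hwE, hw0, ?_⟩
  have e : y ^ 𝔓.p / w ^ 𝔓.p = (y₁ ^ 𝔓.p / w₁ ^ 𝔓.p) * (y₂ ^ 𝔓.p / w₂ ^ 𝔓.p) := by
    have hy : y = t * (y₁ * y₂) := by rw [ht, div_mul_cancel₀ _ (mul_ne_zero hy₁0 hy₂0)]
    have hy₁p : y₁ ^ 𝔓.p ≠ 0 := pow_ne_zero _ hy₁0
    have hy₂p : y₂ ^ 𝔓.p ≠ 0 := pow_ne_zero _ hy₂0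
    have hw₁p : w₁ ^ 𝔓.p ≠ 0 := pow_ne_zero _ hw₁0
    have hw₂p : w₂ ^ 𝔓.p ≠ 0 := pow_ne_zero _ hw₂0
    have htp : t ^ 𝔓.p ≠ 0 := pow_ne_zero _ ht0
    rw [hw, hy, mul_pow, mul_pow, mul_pow, mul_pow]
    field_simp
  rw [e]
  exact 𝔓.ssc_ge_mul_sub_one hlvl0 hge₁ hge₂

include h h' hsurj in
/-- sums -/
lemma SscEntry.add {i j : Fin 2} (hc : SscEntry loc fr c i j) (hc' : SscEntry loc fr c' i j) :
    SscEntry loc fr (fun s => c s + c' s) i j := by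
  refine SscEntry.of_gen fr (h.add h') hsurj fun ℓ y hy0 hy => ?_
  refine hc.mul fr h h' hsurj hc' ℓ ℓ hy0 fun σ hσ => ?_
  rw [hy σ hσ]
  obtain ⟨s, rfl⟩ := hsurj σ (fr.mem_D hσ)
  rw [sscPM_loc fr (h.add h') hsurj, sscPM_loc fr h hsurj, sscPM_loc fr h' hsurj, sscMat_add,
    Matrix.add_apply, map_add]

end Add

/-- the zero function satisfies the local condition -/
lemma SscCond.zero (hsurj : ∀ σ ∈ 𝔓.D, ∃ s, loc s = σ) :
    SscCond loc fr (fun _ => (0 : (ad0Rep ρbar).V)) := by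
  refine ⟨fun s _ => ?_, SscEntry.zero fr hsurj 1 0, SscEntry.zero fr hsurj 0 1⟩
  rw [sscMat_zero, Matrix.zero_apply]

/-- scalar multiples -/
lemma SscCond.smul (hc : SscCond loc fr c) (a : k) : SscCond loc fr (fun s => a • c s) := by
  refine ⟨fun s hs => ?_, hc.2.1.smul fr a, hc.2.2.smul fr a⟩
  rw [sscMat_smul, Matrix.smul_apply, hc.1 s hs, smul_zero]

/-- sums -/
lemma SscCond.add (h : SscCocycle loc ρbar c) (h' : SscCocycle loc ρbar c')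
    (hsurj : ∀ σ ∈ 𝔓.D, ∃ s, loc s = σ) (hc : SscCond loc fr c) (hc' : SscCond loc fr c') :
    SscCond loc fr (fun s => c s + c' s) := by
  refine ⟨fun s hs => ?_, hc.2.1.add fr h h' hsurj hc'.2.1, hc.2.2.add fr h h' hsurj hc'.2.2⟩
  rw [sscMat_add, Matrix.add_apply, hc.1 s hs, hc'.1 s hs, add_zero]

end Fermat.Agent.TW
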