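/-
P10 / G7 WP-E (helper5), supersingular count: a cocycle whose diagonal and lower left entries
vanish on `Gal(ℚ̄/E0)` vanishes on `Gal(ℚ̄/E0)`, and is a coboundary on the inertia group.
-/
import Fermat.Agent.Lib.TW.SSCount.Cond

set_option autoImplicit false
set_option linter.unusedSectionVars false
set_option linter.style.haveILetI false

open scoped IntermediateField
open Polynomial

namespace Fermat.Agent.TW

open Fermat.Agent.S05Lib Fermat.Agent.S53Lib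

local notation "Qb" => AlgebraicClosure ℚ
local notation "GQ" => (AlgebraicClosure ℚ ≃ₐ[ℚ] AlgebraicClosure ℚ)

variable {k : Type} [Field k] {ρbar : ResidualGaloisRep k}
variable {G : Type*} [Group G] {loc : G →* GQ}
variable {𝔓 : FFPlace} (fr : SscFrame 𝔓 ρbar)
variable {c : G → (ad0Rep ρbar).V} (h : SscCocycle loc ρbar c)
  (hsurj : ∀ σ ∈ 𝔓.D, ∃ s, loc s = σ)

include h hsurj in
/-- **(V1)** if the `(0,0)` and `(1,0)` entries of `c` vanish on `Gal(ℚ̄/E0)`, so does `c` -/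
theorem ssc_vanish_E0 {φ : GQ} (hφ : 𝔓.P.IsFrobeniusAt φ 𝔓.p)
    (h00 : ∀ σ ∈ fr.E0.fixingSubgroup, sscPM loc fr c σ 0 0 = 0)
    (h10 : ∀ σ ∈ fr.E0.fixingSubgroup, sscPM loc fr c σ 1 0 = 0) :
    ∀ s, loc s ∈ fr.E0.fixingSubgroup → c s = 0 := by
  have hD : φ ∈ 𝔓.D := hφ.mem_decompositionSubgroup
  obtain ⟨μ₁, μ₂, hμ₁, hμ₂, hR⟩ := fr.R_frob hφ
  have h01 : ∀ σ ∈ fr.E0.fixingSubgroup, sscPM loc fr c σ 0 1 = 0 := by
    intro σ hσ
    have hconj : φ⁻¹ * σ * φ ∈ fr.E0.fixingSubgroup := 𝔓.ssc_conj_mem fr.hπ₀ hD hσ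
    have h1 := sscPM_conj fr h hsurj hD hσ
    have h2 : sscR ρbar fr.bs φ * sscPM loc fr c (φ⁻¹ * σ * φ) =
        sscPM loc fr c σ * sscR ρbar fr.bs φ := by
      rw [h1, ← mul_assoc, ← mul_assoc, sscR_mul_inv, one_mul]
    have h3 := congrFun (congrFun h2 0) 0
    rw [hR, Matrix.mul_apply, Matrix.mul_apply, Fin.sum_univ_two, Fin.sum_univ_two] at h3
    simp only [Matrix.of_apply, Matrix.cons_val', Matrix.cons_val_zero, Matrix.cons_val_one,
      Matrix.cons_val_fin_one, zero_mul, zero_add, mul_zero] at h3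
    rw [h10 _ hconj, mul_zero] at h3
    rcases mul_eq_zero.mp h3.symm with h4 | h4
    · exact h4
    · exact absurd h4 hμ₁
  intro s hs
  apply sscMat_injective ρbar fr.bs
  rw [sscMat_zero, ← sscPM_loc fr h hsurj]
  have h11 : sscPM loc fr c (loc s) 1 1 = 0 := by
    have := sscPM_trace fr h hsurj (loc s)
    rw [h00 _ hs, zero_add] at this
    exact this
  ext i j
  fin_cases i <;> fin_cases j
  · exact h00 _ hs
  · exact h01 _ hs
  · exact h10 _ hs
  · exact h11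

include h hsurj in
/-- **(V2)** a cocycle vanishing on `Gal(ℚ̄/E0)` is a coboundary on the inertia group -/
theorem ssc_exists_cob (hpk : (𝔓.p : k) = 0)
    (h0 : ∀ s, loc s ∈ fr.E0.fixingSubgroup → c s = 0) :
    ∃ m : (ad0Rep ρbar).V, ∀ s, loc s ∈ 𝔓.I → c s = (ad0Rep ρbar).ρ (loc s) m - m := by
  obtain ⟨s₁, hs₁⟩ := hsurj fr.g₁ (𝔓.I_le_D fr.hg₁)
  set N := 𝔓.p ^ 2 - 1 with hN
  have hNk : ((N : ℕ) : k) = -1 := by
    have h1 : 1 ≤ 𝔓.p ^ 2 := Nat.one_le_pow _ _ 𝔓.hp.pos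
    rw [hN, Nat.cast_sub h1, Nat.cast_pow, hpk]
    simp
  set S := ∑ j ∈ Finset.range N, c (s₁ ^ j) with hS
  -- the cocycle relation along powers of `s₁`
  have hA : ∀ j : ℕ, c (s₁ ^ (j + 1)) = (ad0Rep ρbar).ρ fr.g₁ (c (s₁ ^ j)) + c s₁ := by
    intro j
    rw [pow_succ', h.coc, hs₁]
  have hcN : c (s₁ ^ N) = 0 := by
    apply h0
    rw [map_pow, hs₁]
    exact fr.pow_mem
  have hB : (ad0Rep ρbar).ρ fr.g₁ S = S + c s₁ := by
    have e1 : ∑ j ∈ Finset.range N, c (s₁ ^ (j + 1)) = S := by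
      have e2 := Finset.sum_range_succ (fun j => c (s₁ ^ j)) N
      have e3 := Finset.sum_range_succ' (fun j => c (s₁ ^ j)) N
      rw [e2] at e3
      simp only [pow_zero, h.map_one, add_zero, hcN] at e3
      exact e3.symm
    have e4 : (ad0Rep ρbar).ρ fr.g₁ S = ∑ j ∈ Finset.range N, (c (s₁ ^ (j + 1)) - c s₁) := by
      rw [hS, map_sum]
      refine Finset.sum_congr rfl fun j _ => ?_
      rw [hA j, add_sub_cancel_right]
    rw [e4, Finset.sum_sub_distrib, e1, Finset.sum_const, Finset.card_range,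
      ← Nat.cast_smul_eq_nsmul k, hNk, neg_one_smul, sub_neg_eq_add]
  have hm1 : c s₁ = (ad0Rep ρbar).ρ fr.g₁ S - S := by rw [hB]; abel
  have hC : ∀ j : ℕ, c (s₁ ^ j) = (ad0Rep ρbar).ρ (fr.g₁ ^ j) S - S := by
    intro j
    induction j with
    | zero => rw [pow_zero, pow_zero, h.map_one, _root_.map_one, Module.End.one_apply, sub_self]
    | succ j ih =>
      rw [hA j, ih, hm1, pow_succ' fr.g₁, _root_.map_mul, Module.End.mul_apply, map_sub]
      abel
  refine ⟨S, fun s hs => ?_⟩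
  obtain ⟨j, -, hj⟩ := 𝔓.ssc_exists_pow_mul fr.hπ₀ fr.hg₁ fr.hξ fr.hgξ hs
  set t := (s₁ ^ j)⁻¹ * s with ht
  have hlt : loc t = (fr.g₁ ^ j)⁻¹ * loc s := by
    rw [ht, map_mul, map_inv, map_pow, hs₁]
  have hct : c t = 0 := h0 t (by rw [hlt]; exact hj)
  have hst : s = s₁ ^ j * t := by rw [ht, mul_inv_cancel_left]
  have hls : loc s = fr.g₁ ^ j * loc t := by
    rw [hlt, mul_inv_cancel_left]
  have hcs : c s = c (s₁ ^ j) := by
    rw [hst, h.coc, hct, map_zero, zero_add]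
  have htriv : (ad0Rep ρbar).ρ (loc t) S = S := fr.ρ_triv (by rw [hlt]; exact hj) S
  rw [hcs, hC j, hls, _root_.map_mul, Module.End.mul_apply, htriv]

section Key

variable [Algebra (ZMod 𝔓.p) k] [Finite k] {c' : G → (ad0Rep ρbar).V}
  (h' : SscCocycle loc ρbar c')

/-- the characteristic of `k` -/
lemma FFPlace.ssc_cast_eq_zero (𝔓 : FFPlace) (k : Type) [Field k] [Algebra (ZMod 𝔓.p) k] :
    (𝔓.p : k) = 0 := by
  have h1 : ((𝔓.p : ZMod 𝔓.p) : ZMod 𝔓.p) = 0 := ZMod.natCast_self _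
  have h2 := congrArg (algebraMap (ZMod 𝔓.p) k) h1
  rwa [map_natCast, map_zero] at h2

include h h' hsurj in
/-- **the key dependence**: a non-trivial combination of two cocycles satisfying the local
condition is a coboundary on the inertia group -/
theorem ssc_key (hc : SscCond loc fr c) (hc' : SscCond loc fr c') :
    ∃ a b : k, (a ≠ 0 ∨ b ≠ 0) ∧ ∃ m : (ad0Rep ρbar).V, ∀ s, loc s ∈ 𝔓.I →
      a • c s + b • c' s = (ad0Rep ρbar).ρ (loc s) m - m := by
  obtain ⟨φ, hφ⟩ := Fermat.Agent.Lib.Helper6.exists_isFrobeniusAt 𝔓.P 𝔓.hp 𝔓.hP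
  obtain ⟨a, b, hab, hdep⟩ := ssc_dep fr h h' hsurj hc hc' hφ
  refine ⟨a, b, hab, ?_⟩
  have h₂ : SscCocycle loc ρbar (fun s => a • c s + b • c' s) := (h.smul a).add (h'.smul b)
  have hc₂ : SscCond loc fr (fun s => a • c s + b • c' s) :=
    SscCond.add fr (h.smul a) (h'.smul b) hsurj (hc.smul fr a) (hc'.smul fr b)
  have h00 : ∀ σ ∈ fr.E0.fixingSubgroup,
      sscPM loc fr (fun s => a • c s + b • c' s) σ 0 0 = 0 := by
    intro σ hσ
    obtain ⟨s, rfl⟩ := hsurj σ (fr.mem_D hσ)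
    rw [sscPM_loc fr h₂ hsurj]
    exact hc₂.1 s hσ
  have h10 : ∀ σ ∈ fr.E0.fixingSubgroup,
      sscPM loc fr (fun s => a • c s + b • c' s) σ 1 0 = 0 := by
    intro σ hσ
    have := hdep σ hσ
    obtain ⟨s, rfl⟩ := hsurj σ (fr.mem_D hσ)
    rw [sscPM_loc fr h hsurj, sscPM_loc fr h' hsurj] at this
    rw [sscPM_loc fr h₂ hsurj, sscMat_add, sscMat_smul, sscMat_smul, Matrix.add_apply,
      Matrix.smul_apply, Matrix.smul_apply, smul_eq_mul, smul_eq_mul]
    exact this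
  have hv := ssc_vanish_E0 fr h₂ hsurj hφ h00 h10
  exact ssc_exists_cob fr h₂ hsurj (𝔓.ssc_cast_eq_zero k) hv

end Key

end Fermat.Agent.TW
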