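/-
P10 / G7 WP-E (helper5), supersingular count, (E3): the local condition `ssLp` at `p` in the
supersingular case: classes of level-constant cocycles of `G_p` with values in `ad⁰ ρbar`
satisfying `SscCond`; `ssLp ≤ locCont`, `finrank ssLp ≤ h⁰ + 1`.
-/
import Fermat.Agent.Lib.TW.SSCount.Vanish
import Fermat.Agent.Lib.TW.Local.LocalFinal

set_option autoImplicit false
set_option linter.unusedSectionVars false
set_option linter.style.haveILetI false

open scoped IntermediateField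
open Polynomial groupCohomology ExtCitation CategoryTheory

namespace Fermat.Agent.TW

open Fermat.Agent.S05Lib Fermat.Agent.S53Lib

local notation "Qb" => AlgebraicClosure ℚ
local notation "GQ" => (AlgebraicClosure ℚ ≃ₐ[ℚ] AlgebraicClosure ℚ)

/-- a subspace any two elements of which are dependent modulo `U` has dimension `≤ dim U + 1` -/
theorem ssc_finrank_le_of_dep {K V : Type*} [Field K] [AddCommGroup V] [Module K V]
    (U L : Submodule K V) [FiniteDimensional K U]
    (hdep : ∀ x ∈ L, ∀ y ∈ L, ∃ a b : K, (a ≠ 0 ∨ b ≠ 0) ∧ a • x + b • y ∈ U) :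
    Module.finrank K L ≤ Module.finrank K U + 1 := by
  by_cases hLU : L ≤ U
  · exact (Submodule.finrank_mono hLU).trans (Nat.le_succ _)
  · obtain ⟨x₀, hx₀L, hx₀U⟩ := SetLike.not_le_iff_exists.mp hLU
    have hle : L ≤ U ⊔ K ∙ x₀ := by
      intro y hy
      obtain ⟨a, b, hab, hU⟩ := hdep x₀ hx₀L y hy
      have hb : b ≠ 0 := by
        intro hb
        rw [hb, zero_smul, add_zero] at hU
        have ha : a ≠ 0 := hab.resolve_right (fun h => h hb)
        apply hx₀U
        have := U.smul_mem a⁻¹ hU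
        rwa [smul_smul, inv_mul_cancel₀ ha, one_smul] at this
      have e : y = b⁻¹ • (a • x₀ + b • y) + (-(b⁻¹ * a)) • x₀ := by
        rw [smul_add, smul_smul, smul_smul, inv_mul_cancel₀ hb, one_smul, neg_smul]
        abel
      rw [e]
      exact Submodule.add_mem_sup (U.smul_mem _ hU)
        (Submodule.smul_mem _ _ (Submodule.mem_span_singleton_self x₀))
    calc Module.finrank K L ≤ Module.finrank K ↥(U ⊔ K ∙ x₀) := Submodule.finrank_mono hle
      _ ≤ Module.finrank K U + Module.finrank K ↥(K ∙ x₀) :=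
          Submodule.finrank_add_le_finrank_add_finrank _ _
      _ ≤ Module.finrank K U + 1 := by
          have hx0 : x₀ ≠ 0 := fun h => hx₀U (h ▸ U.zero_mem)
          rw [finrank_span_singleton hx0]

noncomputable section

variable {k : Type} [Field k] {ρbar : ResidualGaloisRep k}
variable {𝔓 : FFPlace} [Algebra (ZMod 𝔓.p) k]
variable (q : Nat.Primes) (hP : 𝔓.P = primeLocalPlace q) (fr : SscFrame 𝔓 ρbar)

include hP in
/-- surjectivity of `G_q → D` -/
lemma ssc_surj : ∀ σ ∈ 𝔓.D, ∃ s, primeLocalToGlobal q s = σ := by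
  intro σ hσ
  refine tw_localSurj q σ ?_
  rw [← hP]
  exact hσ

/-- level-constant cocycles are `SscCocycle`s -/
lemma ssc_cocycle_of (c : cocycles₁ (locAt q (ad0Rep ρbar)))
    (hc : IsLevelConstant₁ (primeLocalToGlobal q) c) :
    SscCocycle (primeLocalToGlobal q) ρbar (fun s => c s) :=
  ⟨fun g h => tw_coc_mul q _ c g h, hc⟩

/-- the level-constant cocycles satisfying the local condition `SscCond` -/
def sscLpCocycles : Submodule k (cocycles₁ (locAt q (ad0Rep ρbar))) where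
  carrier := {c | IsLevelConstant₁ (primeLocalToGlobal q) c ∧
    SscCond (primeLocalToGlobal q) fr (fun s => c s)}
  add_mem' := by
    rintro c c' ⟨h1, h2⟩ ⟨h1', h2'⟩
    exact ⟨h1.add h1', SscCond.add fr (ssc_cocycle_of q c h1) (ssc_cocycle_of q c' h1')
      (ssc_surj q hP) h2 h2'⟩
  zero_mem' := ⟨isLevelConstant₁_const _ 0, SscCond.zero fr (ssc_surj q hP)⟩
  smul_mem' := by
    rintro a c ⟨h1, h2⟩
    exact ⟨h1.comp (fun x => a • x), h2.smul fr a⟩

/-- **the local condition at `p` in the supersingular case** -/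
def ssLp : Submodule k (H1 (locAt q (ad0Rep ρbar))) :=
  (sscLpCocycles q hP fr).map (H1π (locAt q (ad0Rep ρbar))).hom

theorem mem_ssLp_iff (x : H1 (locAt q (ad0Rep ρbar))) :
    x ∈ ssLp q hP fr ↔ ∃ c : cocycles₁ (locAt q (ad0Rep ρbar)),
      IsLevelConstant₁ (primeLocalToGlobal q) c ∧
      SscCond (primeLocalToGlobal q) fr (fun s => c s) ∧
      (H1π (locAt q (ad0Rep ρbar))).hom c = x := by
  unfold ssLp
  rw [Submodule.mem_map]
  constructor
  · rintro ⟨c, ⟨h1, h2⟩, h3⟩
    exact ⟨c, h1, h2, h3⟩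
  · rintro ⟨c, h1, h2, h3⟩
    exact ⟨c, ⟨h1, h2⟩, h3⟩

/-- **membership in `ssLp`** -/
theorem ssc_mem_ssLp (c : cocycles₁ (locAt q (ad0Rep ρbar)))
    (hc : IsLevelConstant₁ (primeLocalToGlobal q) c)
    (hcond : SscCond (primeLocalToGlobal q) fr (fun s => c s)) :
    (H1π (locAt q (ad0Rep ρbar))).hom c ∈ ssLp q hP fr :=
  (mem_ssLp_iff q hP fr _).2 ⟨c, hc, hcond, rfl⟩

/-- `ssLp` consists of continuous classes -/
theorem ssLp_le_locCont : ssLp q hP fr ≤ locCont q (ad0Rep ρbar) := by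
  intro x hx
  obtain ⟨c, h1, -, h3⟩ := (mem_ssLp_iff q hP fr x).1 hx
  exact (mem_continuousH1_iff _ _ _).2 ⟨c, h1, h3⟩

variable [Finite k]

/-- two classes in `ssLp` are dependent modulo the unramified classes -/
theorem ssLp_dep (x : H1 (locAt q (ad0Rep ρbar))) (hx : x ∈ ssLp q hP fr)
    (y : H1 (locAt q (ad0Rep ρbar))) (hy : y ∈ ssLp q hP fr) :
    ∃ a b : k, (a ≠ 0 ∨ b ≠ 0) ∧ a • x + b • y ∈ twUr q (ad0Rep ρbar) := by
  obtain ⟨c, hc1, hc2, rfl⟩ := (mem_ssLp_iff q hP fr x).1 hx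
  obtain ⟨c', hc1', hc2', rfl⟩ := (mem_ssLp_iff q hP fr y).1 hy
  obtain ⟨a, b, hab, m, hm⟩ := ssc_key fr (ssc_cocycle_of q c hc1) (ssc_surj q hP)
    (ssc_cocycle_of q c' hc1') hc2 hc2'
  refine ⟨a, b, hab, ?_⟩
  let M := ad0Rep ρbar
  let cob : cocycles₁ (locAt q M) :=
    ⟨(d₀₁ (locAt q M)).hom m, d₀₁_apply_mem_cocycles₁ (A := locAt q M) m⟩
  have hcob0 : (H1π (locAt q M)).hom cob = 0 := by
    rw [H1π_eq_zero_iff]
    exact ⟨m, rfl⟩
  have hcoblvl : IsLevelConstant₁ (primeLocalToGlobal q) cob := by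
    obtain ⟨F, hF, hFs⟩ := tw_ad0Rep_smooth (ρbar := ρbar)
    refine ⟨F, hF, fun g s hs => ?_⟩
    show (d₀₁ (locAt q M)).hom m (g * s) = (d₀₁ (locAt q M)).hom m g
    rw [d₀₁_hom_apply, d₀₁_hom_apply, map_mul, Module.End.mul_apply]
    have : (locAt q M).ρ s m = m := by
      show M.ρ (primeLocalToGlobal q s) m = m
      rw [hFs _ hs]; rfl
    rw [this]
  rw [mem_twUr_iff]
  refine ⟨a • c + b • c' - cob, ?_, ?_, ?_⟩
  · have h1 := ((hc1.comp (fun x => a • x)).add (hc1'.comp (fun x => b • x))).add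
      (hcoblvl.comp (fun x => -x))
    obtain ⟨F, hF, hFc⟩ := h1
    refine ⟨F, hF, fun g s hs => ?_⟩
    have := hFc g s hs
    simp only [Pi.add_apply, Function.comp_apply] at this
    show a • c (g * s) + b • c' (g * s) - cob (g * s) = a • c g + b • c' g - cob g
    rw [sub_eq_add_neg, sub_eq_add_neg]
    exact this
  · intro τ hτ
    have hτI : primeLocalToGlobal q τ ∈ 𝔓.I := by
      show primeLocalToGlobal q τ ∈ 𝔓.P.inertiaSubgroupIn ℚ
      rw [hP]
      exact hτ
    have h1 := hm τ hτI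
    show a • c τ + b • c' τ - (d₀₁ (locAt q M)).hom m τ = 0
    rw [d₀₁_hom_apply, h1]
    exact sub_self _
  · rw [map_sub, hcob0, sub_zero, map_add, map_smul, map_smul]

/-- **the dimension of `ssLp`** -/
theorem finrank_ssLp_le : Module.finrank k (ssLp q hP fr) ≤ h0At ρbar q + 1 := by
  obtain ⟨hfd, -⟩ := tw_finrank_twUr_le (q := q) (M := ad0Rep ρbar) (tw_localSurj q)
    (tw_ad0Rep_smooth (ρbar := ρbar))
  haveI := hfd
  exact (ssc_finrank_le_of_dep (twUr q (ad0Rep ρbar)) (ssLp q hP fr)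
    (ssLp_dep q hP fr)).trans (Nat.succ_le_succ (tw_finrank_twUr_ad0_le ρbar q))

end

end Fermat.Agent.TW
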