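/-
P10 / G7 WP-E (helper5), supersingular count, (E3): the deliverables specialised to the place
`ffPlaceAt p` and the prime `pPrime p`: the local condition `ssLpAt`, `ssLpAt ≤ locCont`,
`finrank ssLpAt ≤ h⁰ + 1`, the membership criterion in explicit coordinates, the reduction of
`ContractLocP` to `TangentClassesIn`, and the level dichotomy `ssc_level_two_of_not`.
-/
import Fermat.Agent.Lib.TW.SSCount.Main
import Fermat.Agent.Lib.TW.SSCount.DepK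
import Fermat.Agent.Lib.TW.Flat.Place

set_option autoImplicit false
set_option linter.unusedSectionVars false
set_option linter.style.haveILetI false

open scoped IntermediateField
open Polynomial groupCohomology ExtCitation CategoryTheory

namespace Fermat.Agent.TW

open Fermat.Agent.S05Lib Fermat.Agent.S53Lib

local notation "Qb" => AlgebraicClosure ℚ
local notation "GQ" => (AlgebraicClosure ℚ ≃ₐ[ℚ] AlgebraicClosure ℚ)

noncomputable section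

variable {k : Type} [Field k] {ρbar : ResidualGaloisRep k}

/-- the entries of `sscMat` -/
lemma sscMat_apply (bs : Module.Basis (Fin 2) k ρbar.V) (x : (ad0Rep ρbar).V) (i j : Fin 2) :
    sscMat ρbar bs x i j = bs.repr (ad0Val ρbar x (bs j)) i := by
  unfold sscMat
  rw [LinearMap.toMatrix_apply]

/-- the `ZMod (ffPlaceAt p).p`-algebra structure of a `ZMod p`-algebra -/
@[reducible] def sscAlg (p : ℕ) [Fact p.Prime] (k : Type) [Field k] [Algebra (ZMod p) k] :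
    Algebra (ZMod (ffPlaceAt p).p) k := inferInstanceAs (Algebra (ZMod p) k)

variable (p : ℕ) [Fact p.Prime] [Algebra (ZMod p) k] (fr : SscFrame (ffPlaceAt p) ρbar)

/-- **the local condition at `p` in the supersingular case** (for the place `ffPlaceAt p`) -/
def ssLpAt : Submodule k (H1 (locAt (pPrime p) (ad0Rep ρbar))) :=
  letI := sscAlg p k
  ssLp (pPrime p) rfl fr

/-- `ssLpAt` consists of continuous classes -/
theorem ssLpAt_le_locCont : ssLpAt p fr ≤ locCont (pPrime p) (ad0Rep ρbar) :=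
  letI := sscAlg p k
  ssLp_le_locCont (pPrime p) rfl fr

/-- **the dimension of `ssLpAt`** -/
theorem finrank_ssLpAt_le [Finite k] :
    Module.finrank k (ssLpAt p fr) ≤ h0At ρbar (pPrime p) + 1 :=
  letI := sscAlg p k
  finrank_ssLp_le (pPrime p) rfl fr

/-- **membership in `ssLpAt`**, in explicit coordinates: `(L0)` the diagonal entries vanish on
`Gal(ℚ̄/E0)`, `(L-)`, `(L+)` all Kummer classes of the lower left and the upper right entry have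
level `≥ p² + 1` -/
theorem ssc_mem_ssLpAt (c : cocycles₁ (locAt (pPrime p) (ad0Rep ρbar)))
    (hc : IsLevelConstant₁ (primeLocalToGlobal (pPrime p)) c)
    (hL0 : ∀ s, primeLocalToGlobal (pPrime p) s ∈ fr.E0.fixingSubgroup →
      fr.bs.repr (ad0Val ρbar (c s) (fr.bs 0)) 0 = 0)
    (hLm : ∀ (ℓ : k →ₗ[ZMod p] ZMod p) (y : Qb), y ≠ 0 →
      (∀ s, primeLocalToGlobal (pPrime p) s ∈ fr.E0.fixingSubgroup →
        (primeLocalToGlobal (pPrime p) s) y =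
          lfZPow fr.ζ (ℓ (fr.bs.repr (ad0Val ρbar (c s) (fr.bs 0)) 1)) * y) →
      ∃ w ∈ fr.E0, w ≠ 0 ∧ (ffPlaceAt p).v.Ge (y ^ p / w ^ p - 1)
        (((p ^ 2 + 1 : ℕ) : ℚ) / ((p ^ 2 - 1 : ℕ) : ℚ)))
    (hLp : ∀ (ℓ : k →ₗ[ZMod p] ZMod p) (y : Qb), y ≠ 0 →
      (∀ s, primeLocalToGlobal (pPrime p) s ∈ fr.E0.fixingSubgroup →
        (primeLocalToGlobal (pPrime p) s) y =
          lfZPow fr.ζ (ℓ (fr.bs.repr (ad0Val ρbar (c s) (fr.bs 1)) 0)) * y) →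
      ∃ w ∈ fr.E0, w ≠ 0 ∧ (ffPlaceAt p).v.Ge (y ^ p / w ^ p - 1)
        (((p ^ 2 + 1 : ℕ) : ℚ) / ((p ^ 2 - 1 : ℕ) : ℚ))) :
    (H1π (locAt (pPrime p) (ad0Rep ρbar))).hom c ∈ ssLpAt p fr := by
  letI := sscAlg p k
  refine ssc_mem_ssLp (pPrime p) rfl fr c hc ⟨fun s hs => ?_, ?_, ?_⟩
  · rw [sscMat_apply]
    exact hL0 s hs
  · intro ℓ y hy0 hy
    refine hLm ℓ y hy0 fun s hs => ?_
    rw [hy s hs, sscMat_apply]
    rfl
  · intro ℓ y hy0 hy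
    refine hLp ℓ y hy0 fun s hs => ?_
    rw [hy s hs, sscMat_apply]
    rfl

/-- **(C-LOC-p) in the supersingular case, reduced to the tangent classes** -/
theorem ssc_contractLocP [Finite k] (b : Module.Basis (Fin 2) k ρbar.V)
    (cond : GaloisRepAdic (DualNumber k) → Prop)
    (htan : TangentClassesIn ρbar b cond (pPrime p) (ssLpAt p fr)) :
    ContractLocP p ρbar b cond :=
  ⟨ssLpAt p fr, ssLpAt_le_locCont p fr, finrank_ssLpAt_le p fr, htan⟩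

end

/-- **the level dichotomy**: a Kummer class over `E0` on which the inertia group acts through
`ch ^ (p - 1)` (`ch` a fundamental character of level `2`) and which is not of level `≥ p² + 1`
has exact level `2` -/
theorem FFPlace.ssc_level_two_of_not {𝔓 : FFPlace} {W : Type*} [AddCommGroup W]
    [Module (ZMod 𝔓.p) W] {k : Type*} [Field k] [Algebra (ZMod 𝔓.p) k] [Module k W]
    [IsScalarTower (ZMod 𝔓.p) k W] {π₀ : Qb} {ch : GQ → k}
    (hp2 : 𝔓.p ≠ 2) (hπ₀ : π₀ ^ (𝔓.p ^ 2 - 1) = -(𝔓.p : Qb)) {ζ : Qb}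
    (hζ : IsPrimitiveRoot ζ 𝔓.p) (hch : 𝔓.LFFund π₀ ch) {g₀ : GQ} (hg₀ : g₀ ∈ 𝔓.I) {ξ : Qb}
    (hξ : IsPrimitiveRoot ξ (𝔓.p ^ 2 - 1)) (hgξ : g₀ π₀ = ξ * π₀) {c : GQ → W}
    (hε : ∀ σ ∈ (lfAdjoin 𝔓.K0 π₀).fixingSubgroup,
      c (g₀ * σ * g₀⁻¹) = (ch g₀ ^ (𝔓.p - 1)) • c σ)
    (ℓ : W →ₗ[ZMod 𝔓.p] ZMod 𝔓.p) {y : Qb} (hy0 : y ≠ 0)
    (hy : ∀ σ ∈ (lfAdjoin 𝔓.K0 π₀).fixingSubgroup, σ y = lfZPow ζ (ℓ (c σ)) * y)
    (hnot : ¬ ∃ w ∈ lfAdjoin 𝔓.K0 π₀, w ≠ 0 ∧ 𝔓.v.Ge (y ^ 𝔓.p / w ^ 𝔓.p - 1)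
      (((𝔓.p ^ 2 + 1 : ℕ) : ℚ) / ((𝔓.p ^ 2 - 1 : ℕ) : ℚ))) :
    ∃ w ∈ lfAdjoin 𝔓.K0 π₀, w ≠ 0 ∧
      𝔓.v.Is (y ^ 𝔓.p / w ^ 𝔓.p - 1) (((2 : ℕ) : ℚ) / ((𝔓.p ^ 2 - 1 : ℕ) : ℚ)) := by
  rcases 𝔓.ssc_dep_level hp2 hπ₀ hζ hch hg₀ hξ hgξ hε ℓ hy0 hy with h | h | ⟨w, hw, hw0, hlev⟩
  · exfalso
    refine hnot ⟨y, h, hy0, ?_⟩
    rw [div_self (pow_ne_zero _ hy0), sub_self]
    exact 𝔓.v.ge_zero'
  · exact h
  · exact absurd ⟨w, hw, hw0, hlev.ge⟩ hnot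

end Fermat.Agent.TW
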