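/-
P10 / G7 WP-E (helper5): from a supersingular frame `SSFrame` (helper2, `Lib/TW/Flat/SS/Frame.lean`)
to the data `SscFrame` of the supersingular count.
-/
import Fermat.Agent.Lib.TW.SSCount.Frame
import Fermat.Agent.Lib.TW.SSCount.DepK
import Fermat.Agent.Lib.TW.Flat.SS.Frame

set_option autoImplicit false
set_option linter.unusedSectionVars false
set_option linter.style.haveILetI false

open scoped IntermediateField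
open Polynomial

namespace Fermat.Agent.TW

open Fermat.Agent.S05Lib Fermat.Agent.S53Lib

local notation "Qb" => AlgebraicClosure ℚ
local notation "GQ" => (AlgebraicClosure ℚ ≃ₐ[ℚ] AlgebraicClosure ℚ)

variable {𝔓 : FFPlace} {k : Type} [Field k] [Algebra (ZMod 𝔓.p) k] {π₀ : Qb} {ch : GQ → k}

/-- the order of the value of a fundamental character of level two at a generator of the tame
inertia group of `E0 / K0` is `p² - 1` -/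
lemma FFPlace.LFFund.dvd_of_pow_eq_one (hπ₀ : π₀ ^ (𝔓.p ^ 2 - 1) = -(𝔓.p : Qb))
    (hch : 𝔓.LFFund π₀ ch) {g : GQ} (hg : g ∈ 𝔓.I) {ξ : Qb}
    (hξ : IsPrimitiveRoot ξ (𝔓.p ^ 2 - 1)) (hgξ : g π₀ = ξ * π₀) {n : ℕ}
    (hn : ch g ^ n = 1) : 𝔓.p ^ 2 - 1 ∣ n := by
  have hcop : ¬ 𝔓.p ∣ 𝔓.p ^ 2 - 1 := by
    have := 𝔓.ssc_coprime
    rw [Nat.coprime_comm, Nat.Prime.coprime_iff_not_dvd 𝔓.hp] at this
    exact this
  have hπ0 := 𝔓.ssc_pi_ne_zero hπ₀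
  have hθ : g π₀ / π₀ = ξ := by rw [hgξ, mul_div_cancel_right₀ _ hπ0]
  have h1 := (hch.aeval_iff hπ₀ hg 1 (X ^ n - 1)).mp (by
    rw [map_sub, map_pow, aeval_X, aeval_one, pow_one, hn, sub_self])
  rw [Polynomial.map_sub, Polynomial.map_pow, Polynomial.map_X, Polynomial.map_one,
    Polynomial.eval_sub, Polynomial.eval_pow, Polynomial.eval_X, Polynomial.eval_one, pow_one,
    sub_eq_zero, hθ] at h1
  exact (𝔓.ssc_res_primitive hcop hξ).pow_eq_one_iff_dvd n |>.mp h1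

/-- **from `SSFrame` to `SscFrame`** -/
theorem SSFrame.exists_sscFrame {ρbar : ResidualGaloisRep k}
    {bs : Module.Basis (Fin 2) k ρbar.V} {φ : Fin 2 → GQ → k} (fr : SSFrame 𝔓 ρbar π₀ bs φ)
    {ζ : Qb} (hζ : IsPrimitiveRoot ζ 𝔓.p) :
    ∃ fr' : SscFrame 𝔓 ρbar, fr'.π₀ = π₀ ∧ fr'.bs = bs ∧ fr'.ζ = ζ ∧
      fr'.a₁ = φ 0 fr'.g₁ ∧ fr'.a₂ = φ 1 fr'.g₁ := by
  have hp := 𝔓.hp
  have hp2 : 2 ≤ 𝔓.p := hp.two_le
  obtain ⟨g₁, hg₁, ξ, hξ, hgξ⟩ := 𝔓.ssc_exists_tame_gen fr.pi0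
  have ha : φ 1 g₁ = φ 0 g₁ ^ 𝔓.p := by
    have := fr.frob g₁ hg₁ 0
    rwa [zero_add] at this
  have hpow := (fr.fund_all 0).pow_eq_one fr.pi0 hg₁
  have ha0 : φ 0 g₁ ≠ 0 := by
    intro h
    rw [h, zero_pow 𝔓.ssc_d_pos.ne'] at hpow
    exact zero_ne_one hpow
  refine ⟨⟨π₀, ξ, ζ, g₁, bs, φ 0 g₁, φ 1 g₁, fr.pi0, hζ, hg₁, hξ, hgξ, fr.eig g₁ hg₁ 0,
    fr.eig g₁ hg₁ 1, ha, ?_, ?_⟩, rfl, rfl, rfl, rfl, rfl⟩
  · -- `(a₁ / a₂) ^ 2 ≠ 1`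
    intro h
    rw [ha, mul_pow, inv_pow, ← pow_mul] at h
    have h1 : (φ 0 g₁) ^ 2 = (φ 0 g₁) ^ (𝔓.p * 2) := by
      have h0 : (φ 0 g₁) ^ (𝔓.p * 2) ≠ 0 := pow_ne_zero _ ha0
      field_simp at h
      exact h
    have h2 : (φ 0 g₁) ^ (𝔓.p * 2 - 2) = 1 := by
      have e : 𝔓.p * 2 = 2 + (𝔓.p * 2 - 2) := by omega
      rw [e, pow_add] at h1
      have h3 : (φ 0 g₁) ^ 2 ≠ 0 := pow_ne_zero _ ha0
      exact (mul_left_cancel₀ h3 (by rw [mul_one]; exact h1)).symm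
    have h3 := (fr.fund_all 0).dvd_of_pow_eq_one fr.pi0 hg₁ hξ hgξ h2
    have h4 : 0 < 𝔓.p * 2 - 2 := by omega
    have h5 := Nat.le_of_dvd h4 h3
    have h6 : 𝔓.p * 2 - 2 < 𝔓.p ^ 2 - 1 := by
      have : 𝔓.p ^ 2 = 𝔓.p * 𝔓.p := sq _
      have : 𝔓.p * 2 ≤ 𝔓.p * 𝔓.p := Nat.mul_le_mul_left _ hp2
      omega
    omega
  · intro σ hσ
    have hσI : σ ∈ 𝔓.I := 𝔓.ssc_fixingSubgroup_le fr.pi0 hσ
    have hσπ : σ π₀ = π₀ :=
      ((FFPlace.lf_mem_fixingSubgroup_adjoin_iff (E := 𝔓.K0) (y := π₀) (σ := σ)).mp hσ).2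
    exact fr.rho_fix hσI hσπ

/-- **from `SSFrame` to `SscFrame`**, the form consumed by the final assembly -/
theorem ssc_frame_of_ss {ρbar : ResidualGaloisRep k} {bs : Module.Basis (Fin 2) k ρbar.V}
    {φ : Fin 2 → GQ → k} (fr : SSFrame 𝔓 ρbar π₀ bs φ) {ζ : Qb} (hζ : IsPrimitiveRoot ζ 𝔓.p) :
    ∃ fr' : SscFrame 𝔓 ρbar, fr'.π₀ = π₀ ∧ fr'.bs = bs ∧ fr'.ζ = ζ := by
  obtain ⟨fr', h1, h2, h3, -, -⟩ := fr.exists_sscFrame hζ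
  exact ⟨fr', h1, h2, h3⟩

/-- **the `SscFrame` of an `SSFrame`**, with `π₀`, `bs`, `ζ` definitionally unchanged -/
noncomputable def SSFrame.toSscAuto {ρbar : ResidualGaloisRep k} {bs : Module.Basis (Fin 2) k ρbar.V}
    {φ : Fin 2 → GQ → k} (fr : SSFrame 𝔓 ρbar π₀ bs φ) {ζ : Qb} (hζ : IsPrimitiveRoot ζ 𝔓.p) :
    SscFrame 𝔓 ρbar :=
  { (fr.exists_sscFrame hζ).choose with
    π₀ := π₀
    bs := bs
    ζ := ζ
    hπ₀ := fr.pi0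
    hζ := hζ
    hgξ := by
      have h := (fr.exists_sscFrame hζ).choose.hgξ
      rwa [(fr.exists_sscFrame hζ).choose_spec.1] at h
    h1 := by
      have h := (fr.exists_sscFrame hζ).choose.h1
      rwa [(fr.exists_sscFrame hζ).choose_spec.2.1] at h
    h2 := by
      have h := (fr.exists_sscFrame hζ).choose.h2
      rwa [(fr.exists_sscFrame hζ).choose_spec.2.1] at h
    htriv := by
      have h := (fr.exists_sscFrame hζ).choose.htriv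
      rwa [(fr.exists_sscFrame hζ).choose_spec.1] at h }

@[simp] lemma SSFrame.toSscAuto_π₀ {ρbar : ResidualGaloisRep k} {bs : Module.Basis (Fin 2) k ρbar.V}
    {φ : Fin 2 → GQ → k} (fr : SSFrame 𝔓 ρbar π₀ bs φ) {ζ : Qb} (hζ : IsPrimitiveRoot ζ 𝔓.p) :
    (fr.toSscAuto hζ).π₀ = π₀ := rfl

@[simp] lemma SSFrame.toSscAuto_bs {ρbar : ResidualGaloisRep k} {bs : Module.Basis (Fin 2) k ρbar.V}
    {φ : Fin 2 → GQ → k} (fr : SSFrame 𝔓 ρbar π₀ bs φ) {ζ : Qb} (hζ : IsPrimitiveRoot ζ 𝔓.p) :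
    (fr.toSscAuto hζ).bs = bs := rfl

@[simp] lemma SSFrame.toSscAuto_ζ {ρbar : ResidualGaloisRep k} {bs : Module.Basis (Fin 2) k ρbar.V}
    {φ : Fin 2 → GQ → k} (fr : SSFrame 𝔓 ρbar π₀ bs φ) {ζ : Qb} (hζ : IsPrimitiveRoot ζ 𝔓.p) :
    (fr.toSscAuto hζ).ζ = ζ := rfl

lemma SSFrame.toSscAuto_E0 {ρbar : ResidualGaloisRep k} {bs : Module.Basis (Fin 2) k ρbar.V}
    {φ : Fin 2 → GQ → k} (fr : SSFrame 𝔓 ρbar π₀ bs φ) {ζ : Qb} (hζ : IsPrimitiveRoot ζ 𝔓.p) :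
    (fr.toSscAuto hζ).E0 = lfAdjoin 𝔓.K0 π₀ := rfl

end Fermat.Agent.TW
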